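/-
PT / LOCAL layer, piece L1 (helper33).

Index of `n`-th powers in the unit group of a henselian discrete valuation ring with finite
residue field, and in the multiplicative group of its fraction field:

* `exists_root_of_map_eq_linear` : Hensel's lemma for NON-monic polynomials whose reduction is
  linear (`F ≡ b X + c` with `b ≠ 0`).
* `card_units_quot_pow` : `[Rˣ : (Rˣ)ⁿ] = #μₙ(R) · #(R / n R)`.
* `card_fracUnits_quot_pow` : `[Kˣ : (Kˣ)ⁿ] = n · #μₙ(K) · #(R / n R)` for `K = Frac R`.
-/
import Mathlib

set_option autoImplicit false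

open Polynomial IsLocalRing

namespace Fermat.Agent.PT.Local

/-- A local ring which is adically complete for its maximal ideal is a henselian local ring
(bridge from `IsAdicComplete.henselianRing`; e.g. `𝒪[K]` for a nonarchimedean local field). -/
theorem henselianLocalRing_of_isAdicComplete (R : Type*) [CommRing R] [IsLocalRing R]
    [IsAdicComplete (maximalIdeal R) R] : HenselianLocalRing R where
  is_henselian f hf a₀ h₀ h₁ :=
    HenselianRing.is_henselian (I := maximalIdeal R) f hf a₀ h₀ (h₁.map _)

section Hensel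

variable {R : Type*} [CommRing R] [HenselianLocalRing R]

/-- The residue-field form of the henselian property (monic polynomials, simple roots). -/
theorem hensel_residue (f : R[X]) (hf : f.Monic) (a₀ : ResidueField R)
    (h0 : (f.map (residue R)).eval a₀ = 0) (h1 : (f.map (residue R)).derivative.eval a₀ ≠ 0) :
    ∃ a : R, f.IsRoot a ∧ residue R a = a₀ := by
  obtain ⟨a, ha, ha'⟩ := HenselianLocalRing.is_henselian f hf
    (Function.surjInv (residue_surjective (R := R)) a₀)
    (by
      rw [← residue_eq_zero_iff, ← eval₂_hom, eval₂_eq_eval_map,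
        Function.surjInv_eq (residue_surjective (R := R))]
      exact h0)
    (by
      rw [← isUnit_map_iff (residue R), ← eval₂_hom, eval₂_eq_eval_map,
        Function.surjInv_eq (residue_surjective (R := R)), ← derivative_map]
      exact isUnit_iff_ne_zero.2 h1)
  refine ⟨a, ha, ?_⟩
  have := (residue_eq_zero_iff _).2 ha'
  rw [map_sub, Function.surjInv_eq (residue_surjective (R := R)), sub_eq_zero] at this
  exact this

/-- Auxiliary: Hensel for a polynomial with reduction `b X + c`, `b ≠ 0`, `c ≠ 0`
(via the reflected polynomial, which is monic up to a unit). -/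
theorem exists_root_of_map_eq_linear_aux (F : R[X]) (b c : ResidueField R) (hb : b ≠ 0)
    (hc : c ≠ 0) (hF : F.map (residue R) = C b * X + C c) :
    ∃ a : R, F.IsRoot a ∧ residue R a = -c / b := by
  classical
  set n := F.natDegree with hn
  -- the coefficients of `F`
  have hc0 : residue R (F.coeff 0) = c := by
    have := congrArg (fun q => q.coeff 0) hF
    simpa [coeff_map] using this
  have hc1 : residue R (F.coeff 1) = b := by
    have := congrArg (fun q => q.coeff 1) hF
    simpa [coeff_map, coeff_C, coeff_X] using this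
  have hu : IsUnit (F.coeff 0) := by
    have : IsUnit (residue R (F.coeff 0)) := by rw [hc0]; exact isUnit_iff_ne_zero.2 hc
    exact (isUnit_map_iff (residue R) _).1 this
  obtain ⟨u, hu'⟩ := hu
  have hn1 : 1 ≤ n := by
    by_contra h
    have h0 : n = 0 := by omega
    have : F.coeff 1 = 0 := coeff_eq_zero_of_natDegree_lt (by omega)
    rw [this, map_zero] at hc1
    exact hb hc1.symm
  -- the monic reflected polynomial
  set H : R[X] := C (↑u⁻¹ : R) * reflect n F with hH
  have hHmonic : H.Monic := by
    apply monic_of_natDegree_le_of_coeff_eq_one n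
    · refine (natDegree_C_mul_le _ _).trans ?_
      rw [natDegree_le_iff_coeff_eq_zero]
      intro N hN
      rw [coeff_reflect, revAt_eq_self_of_lt hN]
      exact coeff_eq_zero_of_natDegree_lt hN
    · rw [hH, coeff_C_mul, coeff_reflect, revAt_le le_rfl, Nat.sub_self, ← hu']
      simp
  have hru : residue R (↑u⁻¹ : R) = c⁻¹ := by
    rw [map_units_inv, hu', hc0]
  have hrefl : reflect n (C b * X + C c) = C b * X ^ (n - 1) + C c * X ^ n := by
    rw [reflect_add, reflect_C]
    congr 1
    have := reflect_C_mul_X_pow n 1 (c := b)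
    rwa [pow_one, revAt_le hn1] at this
  have hHmap : H.map (residue R) = X ^ n + C (b / c) * X ^ (n - 1) := by
    rw [hH, Polynomial.map_mul, map_C, ← reflect_map, hF, hrefl, hru, mul_add, ← mul_assoc,
      ← mul_assoc, ← C_mul, ← C_mul, inv_mul_cancel₀ hc, C_1, one_mul, add_comm]
    congr 2
    rw [div_eq_inv_mul]
  set d : ResidueField R := b / c with hd
  have hd0 : d ≠ 0 := div_ne_zero hb hc
  obtain ⟨s, hs, hs'⟩ := hensel_residue H hHmonic (-d)
    (by
      rw [hHmap]
      obtain ⟨m, hm⟩ : ∃ m, n = m + 1 := ⟨n - 1, by omega⟩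
      simp only [hm, eval_add, eval_pow, eval_X, eval_mul, eval_C, Nat.add_sub_cancel]
      ring)
    (by
      rw [hHmap]
      rcases Nat.lt_or_ge n 2 with h | h
      · have h1 : n = 1 := by omega
        simp [h1]
      · obtain ⟨m, hm⟩ : ∃ m, n = m + 2 := ⟨n - 2, by omega⟩
        have e1 : m + 2 - 1 = m + 1 := by omega
        simp only [hm, e1, derivative_add, derivative_X_pow, derivative_mul, derivative_C,
          zero_mul, zero_add, eval_add, eval_mul, eval_C, eval_pow, eval_X,
          Nat.add_sub_cancel, Nat.cast_add, Nat.cast_one, Nat.cast_ofNat]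
        have : ((m : ResidueField R) + 2) * (-d) ^ (m + 1) + d * (((m : ResidueField R) + 1) *
            (-d) ^ m) = (-d) ^ m * (-d) := by ring
        rw [this]
        exact mul_ne_zero (pow_ne_zero _ (neg_ne_zero.2 hd0)) (neg_ne_zero.2 hd0))
  -- `s` is a unit and `1 / s` is a root of `F`
  have hsu : IsUnit s := by
    have : IsUnit (residue R s) := by rw [hs']; exact isUnit_iff_ne_zero.2 (neg_ne_zero.2 hd0)
    exact (isUnit_map_iff (residue R) _).1 this
  obtain ⟨su, hsu'⟩ := hsu
  have hrs : (reflect n F).eval s = 0 := by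
    have h := hs
    rw [IsRoot, hH, eval_mul, eval_C] at h
    exact (Units.mul_right_eq_zero _).1 h
  refine ⟨↑su⁻¹, ?_, ?_⟩
  · have := eval₂_reflect_mul_pow (RingHom.id R) (↑su⁻¹ : R) n F le_rfl
    rw [invOf_units, inv_inv, hsu', eval₂_id, eval₂_id, hrs, zero_mul] at this
    exact this.symm
  · rw [map_units_inv, hsu', hs', hd]
    field_simp

/-- **Hensel's lemma for polynomials with linear reduction** (no monicity assumption):
if `F ≡ b X + c` modulo the maximal ideal with `b ≠ 0`, then `F` has a root lifting `-c / b`. -/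
theorem exists_root_of_map_eq_linear (F : R[X]) (b c : ResidueField R) (hb : b ≠ 0)
    (hF : F.map (residue R) = C b * X + C c) :
    ∃ a : R, F.IsRoot a ∧ residue R a = -c / b := by
  by_cases hc : c = 0
  · -- shift by one
    have hF' : (F.comp (X + 1)).map (residue R) = C b * X + C (b + c) := by
      rw [map_comp, hF]
      simp only [Polynomial.map_add, map_X, Polynomial.map_one, add_comp, mul_comp, C_comp,
        X_comp, C_add]
      ring
    obtain ⟨a, ha, ha'⟩ := exists_root_of_map_eq_linear_aux (F.comp (X + 1)) b (b + c) hb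
      (by rw [hc, add_zero]; exact hb) hF'
    refine ⟨a + 1, ?_, ?_⟩
    · rw [IsRoot, eval_comp] at ha
      simpa using ha
    · rw [map_add, ha', map_one, hc]
      field_simp
      ring
  · exact exists_root_of_map_eq_linear_aux F b c hb hc hF

end Hensel

section PrincipalUnits

variable {R : Type*} [CommRing R]

/-- The principal units `1 + I` of a commutative ring, as a subgroup of the unit group. -/
def principalUnits (I : Ideal R) : Subgroup Rˣ :=
  (Units.map (Ideal.Quotient.mk I : R →* R ⧸ I)).ker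

theorem mem_principalUnits {I : Ideal R} {u : Rˣ} : u ∈ principalUnits I ↔ (u : R) - 1 ∈ I := by
  rw [principalUnits, MonoidHom.mem_ker, Units.ext_iff, Units.coe_map, Units.val_one]
  change Ideal.Quotient.mk I (u : R) = 1 ↔ _
  rw [← map_one (Ideal.Quotient.mk I), Ideal.Quotient.eq]

theorem principalUnits_index_ne_zero (I : Ideal R) [Finite (R ⧸ I)] :
    (principalUnits I).index ≠ 0 := by
  rw [principalUnits, Subgroup.index_ker]
  exact Nat.card_pos.ne'

/-- The polynomial identity behind the `n`-th power map on `1 + (n m)`. -/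
theorem exists_pow_poly (n : ℕ) (m : R) :
    ∃ K : R[X], (1 + C ((n : R) * m) * X) ^ n =
      1 + C ((n : R) * ((n : R) * m)) * (X + C m * K * X ^ 2) := by
  obtain ⟨K, hK⟩ := Polynomial.binomExpansion (X ^ n : R[X][X]) (1 : R[X]) (C ((n : R) * m) * X)
  refine ⟨K, ?_⟩
  simp only [eval_pow, eval_X, one_pow, derivative_X_pow, eval_mul, eval_natCast,
    map_natCast, mul_one] at hK
  rw [hK]
  simp only [C_mul, map_natCast]
  ring

theorem pow_eval_eq (n : ℕ) (m : R) (K : R[X])
    (hK : (1 + C ((n : R) * m) * X) ^ n =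
      1 + C ((n : R) * ((n : R) * m)) * (X + C m * K * X ^ 2)) (t : R) :
    (1 + (n : R) * m * t) ^ n = 1 + (n : R) * ((n : R) * m) * (t + m * K.eval t * t ^ 2) := by
  have := congrArg (Polynomial.eval t) hK
  simpa using this

theorem principalUnits_mono {I J : Ideal R} (h : I ≤ J) : principalUnits I ≤ principalUnits J :=
  fun _ hu => mem_principalUnits.2 (h (mem_principalUnits.1 hu))

/-- `(1 + (n m))ⁿ ⊆ 1 + (n² m)`. -/
theorem pow_mem_principalUnits (n : ℕ) (m : R) {u : Rˣ}
    (hu : u ∈ principalUnits (Ideal.span {(n : R) * m})) :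
    u ^ n ∈ principalUnits (Ideal.span {(n : R) * ((n : R) * m)}) := by
  obtain ⟨K, hK⟩ := exists_pow_poly n m
  obtain ⟨t, ht⟩ := Ideal.mem_span_singleton'.1 (mem_principalUnits.1 hu)
  have hu' : (u : R) = 1 + (n : R) * m * t := by linear_combination -ht
  rw [mem_principalUnits, Units.val_pow_eq_pow_val, hu', pow_eval_eq n m K hK t]
  exact Ideal.mem_span_singleton'.2 ⟨t + m * K.eval t * t ^ 2, by ring⟩

end PrincipalUnits

section LocalRing

variable {R : Type*} [CommRing R]

/-- `(1 + (n m))ⁿ ⊇ 1 + (n² m)` over a henselian local ring, for `m` in the maximal ideal. -/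
theorem exists_pow_eq_of_mem_principalUnits [HenselianLocalRing R] (n : ℕ) (m : R)
    (hm : m ∈ maximalIdeal R) {w : Rˣ}
    (hw : w ∈ principalUnits (Ideal.span {(n : R) * ((n : R) * m)})) :
    ∃ u ∈ principalUnits (Ideal.span {(n : R) * m}), u ^ n = w := by
  obtain ⟨K, hK⟩ := exists_pow_poly n m
  obtain ⟨a, ha⟩ := Ideal.mem_span_singleton'.1 (mem_principalUnits.1 hw)
  have hm0 : residue R m = 0 := (residue_eq_zero_iff m).2 hm
  obtain ⟨t, ht, -⟩ := exists_root_of_map_eq_linear (X + C m * K * X ^ 2 - C a) 1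
    (-(residue R a)) one_ne_zero (by
      simp only [Polynomial.map_sub, Polynomial.map_add, Polynomial.map_mul, map_X, map_C,
        Polynomial.map_pow, hm0, map_zero, zero_mul, add_zero, map_one, one_mul, map_neg]
      ring)
  have ht' : t + m * K.eval t * t ^ 2 = a := by
    have := ht
    simp only [IsRoot, eval_sub, eval_add, eval_X, eval_mul, eval_C, eval_pow] at this
    linear_combination this
  have hmem : (n : R) * m * t ∈ maximalIdeal R :=
    Ideal.mul_mem_right _ _ (Ideal.mul_mem_left _ _ hm)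
  have hunit : IsUnit (1 + (n : R) * m * t) := by
    have := isUnit_one_sub_self_of_mem_nonunits (-((n : R) * m * t))
      (by rw [← mem_maximalIdeal]; exact neg_mem hmem)
    rwa [sub_neg_eq_add] at this
  obtain ⟨u, hu⟩ := hunit
  refine ⟨u, ?_, ?_⟩
  · rw [mem_principalUnits, hu]
    exact Ideal.mem_span_singleton'.2 ⟨t, by ring⟩
  · apply Units.ext
    rw [Units.val_pow_eq_pow_val, hu, pow_eval_eq n m K hK t, ht']
    linear_combination ha

variable [IsLocalRing R] [IsDomain R]

/-- The `n`-th power map is injective on `1 + (n m)`. -/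
theorem eq_one_of_pow_eq_one_of_mem_principalUnits (n : ℕ) (m : R) (hm : m ∈ maximalIdeal R)
    (hnm : (n : R) * ((n : R) * m) ≠ 0) {u : Rˣ}
    (hu : u ∈ principalUnits (Ideal.span {(n : R) * m})) (h : u ^ n = 1) : u = 1 := by
  obtain ⟨K, hK⟩ := exists_pow_poly n m
  obtain ⟨t, ht⟩ := Ideal.mem_span_singleton'.1 (mem_principalUnits.1 hu)
  have hu' : (u : R) = 1 + (n : R) * m * t := by linear_combination -ht
  have h1 : (1 + (n : R) * m * t) ^ n = 1 := by
    rw [← hu', ← Units.val_pow_eq_pow_val, h, Units.val_one]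
  rw [pow_eval_eq n m K hK t] at h1
  have h2 : (n : R) * ((n : R) * m) * (t * (1 - -(m * (K.eval t * t)))) = 0 := by
    linear_combination h1
  have hunit : IsUnit (1 - -(m * (K.eval t * t))) :=
    isUnit_one_sub_self_of_mem_nonunits _
      (by rw [← mem_maximalIdeal]; exact neg_mem (Ideal.mul_mem_right _ _ hm))
  have ht0 : t = 0 := by
    rcases mul_eq_zero.1 h2 with h3 | h3
    · exact absurd h3 hnm
    · rcases mul_eq_zero.1 h3 with h4 | h4
      · exact h4
      · exact absurd h4 hunit.ne_zero
  apply Units.ext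
  rw [hu', ht0, mul_zero, add_zero, Units.val_one]

/-- `[1 + (n m) : 1 + (n² m)] = #(R / n R)`. -/
theorem relIndex_principalUnits (n : ℕ) (m : R) (hm : m ∈ maximalIdeal R)
    (hnm : (n : R) * m ≠ 0) :
    (principalUnits (Ideal.span {(n : R) * ((n : R) * m)})).relIndex
      (principalUnits (Ideal.span {(n : R) * m})) = Nat.card (R ⧸ Ideal.span {(n : R)}) := by
  classical
  set B := principalUnits (Ideal.span {(n : R) * m}) with hB
  set B' := principalUnits (Ideal.span {(n : R) * ((n : R) * m)}) with hB'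
  -- the coordinate `t` of `u = 1 + n m t`
  have hex : ∀ u : B, ∃ t : R, ((u : Rˣ) : R) = 1 + (n : R) * m * t := by
    intro u
    obtain ⟨t, ht⟩ := Ideal.mem_span_singleton'.1 (mem_principalUnits.1 u.2)
    exact ⟨t, by linear_combination -ht⟩
  choose tOf htOf using hex
  have hcancel : ∀ x y : R, (n : R) * m * x = (n : R) * m * y → x = y :=
    fun x y h => mul_left_cancel₀ hnm h
  have hmul : ∀ u v : B, tOf (u * v) = tOf u + tOf v + (n : R) * m * (tOf u * tOf v) := by
    intro u v
    apply hcancel
    have h1 := htOf (u * v)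
    rw [Subgroup.coe_mul, Units.val_mul, htOf u, htOf v] at h1
    linear_combination -h1
  let ψ : B →* Multiplicative (R ⧸ Ideal.span {(n : R)}) :=
    MonoidHom.mk' (fun u => Multiplicative.ofAdd (Ideal.Quotient.mk _ (tOf u))) (by
      intro u v
      rw [← ofAdd_add, ← map_add]
      congr 1
      rw [Ideal.Quotient.eq, hmul]
      exact Ideal.mem_span_singleton'.2 ⟨m * (tOf u * tOf v), by ring⟩)
  have hψ : ∀ u : B, ψ u = Multiplicative.ofAdd (Ideal.Quotient.mk _ (tOf u)) := fun _ => rfl
  have hsurj : Function.Surjective ψ := by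
    intro y
    obtain ⟨t, ht⟩ := Ideal.Quotient.mk_surjective (Multiplicative.toAdd y)
    have hmem : (n : R) * m * t ∈ maximalIdeal R :=
      Ideal.mul_mem_right _ _ (Ideal.mul_mem_left _ _ hm)
    have hunit : IsUnit (1 + (n : R) * m * t) := by
      have := isUnit_one_sub_self_of_mem_nonunits (-((n : R) * m * t))
        (by rw [← mem_maximalIdeal]; exact neg_mem hmem)
      rwa [sub_neg_eq_add] at this
    obtain ⟨u, hu⟩ := hunit
    have huB : u ∈ B := by
      rw [hB, mem_principalUnits, hu]
      exact Ideal.mem_span_singleton'.2 ⟨t, by ring⟩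
    refine ⟨⟨u, huB⟩, ?_⟩
    have : tOf ⟨u, huB⟩ = t := by
      apply hcancel
      have := htOf ⟨u, huB⟩
      simp only [hu] at this
      linear_combination -this
    rw [hψ, this, ht]
    rfl
  have hker : ψ.ker = B'.subgroupOf B := by
    ext u
    rw [MonoidHom.mem_ker, Subgroup.mem_subgroupOf, hψ, hB', mem_principalUnits, htOf u]
    have e1 : (Multiplicative.ofAdd (Ideal.Quotient.mk (Ideal.span {(n : R)}) (tOf u)) = 1) ↔
        tOf u ∈ Ideal.span {(n : R)} := by
      rw [← Ideal.Quotient.eq_zero_iff_mem]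
      exact Iff.rfl
    rw [e1, Ideal.mem_span_singleton', Ideal.mem_span_singleton']
    constructor
    · rintro ⟨a, ha⟩
      exact ⟨a, by rw [← ha]; ring⟩
    · rintro ⟨a, ha⟩
      refine ⟨a, ?_⟩
      apply hcancel
      linear_combination ha
  rw [Subgroup.relIndex, ← hker, Subgroup.index_ker, MonoidHom.range_eq_top.2 hsurj,
    Subgroup.card_top]
  exact Nat.card_congr Multiplicative.toAdd

end LocalRing

section DVR

variable (R : Type*) [CommRing R] [IsDomain R] [IsDiscreteValuationRing R]
  [Finite (ResidueField R)]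

/-- Quotients of a discrete valuation ring with finite residue field by nonzero elements are
finite. -/
theorem finite_quotient_span_singleton {x : R} (hx : x ≠ 0) : Finite (R ⧸ Ideal.span {x}) := by
  obtain ⟨ϖ, hϖ⟩ := IsDiscreteValuationRing.exists_irreducible R
  obtain ⟨k, hk⟩ := IsDiscreteValuationRing.ideal_eq_span_pow_irreducible
    (s := Ideal.span {x}) (by rwa [Ne, Ideal.span_singleton_eq_bot]) hϖ
  have hmax : maximalIdeal R = Ideal.span {ϖ} :=
    (IsDiscreteValuationRing.irreducible_iff_uniformizer ϖ).1 hϖ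
  have hfin : Finite (R ⧸ maximalIdeal R) := ‹Finite (ResidueField R)›
  rw [hk, ← Ideal.span_singleton_pow, ← hmax]
  exact Ideal.finite_quotient_pow (IsNoetherian.noetherian _) k

variable [HenselianLocalRing R]

/-- **Index of `n`-th powers in the units of a henselian DVR with finite residue field**
(`n ≠ 0` in `R`): `[Rˣ : (Rˣ)ⁿ] = #μₙ(R) · #(R / n R)`.
For `R = 𝒪_E`, `E / ℚ_q` finite, `n = p` prime: `#(R / p R) = p ^ [E : ℚ_p]` if `q = p` and
`1` if `q ≠ p`. -/
theorem card_units_quot_pow (n : ℕ) (hn : (n : R) ≠ 0) :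
    Nat.card (Rˣ ⧸ (powMonoidHom n : Rˣ →* Rˣ).range) =
      Nat.card (rootsOfUnity n R) * Nat.card (R ⧸ Ideal.span {(n : R)}) := by
  obtain ⟨m, hmirr⟩ := IsDiscreteValuationRing.exists_irreducible R
  have hm : m ∈ maximalIdeal R := by
    rw [mem_maximalIdeal]; exact hmirr.not_isUnit
  have hm0 : m ≠ 0 := hmirr.ne_zero
  have hg : (n : R) * m ≠ 0 := mul_ne_zero hn hm0
  have hng : (n : R) * ((n : R) * m) ≠ 0 := mul_ne_zero hn hg
  set φ : Rˣ →* Rˣ := powMonoidHom n with hφ
  set B := principalUnits (Ideal.span {(n : R) * m}) with hB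
  set B' := principalUnits (Ideal.span {(n : R) * ((n : R) * m)}) with hB'
  have hfin : Finite (R ⧸ Ideal.span {(n : R) * m}) := finite_quotient_span_singleton R hg
  have hBidx : B.index ≠ 0 := principalUnits_index_ne_zero _
  have hB'B : B' ≤ B := principalUnits_mono (by
    rw [Ideal.span_singleton_le_span_singleton]
    exact Dvd.intro_left _ rfl)
  have hmap : B.map φ = B' := by
    apply le_antisymm
    · rintro _ ⟨u, hu, rfl⟩
      exact pow_mem_principalUnits n m hu
    · intro w hw
      obtain ⟨u, hu, huw⟩ := exists_pow_eq_of_mem_principalUnits n m hm hw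
      exact ⟨u, hu, huw⟩
  have hdisj : Disjoint B φ.ker := by
    rw [Subgroup.disjoint_def]
    intro u hu hu'
    exact eq_one_of_pow_eq_one_of_mem_principalUnits n m hm hng hu hu'
  have h1 : B'.index = (B ⊔ φ.ker).index * φ.range.index := by
    rw [← hmap]; exact Subgroup.index_map B φ
  have h2 : B'.relIndex B * B.index = B'.index := Subgroup.relIndex_mul_index hB'B
  have h3 : B.relIndex (B ⊔ φ.ker) * (B ⊔ φ.ker).index = B.index :=
    Subgroup.relIndex_mul_index le_sup_left
  have h4 : B.relIndex (B ⊔ φ.ker) = Nat.card φ.ker := by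
    rw [Subgroup.relIndex_sup_left, Subgroup.relIndex, Subgroup.subgroupOf_eq_bot.2 hdisj,
      Subgroup.index_bot]
  have h5 : B'.relIndex B = Nat.card (R ⧸ Ideal.span {(n : R)}) :=
    relIndex_principalUnits n m hm hg
  have hJ : (B ⊔ φ.ker).index ≠ 0 := by
    intro h0
    rw [h0, mul_zero] at h3
    exact hBidx h3.symm
  have hfinal : φ.range.index = Nat.card φ.ker * Nat.card (R ⧸ Ideal.span {(n : R)}) := by
    have : (B ⊔ φ.ker).index * φ.range.index =
        (B ⊔ φ.ker).index * (Nat.card φ.ker * Nat.card (R ⧸ Ideal.span {(n : R)})) := by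
      rw [← h1, ← h2, h5, ← h3, h4]
      ring
    exact Nat.eq_of_mul_eq_mul_left (Nat.pos_of_ne_zero hJ) this
  exact hfinal

/-- The `n`-th powers have index `n` in `Multiplicative ℤ`. -/
theorem index_range_pow_int (n : ℕ) :
    (powMonoidHom n : Multiplicative ℤ →* Multiplicative ℤ).range.index = n := by
  let ψ : Multiplicative ℤ →* Multiplicative (ZMod n) :=
    AddMonoidHom.toMultiplicative (Int.castAddHom (ZMod n))
  have hψ : ∀ x : Multiplicative ℤ,
      ψ x = Multiplicative.ofAdd ((Multiplicative.toAdd x : ℤ) : ZMod n) := fun _ => rfl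
  have hker : ψ.ker = (powMonoidHom n : Multiplicative ℤ →* Multiplicative ℤ).range := by
    ext x
    rw [MonoidHom.mem_ker, hψ, MonoidHom.mem_range]
    have e1 : (Multiplicative.ofAdd ((Multiplicative.toAdd x : ℤ) : ZMod n) = 1) ↔
        ((Multiplicative.toAdd x : ℤ) : ZMod n) = 0 := Iff.rfl
    rw [e1, ZMod.intCast_zmod_eq_zero_iff_dvd]
    constructor
    · rintro ⟨k, hk⟩
      refine ⟨Multiplicative.ofAdd k, ?_⟩
      apply Multiplicative.toAdd.injective
      rw [powMonoidHom_apply, toAdd_pow, toAdd_ofAdd, hk, nsmul_eq_mul]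
    · rintro ⟨y, rfl⟩
      rw [powMonoidHom_apply, toAdd_pow, nsmul_eq_mul]
      exact Dvd.intro _ rfl
  have hsurj : Function.Surjective ψ := by
    intro y
    obtain ⟨k, hk⟩ := ZMod.intCast_surjective (Multiplicative.toAdd y)
    exact ⟨Multiplicative.ofAdd k, by rw [hψ, toAdd_ofAdd, hk]; rfl⟩
  rw [← hker, Subgroup.index_ker, MonoidHom.range_eq_top.2 hsurj, Subgroup.card_top]
  rw [Nat.card_congr Multiplicative.toAdd, Nat.card_zmod]

variable (K : Type*) [Field K] [Algebra R K] [IsFractionRing R K]

omit [Finite (ResidueField R)] [HenselianLocalRing R] in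
/-- `Kˣ ≅ Rˣ × ℤ` for the fraction field of a DVR (depends on the choice of a uniformizer). -/
theorem exists_mulEquiv_units_prod_int :
    ∃ e : Rˣ × Multiplicative ℤ ≃* Kˣ, ∀ u : Rˣ, e (u, 1) = Units.map (algebraMap R K : R →* K) u := by
  obtain ⟨ϖ, hϖ⟩ := IsDiscreteValuationRing.exists_irreducible R
  have hinj : Function.Injective (algebraMap R K) := IsFractionRing.injective R K
  have hϖ0 : algebraMap R K ϖ ≠ 0 := by
    rw [Ne, map_eq_zero_iff _ hinj]; exact hϖ.ne_zero
  let π : Kˣ := Units.mk0 (algebraMap R K ϖ) hϖ0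
  let f : Rˣ × Multiplicative ℤ →* Kˣ :=
    MonoidHom.coprod (Units.map (algebraMap R K : R →* K)) (zpowersHom Kˣ π)
  have hf : ∀ (u : Rˣ) (k : Multiplicative ℤ),
      f (u, k) = Units.map (algebraMap R K : R →* K) u * π ^ (Multiplicative.toAdd k) := by
    intro u k
    rw [MonoidHom.coprod_apply, zpowersHom_apply]
  -- a power of the uniformizer is a unit of `R` only if the exponent is zero
  have hnat : ∀ (j : ℕ) (v : Rˣ), π ^ j = Units.map (algebraMap R K : R →* K) v → j = 0 := by
    intro j v h
    have h1 : algebraMap R K (ϖ ^ j) = algebraMap R K v := by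
      have := congrArg (fun x : Kˣ => (x : K)) h
      simpa [π] using this
    have h2 : ϖ ^ j = v := hinj h1
    by_contra hj
    exact hϖ.not_isUnit ((isUnit_pow_iff hj).1 (h2 ▸ v.isUnit))
  have hint : ∀ (k : ℤ) (v : Rˣ), π ^ k = Units.map (algebraMap R K : R →* K) v → k = 0 := by
    intro k v h
    obtain ⟨j, rfl | rfl⟩ := Int.eq_nat_or_neg k
    · rw [zpow_natCast] at h
      rw [hnat j v h]; rfl
    · rw [zpow_neg, zpow_natCast, inv_eq_iff_eq_inv, ← map_inv] at h
      rw [hnat j v⁻¹ h]; rfl
  have hfinj : Function.Injective f := by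
    rw [injective_iff_map_eq_one]
    rintro ⟨u, k⟩ h
    rw [hf] at h
    have h' : π ^ (Multiplicative.toAdd k) = Units.map (algebraMap R K : R →* K) u⁻¹ := by
      rw [map_inv, eq_inv_iff_mul_eq_one, mul_comm]; exact h
    have hk : Multiplicative.toAdd k = 0 := hint _ _ h'
    rw [hk, zpow_zero, mul_one] at h
    have hu : u = 1 := by
      apply Units.ext
      apply hinj
      have := congrArg (fun x : Kˣ => (x : K)) h
      simpa using this
    rw [hu]
    exact Prod.ext rfl (Multiplicative.toAdd.injective hk)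
  have hfsurj : Function.Surjective f := by
    intro x
    obtain ⟨a, b, hb, hab⟩ := IsFractionRing.div_surjective (A := R) (x : K)
    have hb0 : b ≠ 0 := nonZeroDivisors.ne_zero hb
    have ha0 : a ≠ 0 := by
      rintro rfl
      rw [map_zero, zero_div] at hab
      exact x.ne_zero hab.symm
    obtain ⟨i, u, hu⟩ := IsDiscreteValuationRing.eq_unit_mul_pow_irreducible ha0 hϖ
    obtain ⟨j, v, hv⟩ := IsDiscreteValuationRing.eq_unit_mul_pow_irreducible hb0 hϖ
    refine ⟨(u * v⁻¹, Multiplicative.ofAdd ((i : ℤ) - j)), ?_⟩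
    apply Units.ext
    rw [hf, toAdd_ofAdd, ← hab, hu, hv]
    have hv0 : algebraMap R K (v : R) ≠ 0 := by
      rw [Ne, map_eq_zero_iff _ hinj]; exact v.ne_zero
    simp only [Units.val_mul, Units.coe_map, MonoidHom.coe_coe, map_mul, map_pow,
      Units.val_zpow_eq_zpow_val, π, Units.val_mk0]
    rw [zpow_sub₀ hϖ0, zpow_natCast, zpow_natCast]
    field_simp
    rw [← map_mul, Units.inv_mul, map_one]
  refine ⟨MulEquiv.ofBijective f ⟨hfinj, hfsurj⟩, fun u => ?_⟩
  change f (u, 1) = _
  rw [hf]
  simp

/-- **Index of `n`-th powers in the multiplicative group of a henselian discretely valued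
field with finite residue field** (`n ≠ 0` in `R`, `K = Frac R`):
`[Kˣ : (Kˣ)ⁿ] = n · #μₙ(K) · #(R / n R)`. -/
theorem card_fracUnits_quot_pow (n : ℕ) (hn : (n : R) ≠ 0) :
    Nat.card (Kˣ ⧸ (powMonoidHom n : Kˣ →* Kˣ).range) =
      n * Nat.card (rootsOfUnity n K) * Nat.card (R ⧸ Ideal.span {(n : R)}) := by
  have hn0 : n ≠ 0 := by rintro rfl; exact hn Nat.cast_zero
  obtain ⟨e, he⟩ := exists_mulEquiv_units_prod_int R K
  have hinj : Function.Injective (algebraMap R K) := IsFractionRing.injective R K
  have hrange : (powMonoidHom n : Kˣ →* Kˣ).range =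
      ((powMonoidHom n : Rˣ →* Rˣ).range.prod
        (powMonoidHom n : Multiplicative ℤ →* Multiplicative ℤ).range).map
          (e : Rˣ × Multiplicative ℤ →* Kˣ) := by
    ext x
    constructor
    · rintro ⟨y, rfl⟩
      obtain ⟨⟨u, k⟩, rfl⟩ := e.surjective y
      refine ⟨(u ^ n, k ^ n), ⟨⟨u, rfl⟩, ⟨k, rfl⟩⟩, ?_⟩
      rw [MonoidHom.coe_coe, powMonoidHom_apply, ← map_pow]
      rfl
    · rintro ⟨⟨u, k⟩, ⟨⟨u', hu'⟩, ⟨k', hk'⟩⟩, rfl⟩
      refine ⟨e (u', k'), ?_⟩
      rw [MonoidHom.coe_coe, powMonoidHom_apply, ← map_pow]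
      congr 1
      exact Prod.ext hu' hk'
  have hidx : (powMonoidHom n : Kˣ →* Kˣ).range.index =
      (powMonoidHom n : Rˣ →* Rˣ).range.index * n := by
    rw [hrange, Subgroup.index_map_equiv, Subgroup.index_prod, index_range_pow_int]
  have hroots : Nat.card (rootsOfUnity n K) = Nat.card (rootsOfUnity n R) := by
    symm
    let g : rootsOfUnity n R → rootsOfUnity n K := fun ζ =>
      ⟨Units.map (algebraMap R K : R →* K) ζ, by
        rw [mem_rootsOfUnity, ← map_pow, (mem_rootsOfUnity _ _).1 ζ.2, map_one]⟩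
    refine Nat.card_congr (Equiv.ofBijective g ⟨?_, ?_⟩)
    · intro ζ ζ' h
      apply Subtype.ext
      exact Units.map_injective hinj (congrArg Subtype.val h)
    · rintro ⟨ζ, hζ⟩
      obtain ⟨⟨u, k⟩, rfl⟩ := e.surjective ζ
      rw [mem_rootsOfUnity, ← map_pow, map_eq_one_iff e e.injective] at hζ
      have hu : u ^ n = 1 := congrArg Prod.fst hζ
      have hk : k ^ n = 1 := congrArg Prod.snd hζ
      have hk1 : k = 1 := by
        apply Multiplicative.toAdd.injective
        have h1 : n • Multiplicative.toAdd k = 0 := by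
          rw [← toAdd_pow, hk]; rfl
        rw [nsmul_eq_mul] at h1
        rcases mul_eq_zero.1 h1 with h2 | h2
        · exact absurd (by exact_mod_cast h2) hn0
        · exact h2
      refine ⟨⟨u, hu⟩, ?_⟩
      apply Subtype.ext
      change Units.map (algebraMap R K : R →* K) u = e (u, k)
      rw [hk1, he]
  have hU := card_units_quot_pow R n hn
  change (powMonoidHom n : Kˣ →* Kˣ).range.index = _
  change (powMonoidHom n : Rˣ →* Rˣ).range.index = _ at hU
  rw [hidx, hU, hroots]
  ring

end DVR

end Fermat.Agent.PT.Local
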