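import Fermat.Agent.PT.Local.NormIndex
import Fermat.Agent.PT.Local.UnitPow

/-!
# The local norm index for henselian discretely valued fields

`E'/E` cyclic of prime degree `p`, `R ⊂ E`, `R' ⊂ E'` henselian discrete valuation rings with
finite residue fields (no completeness), `p ≠ 0` in `E`.  Then `[Eˣ : N_{E'/E} E'ˣ] = p`:

* `norm_index_of_card` : given `#(R'/p) = #(R/p) ^ p`;
* `card_quotient_span_algebraMap` : `#(C / a C) = #(A / a A) ^ [L : K]` for the integral closure
  `C` of a principal ideal domain `A` in a finite separable extension `L` of `K = Frac A`;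
* `norm_index_of_henselian` : the count is automatic when `R = R' ∩ E` and `R'` is stable under
  `Gal(E'/E)`.
-/

set_option autoImplicit false
set_option linter.style.haveILetI false

namespace Fermat.Agent.PT.Local

open IsLocalRing Module

section N1

variable {E E' : Type} [Field E] [Field E'] [Algebra E E'] [FiniteDimensional E E'] [IsGalois E E']

/-- **Local norm index, given the count of `R/p`.** -/
theorem norm_index_of_card (p : ℕ) [Fact p.Prime] (hdeg : Module.finrank E E' = p)
    (R : ValuationSubring E) (R' : ValuationSubring E')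
    [HenselianLocalRing R] [IsDiscreteValuationRing R] [Finite (ResidueField R)]
    [HenselianLocalRing R'] [IsDiscreteValuationRing R'] [Finite (ResidueField R')]
    (hp0 : (p : E) ≠ 0)
    (hcard : Nat.card (R' ⧸ Ideal.span {(p : R')}) = Nat.card (R ⧸ Ideal.span {(p : R)}) ^ p) :
    (Units.map (Algebra.norm E : E' →* E)).range.index = p := by
  have hpR : ((p : ℕ) : R) ≠ 0 := by
    intro h
    apply hp0
    have := congrArg (algebraMap R E) h
    simpa using this
  have hp0' : (p : E') ≠ 0 := by
    intro h
    apply hp0
    apply (algebraMap E E').injective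
    simpa using h
  have hpR' : ((p : ℕ) : R') ≠ 0 := by
    intro h
    apply hp0'
    have := congrArg (algebraMap R' E') h
    simpa using this
  haveI := finite_quotient_span_singleton R hpR
  have hc : Nat.card (R ⧸ Ideal.span {(p : R)}) ≠ 0 := Nat.card_pos.ne'
  refine norm_index_eq_prime p hdeg (Nat.card (R ⧸ Ideal.span {(p : R)})) hc ?_ ?_
  · rw [Subgroup.index, card_fracUnits_quot_pow R E p hpR]
  · rw [Subgroup.index, card_fracUnits_quot_pow R' E' p hpR', hcard]

end N1

section Count

variable (A K L C : Type*) [CommRing A] [IsDomain A] [IsPrincipalIdealRing A] [Field K]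
  [Algebra A K] [IsFractionRing A K] [Field L] [CommRing C] [Algebra K L] [Algebra A L]
  [IsScalarTower A K L] [Algebra C L] [IsIntegralClosure C A L] [Algebra A C]
  [IsScalarTower A C L] [FiniteDimensional K L] [Algebra.IsSeparable K L] [IsTorsionFree A L]

/-- `#(C / a C) = #(A / a A) ^ [L : K]` for the integral closure `C` of a principal ideal domain
`A` in a finite separable extension `L` of its fraction field `K`. -/
theorem card_quotient_span_algebraMap (a : A) :
    Nat.card (C ⧸ Ideal.span {algebraMap A C a}) =
      Nat.card (A ⧸ Ideal.span {a}) ^ Module.finrank K L := by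
  classical
  haveI : Module.Free A C := IsIntegralClosure.module_free A K L C
  haveI : Module.Finite A C := IsIntegralClosure.finite A K L C
  have hrank : Module.finrank A C = Module.finrank K L := IsIntegralClosure.rank A K L C
  let b := Module.Free.chooseBasis A C
  let e : C ≃ₗ[A] (Module.Free.ChooseBasisIndex A C → A) := b.equivFun
  let I : Submodule A C := (Ideal.span {algebraMap A C a}).restrictScalars A
  let J : Submodule A (Module.Free.ChooseBasisIndex A C → A) :=
    Submodule.pi Set.univ (fun _ => (Ideal.span {a} : Ideal A))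
  have hIJ : I.map (e : C →ₗ[A] (Module.Free.ChooseBasisIndex A C → A)) = J := by
    ext f
    constructor
    · rintro ⟨c, hc, rfl⟩
      obtain ⟨c', rfl⟩ := Ideal.mem_span_singleton'.mp hc
      intro i _
      have : e (c' * algebraMap A C a) = a • e c' := by
        rw [mul_comm, ← Algebra.smul_def, map_smul]
      show (e (c' * algebraMap A C a)) i ∈ Ideal.span {a}
      rw [this, Pi.smul_apply, smul_eq_mul]
      exact Ideal.mem_span_singleton'.mpr ⟨_, mul_comm _ _⟩
    · intro hf
      have hf' : ∀ i, ∃ g : A, g * a = f i := fun i =>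
        Ideal.mem_span_singleton'.mp (hf i (Set.mem_univ i))
      choose g hg using hf'
      refine ⟨e.symm (a • g), ?_, ?_⟩
      · show e.symm (a • g) ∈ Ideal.span {algebraMap A C a}
        rw [map_smul, Algebra.smul_def, mul_comm]
        exact Ideal.mem_span_singleton'.mpr ⟨_, rfl⟩
      · show e (e.symm (a • g)) = f
        rw [LinearEquiv.apply_symm_apply]
        funext i
        rw [Pi.smul_apply, smul_eq_mul, mul_comm, hg]
  have e1 : (C ⧸ Ideal.span {algebraMap A C a}) ≃ (C ⧸ I) :=
    (Submodule.Quotient.restrictScalarsEquiv A (Ideal.span {algebraMap A C a})).symm.toEquiv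
  have e2 : (C ⧸ I) ≃ ((Module.Free.ChooseBasisIndex A C → A) ⧸ J) :=
    (Submodule.Quotient.equiv I J e hIJ).toEquiv
  have e3 : ((Module.Free.ChooseBasisIndex A C → A) ⧸ J) ≃
      (Module.Free.ChooseBasisIndex A C → A ⧸ (Ideal.span {a} : Ideal A)) :=
    (Submodule.quotientPi (fun _ : Module.Free.ChooseBasisIndex A C =>
      (Ideal.span {a} : Ideal A))).toEquiv
  rw [Nat.card_congr (e1.trans (e2.trans e3)), Nat.card_fun, ← hrank,
    Module.finrank_eq_card_chooseBasisIndex,
    Nat.card_eq_fintype_card (α := Module.Free.ChooseBasisIndex A C)]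

end Count

section N2

variable {E E' : Type} [Field E] [Field E'] [Algebra E E'] [FiniteDimensional E E'] [IsGalois E E']

/-- the inclusion `R' ∩ E → R'` -/
def comapInclusion (R' : ValuationSubring E') : (R'.comap (algebraMap E E')) →+* R' where
  toFun x := ⟨algebraMap E E' x, x.2⟩
  map_one' := Subtype.ext (map_one _)
  map_mul' _ _ := Subtype.ext (map_mul _ _ _)
  map_zero' := Subtype.ext (map_zero _)
  map_add' _ _ := Subtype.ext (map_add _ _ _)

/-- `#(R' / a R') = #(R / a R) ^ [E' : E]` for a Galois-stable valuation ring `R'` of `E'` and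
`R = R' ∩ E` principal. -/
theorem card_quotient_comap (R' : ValuationSubring E')
    (hB : ∀ σ : E' ≃ₐ[E] E', ∀ x ∈ R', σ x ∈ R')
    [IsPrincipalIdealRing (R'.comap (algebraMap E E'))] (a : R'.comap (algebraMap E E')) :
    Nat.card (R' ⧸ Ideal.span {comapInclusion R' a}) =
      Nat.card ((R'.comap (algebraMap E E')) ⧸ Ideal.span {a}) ^ Module.finrank E E' := by
  letI algRR' : Algebra (R'.comap (algebraMap E E')) R' := (comapInclusion R').toAlgebra
  letI : Algebra (R'.comap (algebraMap E E')) E' :=
    ((algebraMap E E').comp (algebraMap (R'.comap (algebraMap E E')) E)).toAlgebra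
  haveI : IsScalarTower (R'.comap (algebraMap E E')) E E' :=
    IsScalarTower.of_algebraMap_eq (fun x => rfl)
  haveI : IsScalarTower (R'.comap (algebraMap E E')) R' E' :=
    IsScalarTower.of_algebraMap_eq (fun x => rfl)
  letI : MulSemiringAction (E' ≃ₐ[E] E') R' :=
    { smul := fun σ y => ⟨σ y, hB σ y y.2⟩
      one_smul := fun y => Subtype.ext rfl
      mul_smul := fun σ τ y => Subtype.ext rfl
      smul_zero := fun σ => Subtype.ext (map_zero σ)
      smul_add := fun σ x y => Subtype.ext (map_add σ _ _)
      smul_one := fun σ => Subtype.ext (map_one σ)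
      smul_mul := fun σ x y => Subtype.ext (map_mul σ _ _) }
  have hsmul : ∀ (σ : E' ≃ₐ[E] E') (y : R'), ((σ • y : R') : E') = σ (y : E') := fun _ _ => rfl
  haveI : SMulCommClass (E' ≃ₐ[E] E') (R'.comap (algebraMap E E')) R' := ⟨fun σ r y => by
    apply Subtype.ext
    rw [hsmul, Algebra.smul_def, Algebra.smul_def]
    show σ (algebraMap E E' r * (y : E')) = algebraMap E E' r * σ (y : E')
    rw [map_mul, AlgEquiv.commutes]⟩
  haveI : Algebra.IsInvariant (R'.comap (algebraMap E E')) R' (E' ≃ₐ[E] E') := ⟨fun y hy => by
    have h1 : (y : E') ∈ Set.range (algebraMap E E') :=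
      (IsGalois.mem_range_algebraMap_iff_fixed _).mpr (fun σ => congrArg Subtype.val (hy σ))
    obtain ⟨x, hx⟩ := h1
    exact ⟨⟨x, by show algebraMap E E' x ∈ R'; rw [hx]; exact y.2⟩, Subtype.ext hx⟩⟩
  haveI : Algebra.IsIntegral (R'.comap (algebraMap E E')) R' :=
    Algebra.IsInvariant.isIntegral (R'.comap (algebraMap E E')) R' (E' ≃ₐ[E] E')
  haveI : IsIntegralClosure R' (R'.comap (algebraMap E E')) E' :=
    { algebraMap_injective := Subtype.val_injective
      isIntegral_iff := fun {x} => by
        constructor
        · intro hx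
          have hx' : IsIntegral R' x := hx.tower_top
          exact (IsIntegrallyClosed.isIntegral_iff (R := R') (K := E')).mp hx'
        · rintro ⟨y, rfl⟩
          exact (Algebra.IsIntegral.isIntegral (R := R'.comap (algebraMap E E')) y).algebraMap }
  haveI : IsTorsionFree (R'.comap (algebraMap E E')) E' :=
    .trans_faithfulSMul (R'.comap (algebraMap E E')) E E'
  exact card_quotient_span_algebraMap (R'.comap (algebraMap E E')) E E' R' a

/-- **Local norm index for henselian discretely valued fields**: `E'/E` cyclic of prime degree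
`p`, `R'` a Galois-stable henselian discrete valuation ring of `E'` with finite residue field,
`R = R' ∩ E`, `p ≠ 0` in `E`.  Then `[Eˣ : N E'ˣ] = p`. -/
theorem norm_index_of_henselian (p : ℕ) [Fact p.Prime] (hdeg : Module.finrank E E' = p)
    (R : ValuationSubring E) (R' : ValuationSubring E') (hR : R = R'.comap (algebraMap E E'))
    (hB : ∀ σ : E' ≃ₐ[E] E', ∀ x ∈ R', σ x ∈ R')
    [HenselianLocalRing R] [IsDiscreteValuationRing R] [Finite (ResidueField R)]
    [HenselianLocalRing R'] [IsDiscreteValuationRing R'] [Finite (ResidueField R')]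
    (hp0 : (p : E) ≠ 0) :
    (Units.map (Algebra.norm E : E' →* E)).range.index = p := by
  subst hR
  refine norm_index_of_card p hdeg (R'.comap (algebraMap E E')) R' hp0 ?_
  have h := card_quotient_comap R' hB ((p : ℕ) : R'.comap (algebraMap E E'))
  rw [hdeg] at h
  have e : comapInclusion R' ((p : ℕ) : R'.comap (algebraMap E E')) = ((p : ℕ) : R') :=
    map_natCast (comapInclusion R') p
  rw [e] at h
  exact h

end N2

end Fermat.Agent.PT.Local
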