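/-
PT / LOCAL layer, piece LN (helper33).

Units are norms of units in unramified extensions of henselian local rings with finite
residue fields, in the language of a finite group `G` acting on a local ring `B` with
invariants `A = B^G`:

* `exists_unit_norm_eq_one_add` : if the trace `∑ g, g • θ` of some `θ` is a unit ("tame"),
  every principal unit `1 + z`, `z ∈ 𝔪_A`, is the `G`-norm of a unit of `B` (`A` henselian).
* `exists_unit_norm_eq_of_unramified` : if moreover the inertia group is trivial and the residue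
  field of `B` is finite, every unit of `A` is the `G`-norm of a unit of `B`.
-/
import Mathlib
import Fermat.Agent.PT.Local.UnitPow

set_option autoImplicit false

open Polynomial IsLocalRing
open scoped Pointwise

namespace Fermat.Agent.PT.Local

section Invariant

variable {A B : Type*} [CommRing A] [CommRing B] [Algebra A B]

theorem smul_algebraMap_eq {G : Type*} [Group G] [MulSemiringAction G B] [SMulCommClass G A B]
    (g : G) (a : A) : g • algebraMap A B a = algebraMap A B a := by
  rw [Algebra.algebraMap_eq_smul_one, smul_comm, smul_one]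

/-- If `algebraMap a` is a unit of `B`, then `a` is a unit of `A` (for `A = B^G`, `A ↪ B`). -/
theorem isUnit_of_isUnit_algebraMap (G : Type*) [Group G] [MulSemiringAction G B]
    [SMulCommClass G A B] [Algebra.IsInvariant A B G]
    (hinj : Function.Injective (algebraMap A B)) {a : A}
    (h : IsUnit (algebraMap A B a)) : IsUnit a := by
  obtain ⟨c, hc⟩ := h.exists_right_inv
  have hcinv : ∀ g : G, g • c = c := by
    intro g
    have h1 : algebraMap A B a * g • c = 1 := by
      have := congrArg (fun x => g • x) hc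
      simpa [smul_mul', smul_algebraMap_eq] using this
    calc g • c = (c * algebraMap A B a) * g • c := by rw [mul_comm c, hc, one_mul]
      _ = c * (algebraMap A B a * g • c) := by ring
      _ = c := by rw [h1, mul_one]
  obtain ⟨a', ha'⟩ := Algebra.IsInvariant.isInvariant (A := A) (G := G) c hcinv
  refine isUnit_iff_exists_inv.2 ⟨a', hinj ?_⟩
  rw [map_mul, ha', hc, map_one]

variable [IsLocalRing A] [IsLocalRing B]

/-- `A → B` is a local homomorphism. -/
theorem algebraMap_mem_maximalIdeal_iff (G : Type*) [Group G] [MulSemiringAction G B]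
    [SMulCommClass G A B] [Algebra.IsInvariant A B G]
    (hinj : Function.Injective (algebraMap A B)) (a : A) :
    algebraMap A B a ∈ maximalIdeal B ↔ a ∈ maximalIdeal A := by
  rw [mem_maximalIdeal, mem_maximalIdeal, mem_nonunits_iff, mem_nonunits_iff, not_iff_not]
  exact ⟨isUnit_of_isUnit_algebraMap G hinj, fun h => h.map _⟩

end Invariant

section Product

variable {B : Type*} [CommRing B]

/-- Constant and linear coefficient of `∏ (1 + aᵢ X)`. -/
theorem coeff_prod_one_add {ι : Type*} (s : Finset ι) (a : ι → B) :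
    (∏ i ∈ s, (1 + C (a i) * X)).coeff 0 = 1 ∧
      (∏ i ∈ s, (1 + C (a i) * X)).coeff 1 = ∑ i ∈ s, a i := by
  classical
  induction s using Finset.induction_on with
  | empty => simp [coeff_one]
  | insert i s hi ih =>
    rw [Finset.prod_insert hi, Finset.sum_insert hi]
    refine ⟨?_, ?_⟩
    · rw [mul_coeff_zero, ih.1]; simp
    · rw [mul_coeff_one, ih.1, ih.2]; simp [coeff_one, add_comm]

end Product

section Tame

variable {A B : Type*} [CommRing A] [CommRing B] [Algebra A B]
  {G : Type*} [Group G] [Fintype G] [MulSemiringAction G B] [SMulCommClass G A B]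
  [Algebra.IsInvariant A B G]

omit [SMulCommClass G A B] in
/-- The polynomial `∏_g (1 + (g • θ) X)` ("`N(1 + θ X)`") has coefficients in `A`. -/
theorem exists_normPoly (θ : B) :
    ∃ P : A[X], P.map (algebraMap A B) = ∏ g : G, (1 + C (g • θ) * X) := by
  have h1 : ∏ g : G, (1 + C (g • θ) * X) = ∏ g : G, g • (1 + C θ * X) := by
    refine Finset.prod_congr rfl fun g _ => ?_
    rw [smul_add, smul_one, smul_mul', smul_C, smul_X]
  have h2 : ∀ h : G, h • (∏ g : G, (1 + C (g • θ) * X)) = ∏ g : G, (1 + C (g • θ) * X) := by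
    intro h
    rw [h1, Finset.smul_prod_perm]
  have h3 : (∏ g : G, (1 + C (g • θ) * X)) ∈ Polynomial.lifts (algebraMap A B) := by
    rw [Polynomial.lifts_iff_coeff_lifts]
    intro n
    exact Algebra.IsInvariant.isInvariant (A := A) (G := G) _ (fun g => by
      rw [← Polynomial.coeff_smul, h2])
  exact (Polynomial.mem_lifts _).1 h3

variable [HenselianLocalRing A] [IsLocalRing B]

/-- **Principal units are norms in the tame case.**  If some `θ ∈ B` has unit trace
`∑ g, g • θ`, then every `1 + z` with `z ∈ 𝔪_A` is the `G`-norm of a unit of `B`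
(`A = B^G` henselian; one application of Hensel's lemma to `x ↦ N(1 + θ z x)`). -/
theorem exists_unit_norm_eq_one_add (hinj : Function.Injective (algebraMap A B)) (θ : B)
    (hθ : IsUnit (∑ g : G, g • θ)) (z : A) (hz : z ∈ maximalIdeal A) :
    ∃ y : Bˣ, ∏ g : G, g • (y : B) = algebraMap A B (1 + z) := by
  -- the trace is in `A`
  obtain ⟨τ, hτ⟩ := Algebra.IsInvariant.isInvariant (A := A) (G := G) (∑ g : G, g • θ) (fun h => by
    rw [Finset.smul_sum]
    exact Fintype.sum_equiv (Equiv.mulLeft h) _ _ (fun g => by simp [mul_smul]))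
  have hτu : IsUnit τ := isUnit_of_isUnit_algebraMap G hinj (hτ ▸ hθ)
  obtain ⟨τu, hτu'⟩ := hτu
  -- the norm polynomial
  obtain ⟨P, hP⟩ := exists_normPoly (A := A) (G := G) θ
  have hc := coeff_prod_one_add (Finset.univ : Finset G) (fun g => g • θ)
  have hP0 : P.coeff 0 = 1 := by
    apply hinj
    rw [← coeff_map, hP, hc.1, map_one]
  have hP1 : P.coeff 1 = τ := by
    apply hinj
    rw [← coeff_map, hP, hc.2, hτ]
  -- `P = 1 + τ X + X² R`
  have hPR : P = 1 + C τ * X + X ^ 2 * P.divX.divX := by
    have e1 := divX_mul_X_add P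
    have e2 := divX_mul_X_add P.divX
    have e3 : P.divX.coeff 0 = τ := by rw [coeff_divX, hP1]
    rw [hP0] at e1
    rw [e3] at e2
    calc P = P.divX * X + C 1 := e1.symm
      _ = (P.divX.divX * X + C τ) * X + C 1 := by rw [e2]
      _ = 1 + C τ * X + X ^ 2 * P.divX.divX := by rw [map_one]; ring
  set R := P.divX.divX with hR
  -- the rescaled target
  set z₁ : A := z * ↑τu⁻¹ with hz₁
  have hz₁m : z₁ ∈ maximalIdeal A := Ideal.mul_mem_right _ _ hz
  have hz₁τ : z₁ * τ = z := by
    rw [hz₁, ← hτu', mul_assoc, Units.inv_mul, mul_one]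
  have hres : residue A z₁ = 0 := (residue_eq_zero_iff z₁).2 hz₁m
  set Φ : A[X] := C τ * X + C z₁ * (X ^ 2 * R.comp (C z₁ * X)) with hΦ
  have hcomp : P.comp (C z₁ * X) = 1 + C z₁ * Φ := by
    rw [hPR, hΦ]
    simp only [add_comp, mul_comp, one_comp, C_comp, X_comp, pow_comp]
    ring
  obtain ⟨x, hx, -⟩ := exists_root_of_map_eq_linear (Φ - C τ) (residue A τ) (-(residue A τ))
    (by
      have : IsUnit (residue A τ) := (hτu' ▸ τu.isUnit).map _
      exact this.ne_zero)
    (by
      rw [hΦ]
      simp only [Polynomial.map_sub, Polynomial.map_add, Polynomial.map_mul, map_X, map_C,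
        Polynomial.map_pow, hres, map_zero, zero_mul, add_zero, map_neg]
      ring)
  have hx' : Φ.eval x = τ := by
    have := hx
    rw [IsRoot, eval_sub, eval_C, sub_eq_zero] at this
    exact this
  have hPx : P.eval (z₁ * x) = 1 + z := by
    have := congrArg (Polynomial.eval x) hcomp
    rw [eval_comp, eval_mul, eval_C, eval_X, eval_add, eval_one, eval_mul, eval_C, hx',
      hz₁τ] at this
    exact this
  -- the unit `y = 1 + θ z₁ x`
  have hmem : θ * algebraMap A B (z₁ * x) ∈ maximalIdeal B := by
    apply Ideal.mul_mem_left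
    rw [algebraMap_mem_maximalIdeal_iff G hinj]
    exact Ideal.mul_mem_right _ _ hz₁m
  have hunit : IsUnit (1 + θ * algebraMap A B (z₁ * x)) := by
    have := isUnit_one_sub_self_of_mem_nonunits (-(θ * algebraMap A B (z₁ * x)))
      (by rw [← mem_maximalIdeal]; exact neg_mem hmem)
    rwa [sub_neg_eq_add] at this
  obtain ⟨y, hy⟩ := hunit
  refine ⟨y, ?_⟩
  have h4 : ∀ g : G, g • (y : B) = (1 + C (g • θ) * X).eval (algebraMap A B (z₁ * x)) := by
    intro g
    rw [hy, smul_add, smul_one, smul_mul', smul_algebraMap_eq]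
    simp
  rw [Finset.prod_congr rfl (fun g _ => h4 g), ← eval_prod, ← hP, eval_map_algebraMap,
    ← hPx, aeval_algebraMap_apply]
  simp

end Tame

section Unramified

variable {A B : Type*} [CommRing A] [CommRing B] [Algebra A B] [IsLocalRing B]
  {G : Type*} [Group G] [MulSemiringAction G B]

/-- The maximal ideal of a local ring is stable under ring automorphisms. -/
theorem smul_maximalIdeal (g : G) : g • maximalIdeal B = maximalIdeal B := by
  ext x
  rw [Ideal.mem_pointwise_smul_iff_inv_smul_mem, mem_maximalIdeal, mem_maximalIdeal,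
    mem_nonunits_iff, mem_nonunits_iff, not_iff_not]
  exact isUnit_map_iff (MulSemiringAction.toRingEquiv G B g⁻¹) x

variable [IsLocalRing A] [Finite G] [SMulCommClass G A B] [Algebra.IsInvariant A B G]

/-- For a local ring `B` with `A = B^G` and trivial inertia, `G` is the Galois group of the
residue field extension. -/
theorem exists_equiv_residueGal [(maximalIdeal B).LiesOver (maximalIdeal A)]
    (hunr : ∀ g : G, (∀ b : B, g • b - b ∈ maximalIdeal B) → g = 1) :
    ∃ e : G ≃ ((B ⧸ maximalIdeal B) ≃ₐ[A ⧸ maximalIdeal A] (B ⧸ maximalIdeal B)),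
      ∀ (g : G) (b : B), e g (Ideal.Quotient.mk _ b) = Ideal.Quotient.mk _ (g • b) := by
  have hstab : ∀ g : G, g ∈ MulAction.stabilizer G (maximalIdeal B) := fun g =>
    MulAction.mem_stabilizer_iff.2 (smul_maximalIdeal g)
  have hsurj := Ideal.Quotient.stabilizerHom_surjective G (maximalIdeal A) (maximalIdeal B)
  have hinj : Function.Injective
      (Ideal.Quotient.stabilizerHom (maximalIdeal B) (maximalIdeal A) G) := by
    rw [injective_iff_map_eq_one]
    intro g hg
    have hg' : ∀ b : B, (g : G) • b - b ∈ maximalIdeal B := by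
      intro b
      have := congrArg (fun f => f (Ideal.Quotient.mk _ b)) hg
      simp only [AlgEquiv.one_apply] at this
      rw [← Ideal.Quotient.eq]
      exact this
    exact Subtype.ext (hunr g hg')
  refine ⟨(Equiv.subtypeUnivEquiv hstab).symm.trans (Equiv.ofBijective _ ⟨hinj, hsurj⟩), ?_⟩
  intro g b
  rfl

end Unramified

section Main

variable {A B : Type*} [CommRing A] [CommRing B] [Algebra A B] [IsLocalRing A] [IsLocalRing B]
  {G : Type*} [Group G] [Fintype G] [MulSemiringAction G B] [SMulCommClass G A B]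
  [Algebra.IsInvariant A B G] [Finite (ResidueField B)]

/-- In the unramified case some element has unit trace, and every unit of `A` is congruent
to the norm of a unit of `B`. -/
theorem exists_trace_and_norm_of_unramified (hinj : Function.Injective (algebraMap A B))
    (hunr : ∀ g : G, (∀ b : B, g • b - b ∈ maximalIdeal B) → g = 1) :
    (∃ θ : B, IsUnit (∑ g : G, g • θ)) ∧
      ∀ u : Aˣ, ∃ y : Bˣ, ∏ g : G, g • (y : B) - algebraMap A B u ∈ maximalIdeal B := by
  have hLO : (maximalIdeal B).LiesOver (maximalIdeal A) := ⟨by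
    ext a
    rw [Ideal.under_def, Ideal.mem_comap, algebraMap_mem_maximalIdeal_iff G hinj]⟩
  obtain ⟨e, he⟩ := exists_equiv_residueGal (A := A) (B := B) (G := G) hunr
  let _ := Ideal.Quotient.field (maximalIdeal A)
  let _ := Ideal.Quotient.field (maximalIdeal B)
  have : Finite (B ⧸ maximalIdeal B) := ‹Finite (ResidueField B)›
  have : FiniteDimensional (A ⧸ maximalIdeal A) (B ⧸ maximalIdeal B) := Module.Finite.of_finite
  refine ⟨?_, ?_⟩
  · obtain ⟨t, ht⟩ := Algebra.trace_surjective (A ⧸ maximalIdeal A) (B ⧸ maximalIdeal B) 1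
    obtain ⟨θ, rfl⟩ := Ideal.Quotient.mk_surjective t
    refine ⟨θ, ?_⟩
    have h1 := trace_eq_sum_automorphisms (K := A ⧸ maximalIdeal A)
      (Ideal.Quotient.mk (maximalIdeal B) θ)
    rw [ht, map_one, ← Equiv.sum_comp e] at h1
    simp only [he] at h1
    rw [← map_sum] at h1
    by_contra hnu
    have hmem : ∑ g : G, g • θ ∈ maximalIdeal B := by rwa [mem_maximalIdeal, mem_nonunits_iff]
    rw [← Ideal.Quotient.eq_zero_iff_mem, ← h1] at hmem
    exact one_ne_zero hmem
  · intro u
    obtain ⟨ybar, hy⟩ := FiniteField.unitsMap_norm_surjective (A ⧸ maximalIdeal A)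
      (B ⧸ maximalIdeal B) (Units.map (Ideal.Quotient.mk (maximalIdeal A) : A →* _) u)
    obtain ⟨y, hyy⟩ := Ideal.Quotient.mk_surjective (ybar : B ⧸ maximalIdeal B)
    have hyu : IsUnit y := by
      by_contra hnu
      have hmem : y ∈ maximalIdeal B := by rwa [mem_maximalIdeal, mem_nonunits_iff]
      rw [← Ideal.Quotient.eq_zero_iff_mem, hyy] at hmem
      exact ybar.ne_zero hmem
    obtain ⟨yu, rfl⟩ := hyu
    refine ⟨yu, ?_⟩
    have h1 := Algebra.norm_eq_prod_automorphisms (A ⧸ maximalIdeal A)
      (Ideal.Quotient.mk (maximalIdeal B) (yu : B))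
    rw [← Equiv.prod_comp e] at h1
    simp only [he] at h1
    rw [← map_prod] at h1
    have h2 : Algebra.norm (A ⧸ maximalIdeal A) (Ideal.Quotient.mk (maximalIdeal B) (yu : B)) =
        Ideal.Quotient.mk (maximalIdeal A) (u : A) := by
      have := congrArg (fun x : (A ⧸ maximalIdeal A)ˣ => (x : A ⧸ maximalIdeal A)) hy
      simp only [Units.coe_map, MonoidHom.coe_coe] at this
      rw [hyy]
      exact this
    rw [h2] at h1
    rw [← Ideal.Quotient.eq, ← h1]
    rfl

/-- **Units are norms in unramified extensions of henselian local rings.**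
`A = B^G` henselian local, `B` local with finite residue field, `G` finite with trivial
inertia: every unit of `A` is the `G`-norm `∏ g, g • y` of a unit `y` of `B`. -/
theorem exists_unit_norm_eq_of_unramified [HenselianLocalRing A]
    (hinj : Function.Injective (algebraMap A B))
    (hunr : ∀ g : G, (∀ b : B, g • b - b ∈ maximalIdeal B) → g = 1) (u : Aˣ) :
    ∃ y : Bˣ, ∏ g : G, g • (y : B) = algebraMap A B u := by
  obtain ⟨⟨θ, hθ⟩, hnorm⟩ := exists_trace_and_norm_of_unramified (A := A) (B := B) (G := G)
    hinj hunr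
  obtain ⟨y₀, hy₀⟩ := hnorm u
  -- the norm of `y₀` lies in `A`
  obtain ⟨n₀, hn₀⟩ := Algebra.IsInvariant.isInvariant (A := A) (G := G) (∏ g : G, g • (y₀ : B))
    (fun h => by
      rw [Finset.smul_prod']
      exact Fintype.prod_equiv (Equiv.mulLeft h) _ _ (fun g => by simp [mul_smul]))
  have hmem : n₀ - u ∈ maximalIdeal A := by
    rw [← algebraMap_mem_maximalIdeal_iff G hinj, map_sub, hn₀]
    exact hy₀
  have hn₀u : IsUnit n₀ := by
    by_contra hnu
    have h1 : n₀ ∈ maximalIdeal A := by rwa [mem_maximalIdeal, mem_nonunits_iff]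
    have h2 : (u : A) ∈ maximalIdeal A := by
      have := sub_mem h1 hmem
      rwa [sub_sub_cancel] at this
    exact (mem_maximalIdeal _).1 h2 u.isUnit
  obtain ⟨n₀u, hn₀u'⟩ := hn₀u
  -- `u / n₀ = 1 + z`
  set z : A := ((u : A) - n₀) * ↑n₀u⁻¹ with hz
  have hzm : z ∈ maximalIdeal A := by
    apply Ideal.mul_mem_right
    have := neg_mem hmem
    rwa [neg_sub] at this
  obtain ⟨y₁, hy₁⟩ := exists_unit_norm_eq_one_add (G := G) hinj θ hθ z hzm
  refine ⟨y₀ * y₁, ?_⟩
  have hprod : ∏ g : G, g • ((y₀ * y₁ : Bˣ) : B) =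
      (∏ g : G, g • (y₀ : B)) * ∏ g : G, g • (y₁ : B) := by
    rw [← Finset.prod_mul_distrib]
    refine Finset.prod_congr rfl fun g _ => ?_
    rw [Units.val_mul, smul_mul']
  rw [hprod, hy₁, ← hn₀, ← map_mul]
  congr 1
  rw [hz, ← hn₀u']
  have : (n₀u : A) * ↑n₀u⁻¹ = 1 := Units.mul_inv n₀u
  linear_combination ((u : A) - ↑n₀u) * this

end Main

end Fermat.Agent.PT.Local
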