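/-
PT / LOCAL layer, piece UNR (helper33): the unramified norm criterion at field level.

`L` a field with a finite group `G` of automorphisms, `E = L^G`, `B` a `G`-stable valuation
subring of `L` with trivial inertia.

* `valuation_smul_eq` : `B.valuation (g • y) = B.valuation y`.
* `exists_valuation_eq_algebraMap_of_unramified` : the value groups of `L` and `E` agree
  (`e = 1`), no henselian hypothesis.
* `exists_norm_eq_iff_of_unramified` : if `B ∩ E` is henselian and the residue field of `B` is
  finite, then `x ∈ Eˣ` is a `G`-norm from `Lˣ` iff `v(x) = v(c) ^ |G|` for some `c ∈ Eˣ`.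
* `prod_univ_eq_prod_range_pow` : `∏ g, f g = ∏ i < |G|, f (σ ^ i)` for a generator `σ`.
-/
import Mathlib
import Fermat.Agent.PT.Local.UnramNorm

set_option autoImplicit false

open IsLocalRing Polynomial

namespace Fermat.Agent.PT.Local

section Transport

/-- Henselianity transports along ring isomorphisms. -/
theorem henselianLocalRing_of_ringEquiv {R S : Type*} [CommRing R] [CommRing S]
    [HenselianLocalRing R] (e : R ≃+* S) : HenselianLocalRing S := by
  have hS : IsLocalRing S := e.isLocalRing
  have hmem : ∀ s : S, s ∈ maximalIdeal S ↔ e.symm s ∈ maximalIdeal R := by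
    intro s
    rw [mem_maximalIdeal, mem_maximalIdeal, mem_nonunits_iff, mem_nonunits_iff, not_iff_not]
    exact (isUnit_map_iff e.symm s).symm
  refine { hS with is_henselian := ?_ }
  intro f hf a₀ h0 hd
  have hev : ∀ (p : S[X]) (s : S), (p.map (e.symm : S →+* R)).eval (e.symm s) =
      e.symm (p.eval s) := fun p s => Polynomial.eval_map_apply (e.symm : S →+* R) s
  obtain ⟨a, ha, ha'⟩ := HenselianLocalRing.is_henselian (f.map (e.symm : S →+* R))
    (hf.map _) (e.symm a₀) (by rw [hev]; exact (hmem _).1 h0)
    (by rw [derivative_map, hev]; exact hd.map e.symm)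
  refine ⟨e a, ?_, ?_⟩
  · have h1 := hev f (e a)
    rw [e.symm_apply_apply, ha.eq_zero] at h1
    have h2 := congrArg e h1
    rw [e.apply_symm_apply, map_zero] at h2
    exact h2.symm
  · rw [hmem, map_sub, e.symm_apply_apply]
    exact ha'

end Transport

section RingLevel

variable {B : Type*} [CommRing B] [IsLocalRing B] {G : Type*} [Group G] [Fintype G]
  [MulSemiringAction G B]

/-- **Dedekind independence modulo the maximal ideal.**  If the inertia group is trivial and
some `u g₀` is a unit, then some twisted trace `∑ g, u g * g • b` is a unit. -/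
theorem exists_isUnit_sum_mul_smul
    (hunr : ∀ g : G, (∀ b : B, g • b - b ∈ maximalIdeal B) → g = 1)
    (u : G → B) (g₀ : G) (hu : IsUnit (u g₀)) : ∃ b : B, IsUnit (∑ g : G, u g * g • b) := by
  classical
  by_contra hcon
  have hcon : ∀ b : B, ¬ IsUnit (∑ g : G, u g * g • b) := fun b hb => hcon ⟨b, hb⟩
  let f : G → (ResidueField B →* ResidueField B) := fun g =>
    (MulSemiringAction.toRingHom G (ResidueField B) g : ResidueField B →* ResidueField B)
  have hfapp : ∀ (g : G) (x : ResidueField B), f g x = g • x := fun g x => rfl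
  have hf : Function.Injective f := by
    intro g h hgh
    have h1 : h⁻¹ * g = 1 := by
      apply hunr
      intro b
      have h2 : g • residue B b = h • residue B b := by
        rw [← hfapp, ← hfapp, hgh]
      rw [← residue_eq_zero_iff, map_sub, sub_eq_zero, ResidueField.residue_smul, mul_smul, h2, ← mul_smul,
        inv_mul_cancel, one_smul]
    exact (inv_mul_eq_one.1 h1).symm
  have hli := (linearIndependent_monoidHom (ResidueField B) (ResidueField B)).comp f hf
  rw [Fintype.linearIndependent_iff] at hli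
  have h0 : ∑ g : G, residue B (u g) •
      ((fun φ : ResidueField B →* ResidueField B => (φ : ResidueField B → ResidueField B)) ∘ f)
        g = 0 := by
    funext x
    obtain ⟨b, rfl⟩ := residue_surjective x
    have hb := hcon b
    have hb' : ∑ g : G, u g * g • b ∈ maximalIdeal B := by
      rwa [mem_maximalIdeal, mem_nonunits_iff]
    rw [← residue_eq_zero_iff, map_sum] at hb'
    rw [Finset.sum_apply, Pi.zero_apply, ← hb']
    refine Finset.sum_congr rfl fun g _ => ?_
    rw [map_mul, ResidueField.residue_smul]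
    rfl
  have h3 := hli _ h0 g₀
  have h4 : u g₀ ∈ maximalIdeal B := (residue_eq_zero_iff _).1 h3
  exact (mem_maximalIdeal _).1 h4 hu

end RingLevel

section Cyclic

/-- A product over a finite cyclic group as a product over the powers of a generator. -/
theorem prod_univ_eq_prod_range_pow {G M : Type*} [Group G] [Fintype G] [CommMonoid M] (σ : G)
    (hσ : ∀ g : G, g ∈ Subgroup.zpowers σ) (f : G → M) :
    ∏ g : G, f g = ∏ i ∈ Finset.range (Fintype.card G), f (σ ^ i) := by
  classical
  have h1 : orderOf σ = Fintype.card G := by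
    rw [orderOf_eq_card_of_forall_mem_zpowers hσ, Nat.card_eq_fintype_card]
  rw [← IsCyclic.image_range_orderOf hσ, Finset.prod_image, h1]
  intro i hi j hj hij
  exact pow_injOn_Iio_orderOf (by simpa using hi) (by simpa using hj) hij

end Cyclic

section FieldLevel

variable {E L : Type*} [Field E] [Field L] [Algebra E L] {G : Type*} [Group G]
  [MulSemiringAction G L]

/-- The action of `G` on a `G`-stable valuation subring. -/
@[reducible] def valuationSubringAction (B : ValuationSubring L)
    (hB : ∀ (g : G) (x : L), x ∈ B → g • x ∈ B) : MulSemiringAction G B where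
  smul g x := ⟨g • (x : L), hB g x x.2⟩
  one_smul x := Subtype.ext (one_smul G (x : L))
  mul_smul g h x := Subtype.ext (mul_smul g h (x : L))
  smul_zero g := Subtype.ext (smul_zero g)
  smul_add g x y := Subtype.ext (smul_add g (x : L) (y : L))
  smul_one g := Subtype.ext (smul_one g)
  smul_mul g x y := Subtype.ext (smul_mul' g (x : L) (y : L))

variable (B : ValuationSubring L) (hB : ∀ (g : G) (x : L), x ∈ B → g • x ∈ B)
include hB

theorem valuation_smul_lt_one (g : G) {x : L} (hx : B.valuation x < 1) :
    B.valuation (g • x) < 1 := by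
  by_cases hx0 : x = 0
  · rw [hx0, smul_zero, map_zero]; exact zero_lt_one
  have h1 : B.valuation (g • x) ≤ 1 :=
    (B.valuation_le_one_iff _).2 (hB g x ((B.valuation_le_one_iff _).1 hx.le))
  refine lt_of_le_of_ne h1 fun h2 => ?_
  have h3 : (g • x)⁻¹ ∈ B := by
    rw [← B.valuation_le_one_iff, map_inv₀, h2, inv_one]
  have h4 : x⁻¹ ∈ B := by
    have := hB g⁻¹ _ h3
    rwa [smul_inv'', inv_smul_smul] at this
  rw [← B.valuation_le_one_iff, map_inv₀] at h4
  have h5 : B.valuation x ≠ 0 := (B.valuation.ne_zero_iff).2 hx0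
  have h6 : 1 ≤ B.valuation x := (inv_le_one₀ (zero_lt_iff.2 h5)).1 h4
  exact absurd hx (not_lt.2 h6)

theorem not_valuation_smul_div_lt_one [Finite G] (g : G) {y : L} (hy : y ≠ 0) :
    ¬ B.valuation (g • y / y) < 1 := by
  intro hlt
  have hy' : ∀ i : ℕ, g ^ i • y ≠ 0 := fun i => by
    rwa [Ne, smul_eq_zero_iff_eq]
  have hstep : ∀ i : ℕ, B.valuation (g ^ (i + 1) • y) < B.valuation (g ^ i • y) := by
    intro i
    have h1 := valuation_smul_lt_one B hB (g ^ i) hlt
    rw [div_eq_mul_inv, smul_mul', smul_inv'', ← mul_smul, ← pow_succ, ← div_eq_mul_inv,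
      map_div₀] at h1
    have h2 : B.valuation (g ^ i • y) ≠ 0 := (B.valuation.ne_zero_iff).2 (hy' i)
    have h3 : 0 < B.valuation (g ^ i • y) := zero_lt_iff.2 h2
    rwa [div_lt_one₀ h3] at h1
  have hanti : StrictAnti fun i : ℕ => B.valuation (g ^ i • y) := strictAnti_nat_of_succ_lt hstep
  have hn : 0 < orderOf g := orderOf_pos g
  have := hanti hn
  simp only [pow_orderOf_eq_one, pow_zero] at this
  exact lt_irrefl _ this

/-- A finite group of automorphisms stabilising a valuation subring preserves its valuation. -/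
theorem valuation_smul_eq [Finite G] (g : G) (y : L) : B.valuation (g • y) = B.valuation y := by
  by_cases hy : y = 0
  · rw [hy, smul_zero]
  have hgy : g • y ≠ 0 := by rwa [Ne, smul_eq_zero_iff_eq]
  have h0 : B.valuation y ≠ 0 := (B.valuation.ne_zero_iff).2 hy
  have h0' : B.valuation (g • y) ≠ 0 := (B.valuation.ne_zero_iff).2 hgy
  have h1 := not_valuation_smul_div_lt_one B hB g hy
  have h2 := not_valuation_smul_div_lt_one B hB g⁻¹ hgy
  rw [inv_smul_smul] at h2
  rw [map_div₀, div_lt_one₀ (zero_lt_iff.2 h0), not_lt] at h1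
  rw [map_div₀, div_lt_one₀ (zero_lt_iff.2 h0'), not_lt] at h2
  exact le_antisymm h2 h1

variable [Fintype G] [SMulCommClass G E L] [Algebra.IsInvariant E L G]

omit [SMulCommClass G E L] in
/-- **Unramified ⇒ `e = 1`.**  If the inertia group of the `G`-stable valuation subring `B` is
trivial, every nonzero `y ∈ L` has the valuation of an element of `E = L^G`. -/
theorem exists_valuation_eq_algebraMap_of_unramified
    (hunr : ∀ g : G, (∀ b ∈ B, B.valuation (g • b - b) < 1) → g = 1)
    (y : L) (hy : y ≠ 0) :
    ∃ c : E, c ≠ 0 ∧ B.valuation y = B.valuation (algebraMap E L c) := by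
  classical
  let _ : MulSemiringAction G B := valuationSubringAction B hB
  have hcoe : ∀ (g : G) (b : B), ((g • b : B) : L) = g • (b : L) := fun g b => rfl
  have hunr' : ∀ g : G, (∀ b : B, g • b - b ∈ maximalIdeal B) → g = 1 := by
    intro g hg
    apply hunr
    intro b hb
    have := (B.valuation_lt_one_iff _).1 (hg ⟨b, hb⟩)
    simpa [hcoe] using this
  have hu : ∀ g : G, g • y / y ∈ B := by
    intro g
    rw [← B.valuation_le_one_iff, map_div₀, valuation_smul_eq B hB g y,
      div_self ((B.valuation.ne_zero_iff).2 hy)]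
  let u : G → B := fun g => ⟨g • y / y, hu g⟩
  have hu1 : IsUnit (u 1) := by
    have : u 1 = 1 := Subtype.ext (by simp [u, div_self hy])
    rw [this]; exact isUnit_one
  obtain ⟨b, hb⟩ := exists_isUnit_sum_mul_smul hunr' u 1 hu1
  have hfix : ∀ h : G, h • (∑ g : G, g • (y * (b : L))) = ∑ g : G, g • (y * (b : L)) := by
    intro h
    rw [Finset.smul_sum]
    exact Fintype.sum_equiv (Equiv.mulLeft h) _ _ (fun g => by simp [mul_smul])
  obtain ⟨c, hc⟩ := Algebra.IsInvariant.isInvariant (A := E) (G := G) _ hfix
  have hkey : ∑ g : G, g • (y * (b : L)) = y * ((∑ g : G, u g * g • b : B) : L) := by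
    rw [AddSubmonoidClass.coe_finsetSum, Finset.mul_sum]
    refine Finset.sum_congr rfl fun g _ => ?_
    rw [smul_mul', MulMemClass.coe_mul, hcoe]
    simp only [u]
    field_simp
  have hval : B.valuation (algebraMap E L c) = B.valuation y := by
    rw [hc, hkey, map_mul, (B.valuation_eq_one_iff _).1 hb, mul_one]
  refine ⟨c, ?_, hval.symm⟩
  rintro rfl
  rw [map_zero, map_zero] at hval
  exact (B.valuation.ne_zero_iff).2 hy hval.symm

/-- **Unramified norm criterion.**  `B` a `G`-stable valuation subring of `L` with trivial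
inertia and finite residue field, `B ∩ E` henselian (`E = L^G`).  Then `x ∈ Eˣ` is the `G`-norm of
an element of `Lˣ` iff `v(x) = v(c) ^ |G|` for some `c ∈ Eˣ` (for a discrete valuation:
iff `|G| ∣ ord x`). -/
theorem exists_norm_eq_iff_of_unramified [Finite (ResidueField B)]
    [HenselianLocalRing (B.comap (algebraMap E L))]
    (hunr : ∀ g : G, (∀ b ∈ B, B.valuation (g • b - b) < 1) → g = 1)
    (x : E) (hx : x ≠ 0) :
    (∃ y : L, y ≠ 0 ∧ ∏ g : G, g • y = algebraMap E L x) ↔
      ∃ c : E, c ≠ 0 ∧
        B.valuation (algebraMap E L x) = B.valuation (algebraMap E L c) ^ Fintype.card G := by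
  classical
  constructor
  · rintro ⟨y, hy, hyx⟩
    obtain ⟨c, hc0, hc⟩ := exists_valuation_eq_algebraMap_of_unramified (E := E) B hB hunr y hy
    refine ⟨c, hc0, ?_⟩
    rw [← hyx, map_prod, ← hc]
    simp [valuation_smul_eq B hB, Finset.prod_const, Finset.card_univ]
  · rintro ⟨c, hc0, hc⟩
    let _ : MulSemiringAction G B := valuationSubringAction B hB
    have hcoe : ∀ (g : G) (b : B), ((g • b : B) : L) = g • (b : L) := fun g b => rfl
    have hunr' : ∀ g : G, (∀ b : B, g • b - b ∈ maximalIdeal B) → g = 1 := by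
      intro g hg
      apply hunr
      intro b hb
      have := (B.valuation_lt_one_iff _).1 (hg ⟨b, hb⟩)
      simpa [hcoe] using this
    -- the algebra structure `B ∩ E → B`
    let φ : (B.comap (algebraMap E L)) →+* B :=
      { toFun := fun a => ⟨algebraMap E L (a : E), a.2⟩
        map_one' := Subtype.ext (map_one _)
        map_mul' := fun a b => Subtype.ext (map_mul _ _ _)
        map_zero' := Subtype.ext (map_zero _)
        map_add' := fun a b => Subtype.ext (map_add _ _ _) }
    let _ : Algebra (B.comap (algebraMap E L)) B := φ.toAlgebra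
    have hφ : ∀ a : B.comap (algebraMap E L),
        ((algebraMap (B.comap (algebraMap E L)) B a : B) : L) = algebraMap E L (a : E) :=
      fun a => rfl
    have : SMulCommClass G (B.comap (algebraMap E L)) B := ⟨fun g a b => by
      apply Subtype.ext
      rw [hcoe, Algebra.smul_def, Algebra.smul_def, MulMemClass.coe_mul, MulMemClass.coe_mul,
        hφ, hcoe, smul_mul', smul_algebraMap_eq]⟩
    have : Algebra.IsInvariant (B.comap (algebraMap E L)) B G := ⟨fun b hb => by
      obtain ⟨a, ha⟩ := Algebra.IsInvariant.isInvariant (A := E) (G := G) (b : L) (fun g => by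
        rw [← hcoe, hb])
      exact ⟨⟨a, by rw [ValuationSubring.mem_comap, ha]; exact b.2⟩, Subtype.ext ha⟩⟩
    have hinj : Function.Injective (algebraMap (B.comap (algebraMap E L)) B) := by
      intro a a' h
      have := congrArg (fun t : B => (t : L)) h
      simp only [hφ] at this
      exact Subtype.ext ((algebraMap E L).injective this)
    -- the unit `x / c ^ n`
    set n := Fintype.card G with hn
    have hcn : B.valuation (algebraMap E L c) ≠ 0 := by
      rw [B.valuation.ne_zero_iff]
      exact (_root_.map_ne_zero _).2 hc0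
    have hw : B.valuation (algebraMap E L (x / c ^ n)) = 1 := by
      rw [map_div₀, map_pow, map_div₀, map_pow, hc, div_self (pow_ne_zero _ hcn)]
    have hw' : B.valuation (algebraMap E L (x / c ^ n)⁻¹) = 1 := by
      rw [map_inv₀, map_inv₀, hw, inv_one]
    have hxc : x / c ^ n ≠ 0 := div_ne_zero hx (pow_ne_zero _ hc0)
    let w : (B.comap (algebraMap E L))ˣ :=
      ⟨⟨x / c ^ n, by rw [ValuationSubring.mem_comap, ← B.valuation_le_one_iff, hw]⟩,
        ⟨(x / c ^ n)⁻¹, by rw [ValuationSubring.mem_comap, ← B.valuation_le_one_iff, hw']⟩,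
        Subtype.ext (mul_inv_cancel₀ hxc), Subtype.ext (inv_mul_cancel₀ hxc)⟩
    obtain ⟨y₁, hy₁⟩ := exists_unit_norm_eq_of_unramified (A := B.comap (algebraMap E L))
      (B := B) (G := G) hinj hunr' w
    have hy₁L : ∏ g : G, g • ((y₁ : B) : L) = algebraMap E L (x / c ^ n) := by
      have := congrArg (fun t : B => (t : L)) hy₁
      simp only [hφ] at this
      rw [← this, SubmonoidClass.coe_finsetProd]
      exact Finset.prod_congr rfl fun g _ => (hcoe g _).symm
    refine ⟨algebraMap E L c * ((y₁ : B) : L), ?_, ?_⟩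
    · refine mul_ne_zero ((_root_.map_ne_zero _).2 hc0) ?_
      have : ((y₁ : B) : L) * ((y₁⁻¹ : Bˣ) : B) = 1 := by
        rw [← MulMemClass.coe_mul, Units.mul_inv]; rfl
      exact left_ne_zero_of_mul_eq_one this
    · simp only [smul_mul', smul_algebraMap_eq]
      rw [Finset.prod_mul_distrib, Finset.prod_const, Finset.card_univ, hy₁L, ← map_pow,
        ← map_mul, ← hn]
      congr 1
      field_simp

/-- Norm criterion, discrete form (sufficiency): if `v(x) = v(π) ^ (|G| * k)` then `x` is a
norm. -/
theorem exists_norm_eq_of_valuation_eq_zpow [Finite (ResidueField B)]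
    [HenselianLocalRing (B.comap (algebraMap E L))]
    (hunr : ∀ g : G, (∀ b ∈ B, B.valuation (g • b - b) < 1) → g = 1)
    (x : E) (hx : x ≠ 0) (π : E) (hπ : π ≠ 0) (k : ℤ)
    (hk : B.valuation (algebraMap E L x) =
      B.valuation (algebraMap E L π) ^ ((Fintype.card G : ℤ) * k)) :
    ∃ y : L, y ≠ 0 ∧ ∏ g : G, g • y = algebraMap E L x := by
  refine (exists_norm_eq_iff_of_unramified B hB hunr x hx).2 ⟨π ^ k, zpow_ne_zero _ hπ, ?_⟩
  rw [hk, map_zpow₀, map_zpow₀, ← zpow_natCast, ← zpow_mul, mul_comm]

omit [SMulCommClass G E L] in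
/-- Norm criterion, discrete form (necessity): if the value group of `E` is generated by
`v(π) ≠ 1` and `x` with `v(x) = v(π) ^ k` is a norm, then `|G| ∣ k`. -/
theorem dvd_of_norm_eq_of_valuation_eq_zpow
    (hunr : ∀ g : G, (∀ b ∈ B, B.valuation (g • b - b) < 1) → g = 1)
    (π : E) (hπ : π ≠ 0) (hπ1 : B.valuation (algebraMap E L π) ≠ 1)
    (hgen : ∀ c : E, c ≠ 0 → ∃ j : ℤ,
      B.valuation (algebraMap E L c) = B.valuation (algebraMap E L π) ^ j)
    (x : E) (k : ℤ)
    (hk : B.valuation (algebraMap E L x) = B.valuation (algebraMap E L π) ^ k)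
    (y : L) (hy : y ≠ 0) (hyx : ∏ g : G, g • y = algebraMap E L x) :
    (Fintype.card G : ℤ) ∣ k := by
  obtain ⟨c, hc0, hc⟩ := exists_valuation_eq_algebraMap_of_unramified (E := E) B hB hunr y hy
  obtain ⟨j, hj⟩ := hgen c hc0
  have h1 : B.valuation (algebraMap E L x) =
      B.valuation (algebraMap E L π) ^ (j * (Fintype.card G : ℤ)) := by
    rw [← hyx, map_prod, zpow_mul, ← hj, ← hc]
    simp [valuation_smul_eq B hB, Finset.prod_const, Finset.card_univ]
  have h0 : 0 < B.valuation (algebraMap E L π) :=
    zero_lt_iff.2 ((B.valuation.ne_zero_iff).2 ((_root_.map_ne_zero _).2 hπ))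
  have h2 := zpow_right_injective₀ h0 hπ1 (hk.symm.trans h1)
  exact ⟨j, by rw [h2, mul_comm]⟩

end FieldLevel

end Fermat.Agent.PT.Local
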