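/-
PT / LOCAL layer, piece UNR step 2 (helper33): the unramified norm criterion in the
"henselian inside an algebraically closed field" model.

`Ω` algebraically closed, `A` a valuation subring, `N ⊴ M ≤ D_A` subgroups of `Gal(Ω/K)` with
`M/N` cyclic of order `m` generated by `σ`, `M` acting on `Ω^N` with trivial inertia, and the
residue field of `A ∩ Ω^N` finite.  Then an `M`-fixed `x ≠ 0` is a "norm"
`∏ i < m, σ^i y` of some `N`-fixed `y ≠ 0` iff `v(x) = v(c)^m` for some `M`-fixed `c ≠ 0`.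
-/
import Mathlib
import Fermat.Agent.PT.Local.UnramField
import Fermat.Agent.PT.G.KumHens

set_option autoImplicit false

open IsLocalRing IntermediateField

namespace Fermat.Agent.PT.Local

section Comap

variable {L Ω : Type*} [Field L] [Field Ω] (A : ValuationSubring Ω) (f : L →+* Ω)

/-- The valuation of `A ∩ L` is equivalent to the restriction of the valuation of `A`. -/
theorem isEquiv_valuation_comap : (A.comap f).valuation.IsEquiv (A.valuation.comap f) := by
  rw [Valuation.isEquiv_iff_val_le_one]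
  intro x
  rw [ValuationSubring.valuation_le_one_iff, Valuation.comap_apply,
    ValuationSubring.valuation_le_one_iff, ValuationSubring.mem_comap]

theorem valuation_comap_eq_iff (a b : L) :
    (A.comap f).valuation a = (A.comap f).valuation b ↔ A.valuation (f a) = A.valuation (f b) :=
  (isEquiv_valuation_comap A f).eq_iff

theorem valuation_comap_lt_one_iff (a : L) :
    (A.comap f).valuation a < 1 ↔ A.valuation (f a) < 1 :=
  (isEquiv_valuation_comap A f).lt_one_iff_lt_one

end Comap

section Model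

variable {K Ω : Type*} [Field K] [Field Ω] [Algebra K Ω]

/-- Restriction of the elements of `M` to the fixed field of a subgroup `N` normalised by `M`. -/
def resFixed (M N : Subgroup (Ω ≃ₐ[K] Ω)) (hnorm : ∀ g ∈ M, ∀ n ∈ N, g⁻¹ * n * g ∈ N) :
    M →* RingAut (fixedField N) where
  toFun g :=
    { toFun := fun x => ⟨g.1 x.1, by
        rw [mem_fixedField_iff]
        intro n hn
        have h1 := (mem_fixedField_iff N _).1 x.2 _ (hnorm g.1 g.2 n hn)
        have h2 : n (g.1 x.1) = g.1 ((g.1⁻¹ * n * g.1) x.1) := by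
          simp [AlgEquiv.mul_apply]
        rw [h2, h1]⟩
      invFun := fun x => ⟨g.1⁻¹ x.1, by
        rw [mem_fixedField_iff]
        intro n hn
        have h0 := hnorm g.1⁻¹ (M.inv_mem g.2) n hn
        rw [inv_inv] at h0
        have h1 := (mem_fixedField_iff N _).1 x.2 _ h0
        have h2 : n (g.1⁻¹ x.1) = g.1⁻¹ ((g.1 * n * g.1⁻¹) x.1) := by
          simp [AlgEquiv.mul_apply]
        rw [h2, h1]⟩
      left_inv := fun x => Subtype.ext (g.1.symm_apply_apply x.1)
      right_inv := fun x => Subtype.ext (g.1.apply_symm_apply x.1)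
      map_mul' := fun x y => Subtype.ext (by simp)
      map_add' := fun x y => Subtype.ext (by simp) }
  map_one' := by ext x; rfl
  map_mul' g h := by ext x; rfl

theorem resFixed_apply (M N : Subgroup (Ω ≃ₐ[K] Ω))
    (hnorm : ∀ g ∈ M, ∀ n ∈ N, g⁻¹ * n * g ∈ N) (g : M) (x : fixedField N) :
    ((resFixed M N hnorm g x : fixedField N) : Ω) = g.1 (x : Ω) := rfl

/-- **Unramified norm criterion, model form.**  `Ω` algebraically closed with a valuation
subring `A`; `N ≤ M ≤ D_A` subgroups of `Gal(Ω/K)`, `N` normalised by `M`, `M/N` cyclic of order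
`m` generated by `σ`; `M` acts on `Ω^N` with trivial inertia and the residue field of `A ∩ Ω^N`
is finite.  Then an `M`-fixed `x ≠ 0` is of the form `∏ i < m, σ^i y` with `y ≠ 0` fixed by `N`
iff `v(x) = v(c)^m` for some `M`-fixed `c ≠ 0`. -/
theorem exists_prod_pow_eq_iff_of_unramified [IsAlgClosed Ω] (A : ValuationSubring Ω)
    (M N : Subgroup (Ω ≃ₐ[K] Ω)) (hM : M ≤ A.decompositionSubgroup K) (hNM : N ≤ M)
    (hnorm : ∀ g ∈ M, ∀ n ∈ N, g⁻¹ * n * g ∈ N)
    (σ : Ω ≃ₐ[K] Ω) (hσ : σ ∈ M) (m : ℕ) (hm : 0 < m)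
    (hgen : ∀ g ∈ M, ∃ i : ℕ, (σ ^ i)⁻¹ * g ∈ N)
    (hord : ∀ i : ℕ, σ ^ i ∈ N ↔ m ∣ i)
    (hunr : ∀ g ∈ M, (∀ b ∈ A, (∀ n ∈ N, n b = b) → A.valuation (g b - b) < 1) → g ∈ N)
    [Finite (ResidueField (A.comap (algebraMap (fixedField N) Ω)))]
    (x : Ω) (hx : x ≠ 0) (hxM : ∀ g ∈ M, g x = x) :
    (∃ y : Ω, y ≠ 0 ∧ (∀ n ∈ N, n y = y) ∧ ∏ i ∈ Finset.range m, (σ ^ i) y = x) ↔
      ∃ c : Ω, c ≠ 0 ∧ (∀ g ∈ M, g c = c) ∧ A.valuation x = A.valuation c ^ m := by
  classical
  have hEL : fixedField M ≤ fixedField N := fun z hz =>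
    (mem_fixedField_iff N z).2 fun n hn => (mem_fixedField_iff M z).1 hz n (hNM hn)
  let _ : Algebra (fixedField M) (fixedField N) :=
    (IntermediateField.inclusion hEL).toRingHom.toAlgebra
  have halg : ∀ e : fixedField M,
      ((algebraMap (fixedField M) (fixedField N) e : fixedField N) : Ω) = (e : Ω) := fun e => rfl
  -- the finite cyclic group `G` of automorphisms of `Ω^N`
  let res := resFixed M N hnorm
  let σL : RingAut (fixedField N) := res ⟨σ, hσ⟩
  have hGres : ∀ g : Subgroup.zpowers σL, ∃ τ : M, (g : RingAut (fixedField N)) = res τ := by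
    intro g
    obtain ⟨k, hk⟩ := Subgroup.mem_zpowers_iff.1 g.2
    exact ⟨⟨σ, hσ⟩ ^ k, by rw [map_zpow]; exact hk.symm⟩
  have hsmul : ∀ (g : Subgroup.zpowers σL) (l : fixedField N),
      g • l = (g : RingAut (fixedField N)) l := fun g l => rfl
  have hresΩ : ∀ (τ : M) (l : fixedField N), ((res τ l : fixedField N) : Ω) = τ.1 (l : Ω) :=
    fun τ l => rfl
  have hres_one : ∀ τ : M, res τ = 1 ↔ (τ : Ω ≃ₐ[K] Ω) ∈ N := by
    intro τ
    constructor
    · intro h
      apply hunr τ.1 τ.2
      intro b _ hbN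
      have h1 : res τ ⟨b, (mem_fixedField_iff N b).2 hbN⟩ = ⟨b, (mem_fixedField_iff N b).2 hbN⟩ := by
        rw [h]; rfl
      have h2 := congrArg (fun z : fixedField N => (z : Ω)) h1
      simp only [hresΩ] at h2
      rw [h2, sub_self, map_zero]
      exact zero_lt_one
    · intro h
      ext l
      exact (mem_fixedField_iff N _).1 l.2 _ h
  have hpow : ∀ i : ℕ, σL ^ i = res (⟨σ, hσ⟩ ^ i) := fun i => (map_pow res _ i).symm
  have hord' : orderOf σL = m := by
    rw [orderOf_eq_iff hm]
    refine ⟨?_, fun j hj hj0 hj1 => ?_⟩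
    · rw [hpow, hres_one]
      exact (hord m).2 dvd_rfl
    · rw [hpow, hres_one] at hj1
      exact absurd (Nat.le_of_dvd hj0 ((hord j).1 hj1)) (not_le.2 hj)
  have hcard : Nat.card (Subgroup.zpowers σL) = m := by rw [Nat.card_zpowers, hord']
  have hfin : Finite (Subgroup.zpowers σL) :=
    Nat.finite_of_card_ne_zero (by rw [hcard]; exact hm.ne')
  let _ : Fintype (Subgroup.zpowers σL) := Fintype.ofFinite _
  have hcard' : Fintype.card (Subgroup.zpowers σL) = m := by
    rw [← Nat.card_eq_fintype_card, hcard]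
  have hfixE : ∀ (g : Subgroup.zpowers σL) (e : fixedField M),
      g • algebraMap (fixedField M) (fixedField N) e = algebraMap (fixedField M) (fixedField N) e := by
    intro g e
    obtain ⟨τ, hτ⟩ := hGres g
    apply Subtype.ext
    rw [hsmul, hτ, hresΩ, halg]
    exact (mem_fixedField_iff M _).1 e.2 _ τ.2
  have hcomm : SMulCommClass (Subgroup.zpowers σL) (fixedField M) (fixedField N) :=
    ⟨fun g e l => by
      rw [Algebra.smul_def, Algebra.smul_def, smul_mul', hfixE]⟩
  have hσpowΩ : ∀ (i : ℕ) (l : fixedField N),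
      ((((⟨σL, Subgroup.mem_zpowers σL⟩ : Subgroup.zpowers σL) ^ i) • l : fixedField N) : Ω) =
        (σ ^ i) (l : Ω) := by
    intro i l
    rw [hsmul, Subgroup.coe_pow, hpow, hresΩ]
    rfl
  have hinv : Algebra.IsInvariant (fixedField M) (fixedField N) (Subgroup.zpowers σL) :=
    ⟨fun l hl => by
      have hσl : ∀ i : ℕ, (σ ^ i) (l : Ω) = l := by
        intro i
        rw [← hσpowΩ, hl]
      have hM' : (l : Ω) ∈ fixedField M := by
        rw [mem_fixedField_iff]
        intro g hg
        obtain ⟨i, hi⟩ := hgen g hg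
        have h1 : g (l : Ω) = (σ ^ i) (((σ ^ i)⁻¹ * g) (l : Ω)) := by
          simp [AlgEquiv.mul_apply]
        rw [h1, (mem_fixedField_iff N _).1 l.2 _ hi, hσl]
      exact ⟨⟨l, hM'⟩, Subtype.ext rfl⟩⟩
  -- the valuation subring of `Ω^N`
  have hBstab : ∀ (g : Subgroup.zpowers σL) (l : fixedField N),
      l ∈ A.comap (algebraMap (fixedField N) Ω) → g • l ∈ A.comap (algebraMap (fixedField N) Ω) := by
    intro g l hl
    obtain ⟨τ, hτ⟩ := hGres g
    rw [hsmul, hτ, ValuationSubring.mem_comap]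
    exact (Kummer.apply_mem_iff_of_mem_decompositionSubgroup A (hM τ.2) _).2 hl
  have hunrG : ∀ g : Subgroup.zpowers σL,
      (∀ b ∈ A.comap (algebraMap (fixedField N) Ω),
        (A.comap (algebraMap (fixedField N) Ω)).valuation (g • b - b) < 1) → g = 1 := by
    intro g hg
    obtain ⟨τ, hτ⟩ := hGres g
    apply Subtype.ext
    rw [hτ]
    show res τ = 1
    rw [hres_one]
    apply hunr τ.1 τ.2
    intro b hb hbN
    have h1 := hg ⟨b, (mem_fixedField_iff N b).2 hbN⟩ hb
    rw [valuation_comap_lt_one_iff, hsmul, hτ] at h1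
    exact h1
  have hhens : HenselianLocalRing
      ((A.comap (algebraMap (fixedField N) Ω)).comap
        (algebraMap (fixedField M) (fixedField N))) :=
    Kummer.henselianLocalRing_fixedField A M hM
  have hxE : x ∈ fixedField M := (mem_fixedField_iff M x).2 hxM
  have hxE0 : (⟨x, hxE⟩ : fixedField M) ≠ 0 := fun h => hx (congrArg Subtype.val h)
  have hiff := exists_norm_eq_iff_of_unramified (E := fixedField M) (L := fixedField N)
    (G := Subgroup.zpowers σL) (A.comap (algebraMap (fixedField N) Ω)) hBstab hunrG ⟨x, hxE⟩ hxE0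
  have hprod : ∀ l : fixedField N,
      ((∏ g : Subgroup.zpowers σL, g • l : fixedField N) : Ω) =
        ∏ i ∈ Finset.range m, (σ ^ i) (l : Ω) := by
    intro l
    rw [prod_univ_eq_prod_range_pow (⟨σL, Subgroup.mem_zpowers σL⟩ : Subgroup.zpowers σL)
      (fun g => by
        obtain ⟨k, hk⟩ := Subgroup.mem_zpowers_iff.1 g.2
        exact Subgroup.mem_zpowers_iff.2 ⟨k, Subtype.ext (by rw [Subgroup.coe_zpow]; exact hk)⟩)
      (fun g => g • l), hcard', SubmonoidClass.coe_finsetProd]
    exact Finset.prod_congr rfl fun i _ => hσpowΩ i l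
  constructor
  · rintro ⟨y, hy0, hyN, hyx⟩
    have hyL : y ∈ fixedField N := (mem_fixedField_iff N y).2 hyN
    obtain ⟨c, hc0, hc⟩ := hiff.1 ⟨⟨y, hyL⟩, fun h => hy0 (congrArg Subtype.val h),
      Subtype.ext (by rw [hprod]; exact hyx)⟩
    refine ⟨(c : Ω), fun h => hc0 (Subtype.ext h), fun g hg => (mem_fixedField_iff M _).1 c.2 g hg,
      ?_⟩
    rw [hcard', ← map_pow, ← map_pow, valuation_comap_eq_iff] at hc
    rw [← map_pow]
    exact hc
  · rintro ⟨c, hc0, hcM, hc⟩
    have hcE : c ∈ fixedField M := (mem_fixedField_iff M c).2 hcM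
    obtain ⟨y, hy0, hy⟩ := hiff.2 ⟨⟨c, hcE⟩, fun h => hc0 (congrArg Subtype.val h), by
      rw [hcard', ← map_pow, ← map_pow, valuation_comap_eq_iff]
      rw [← map_pow] at hc
      exact hc⟩
    refine ⟨(y : Ω), fun h => hy0 (Subtype.ext h), fun n hn => (mem_fixedField_iff N _).1 y.2 n hn,
      ?_⟩
    rw [← hprod, hy]
    rfl

end Model

end Fermat.Agent.PT.Local
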