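/-
PT / LOCAL layer, piece UNR step 2b (helper33): the unramified norm criterion for the local
fields inside `AlgebraicClosure ℚ` (fixed fields of open subgroups of decomposition groups).

* `finite_residueField_of_frobenius_pow_mem` : the residue field of `A ∩ Q̄^N` is finite as soon
  as `N` contains a power of a Frobenius element of `A`.
* `exists_prod_pow_eq_iff_of_unramified_rat` : for `M = D_A ⊓ G_K`, `F/ℚ` finite Galois unramified
  at `A`, `M/(M ⊓ G_F)` cyclic of order `m` generated by `σ`: an `M`-fixed `x ≠ 0` is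
  `∏ i < m, σ^i y` for some `y ≠ 0` fixed by `M ⊓ G_F` iff `v_A(x) = v_A(c)^m` for some
  `M`-fixed `c ≠ 0`.
* `exists_prod_pow_eq_of_valuation_eq_zpow_rat` : the case `v_A(x) = v_A(q)^(m k)`.
-/
import Mathlib
import Fermat.Agent.PT.Local.UnramModel
import Fermat.Agent.Lib.InertiaLift
import Fermat.Agent.Lib.FrobeniusExists

set_option autoImplicit false

open IsLocalRing IntermediateField Polynomial

namespace Fermat.Agent.PT.Local

open Fermat.Agent.Lib.FrobeniusExists Fermat.Agent.Lib.InertiaLift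

local notation "Qb" => AlgebraicClosure ℚ
local notation "GQ" => (AlgebraicClosure ℚ ≃ₐ[ℚ] AlgebraicClosure ℚ)

attribute [local instance] isGalois_rat

section Residue

variable {K Ω : Type*} [Field K] [Field Ω] [Algebra K Ω]

/-- Powers of a Frobenius element act on the residue field by iterated `q`-th powers. -/
theorem frobenius_pow_smul (A : ValuationSubring Ω) (φ : A.decompositionSubgroup K) (q : ℕ)
    (hφ : ∀ x : ResidueField A, φ • x = x ^ q) (j : ℕ) (x : ResidueField A) :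
    (φ ^ j) • x = x ^ q ^ j := by
  induction j generalizing x with
  | zero => simp
  | succ j ih => rw [pow_succ, mul_smul, hφ, ih, ← pow_mul, pow_succ, mul_comm]

/-- The residue field of `A ∩ Ω^N` is finite when `N` contains a power of a Frobenius element. -/
theorem finite_residueField_of_frobenius_pow_mem (A : ValuationSubring Ω) {q : ℕ} (hq : 1 < q)
    (N : Subgroup (Ω ≃ₐ[K] Ω)) (φ : Ω ≃ₐ[K] Ω) (hφ : A.IsFrobeniusAt φ q) (j : ℕ) (hj : 0 < j)
    (hφN : φ ^ j ∈ N) :
    Finite (ResidueField (A.comap (algebraMap (fixedField N) Ω))) := by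
  classical
  obtain ⟨hφD, hφq⟩ := hφ
  let f : A.comap (algebraMap (fixedField N) Ω) →+* A :=
    { toFun := fun x => ⟨algebraMap (fixedField N) Ω x, x.2⟩
      map_one' := rfl
      map_mul' := fun _ _ => rfl
      map_zero' := rfl
      map_add' := fun _ _ => rfl }
  let g : A.comap (algebraMap (fixedField N) Ω) →+* ResidueField A := (residue A).comp f
  have hker : ∀ x ∈ maximalIdeal (A.comap (algebraMap (fixedField N) Ω)), g x = 0 := by
    intro x hx
    rw [Kummer.mem_maximalIdeal_comap_iff] at hx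
    show residue A (f x) = 0
    rw [residue_eq_zero_iff, A.valuation_lt_one_iff]
    exact hx
  let gbar : ResidueField (A.comap (algebraMap (fixedField N) Ω)) →+* ResidueField A :=
    Ideal.Quotient.lift _ g hker
  have hinj : Function.Injective gbar := gbar.injective
  have hq1 : 1 < q ^ j := Nat.one_lt_pow hj.ne' hq
  have hfin : Set.Finite {z : ResidueField A | (X ^ (q ^ j) - X : (ResidueField A)[X]).IsRoot z} :=
    Polynomial.finite_setOfPred_isRoot (FiniteField.X_pow_card_sub_X_ne_zero _ hq1)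
  have hmem : ∀ z, gbar z ∈ {z : ResidueField A | (X ^ (q ^ j) - X : (ResidueField A)[X]).IsRoot z} := by
    intro z
    obtain ⟨y, rfl⟩ := Ideal.Quotient.mk_surjective z
    have h1 : gbar (Ideal.Quotient.mk _ y) = residue A (f y) := rfl
    rw [h1, Set.mem_ofPred_eq, IsRoot, eval_sub, eval_pow, eval_X, sub_eq_zero,
      ← frobenius_pow_smul A ⟨φ, hφD⟩ q hφq j, ← ResidueField.residue_smul]
    congr 1
    apply Subtype.ext
    show (φ ^ j) ((y : fixedField N) : Ω) = ((y : fixedField N) : Ω)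
    exact (mem_fixedField_iff N _).1 (y : fixedField N).2 _ hφN
  have := hfin.to_subtype
  exact Finite.of_injective (fun z => (⟨gbar z, hmem z⟩ :
    {z : ResidueField A | (X ^ (q ^ j) - X : (ResidueField A)[X]).IsRoot z}))
    (fun a b hab => hinj (congrArg Subtype.val hab))

end Residue

section Rat

/-- **Unramified norm criterion for the local fields inside `Q̄`.**  `A` a place of `Q̄` over `q`,
`M = D_A ⊓ G_K` (the local group of the finite extension `K`), `F/ℚ` finite Galois and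
unramified at `A`, `N = M ⊓ G_F`, with `M/N` cyclic of order `m` generated by `σ`.  Then an
`M`-fixed `x ≠ 0` is a norm `∏ i < m, σ^i y` of an `N`-fixed `y ≠ 0` iff `v_A(x) = v_A(c)^m` for
some `M`-fixed `c ≠ 0`. -/
theorem exists_prod_pow_eq_iff_of_unramified_rat {q : ℕ} (hq : q.Prime)
    (A : ValuationSubring Qb) (hA : A.LiesOverPrime q)
    (K F : IntermediateField ℚ Qb) [FiniteDimensional ℚ K] [FiniteDimensional ℚ F] [Normal ℚ F]
    (hF : A.inertiaSubgroupIn ℚ ≤ F.fixingSubgroup)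
    (σ : GQ) (hσ : σ ∈ A.decompositionSubgroup ℚ ⊓ K.fixingSubgroup) (m : ℕ) (hm : 0 < m)
    (hgen : ∀ g ∈ A.decompositionSubgroup ℚ ⊓ K.fixingSubgroup,
      ∃ i : ℕ, (σ ^ i)⁻¹ * g ∈ F.fixingSubgroup)
    (hord : ∀ i : ℕ, σ ^ i ∈ F.fixingSubgroup ↔ m ∣ i)
    (x : Qb) (hx : x ≠ 0) (hxM : ∀ g ∈ A.decompositionSubgroup ℚ ⊓ K.fixingSubgroup, g x = x) :
    (∃ y : Qb, y ≠ 0 ∧
        (∀ n ∈ A.decompositionSubgroup ℚ ⊓ K.fixingSubgroup ⊓ F.fixingSubgroup, n y = y) ∧
        ∏ i ∈ Finset.range m, (σ ^ i) y = x) ↔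
      ∃ c : Qb, c ≠ 0 ∧ (∀ g ∈ A.decompositionSubgroup ℚ ⊓ K.fixingSubgroup, g c = c) ∧
        A.valuation x = A.valuation c ^ m := by
  classical
  have hFnormal : F.fixingSubgroup.Normal := by
    refine ⟨fun n hn g => ?_⟩
    rw [IntermediateField.mem_fixingSubgroup_iff] at hn ⊢
    intro z hz
    have h1 : g⁻¹ z ∈ F :=
      (IntermediateField.normal_iff_forall_map_le'.mp ‹Normal ℚ F›) g⁻¹ ⟨z, hz, rfl⟩
    show g (n (g⁻¹ z)) = z
    rw [hn _ h1]
    exact g.apply_symm_apply z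
  have hσpow : ∀ i : ℕ, σ ^ i ∈ A.decompositionSubgroup ℚ ⊓ K.fixingSubgroup := fun i =>
    Subgroup.pow_mem _ hσ i
  -- finiteness of the residue field
  obtain ⟨φ, hφ⟩ := exists_isFrobeniusAt_of_liesOverPrime hq A hA
  have hKfi : K.fixingSubgroup.FiniteIndex := ⟨by
    rw [← IntermediateField.finrank_eq_fixingSubgroup_index]
    exact Module.finrank_pos.ne'⟩
  have hFfi : F.fixingSubgroup.FiniteIndex := ⟨by
    rw [← IntermediateField.finrank_eq_fixingSubgroup_index]
    exact Module.finrank_pos.ne'⟩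
  have hKFfi : (K.fixingSubgroup ⊓ F.fixingSubgroup).FiniteIndex := inferInstance
  obtain ⟨j, hj, -, hφj⟩ := Subgroup.exists_pow_mem_of_index_ne_zero
    (H := K.fixingSubgroup ⊓ F.fixingSubgroup) Subgroup.FiniteIndex.index_ne_zero φ
  have hφN : φ ^ j ∈ A.decompositionSubgroup ℚ ⊓ K.fixingSubgroup ⊓ F.fixingSubgroup :=
    ⟨⟨Subgroup.pow_mem _ hφ.mem_decompositionSubgroup j, hφj.1⟩, hφj.2⟩
  have hfin := finite_residueField_of_frobenius_pow_mem A hq.one_lt
    (A.decompositionSubgroup ℚ ⊓ K.fixingSubgroup ⊓ F.fixingSubgroup) φ hφ j hj hφN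
  refine exists_prod_pow_eq_iff_of_unramified A (A.decompositionSubgroup ℚ ⊓ K.fixingSubgroup)
    (A.decompositionSubgroup ℚ ⊓ K.fixingSubgroup ⊓ F.fixingSubgroup) inf_le_left inf_le_left
    ?_ σ hσ m hm ?_ ?_ ?_ x hx hxM
  · intro g hg n hn
    refine ⟨Subgroup.mul_mem _ (Subgroup.mul_mem _ (Subgroup.inv_mem _ hg) hn.1) hg, ?_⟩
    have := hFnormal.conj_mem n hn.2 g⁻¹
    rwa [inv_inv] at this
  · intro g hg
    obtain ⟨i, hi⟩ := hgen g hg
    exact ⟨i, Subgroup.mul_mem _ (Subgroup.inv_mem _ (hσpow i)) hg, hi⟩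
  · intro i
    rw [← hord i]
    exact ⟨fun h => h.2, fun h => ⟨hσpow i, h⟩⟩
  · intro g hg hgb
    refine ⟨hg, ?_⟩
    obtain ⟨n, hn, hng⟩ := exists_mul_mem_inertiaSubgroupIn hq A hA F.fixingSubgroup
      (InfiniteGalois.fixingSubgroup_isClosed F) g (fun b hb hbF => by
        refine hgb b ((A.valuation_le_one_iff b).1 (val_le_one_of_isIntegral A.valuation hb))
          (fun n hn => hbF n hn.2))
    have h1 := hF hng
    have h2 := Subgroup.mul_mem _ (Subgroup.inv_mem _ hn) h1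
    rwa [inv_mul_cancel_left] at h2

/-- The case `v_A(x) = v_A(q)^(m k)` of the criterion: then `x` is a norm. -/
theorem exists_prod_pow_eq_of_valuation_eq_zpow_rat {q : ℕ} (hq : q.Prime)
    (A : ValuationSubring Qb) (hA : A.LiesOverPrime q)
    (K F : IntermediateField ℚ Qb) [FiniteDimensional ℚ K] [FiniteDimensional ℚ F] [Normal ℚ F]
    (hF : A.inertiaSubgroupIn ℚ ≤ F.fixingSubgroup)
    (σ : GQ) (hσ : σ ∈ A.decompositionSubgroup ℚ ⊓ K.fixingSubgroup) (m : ℕ) (hm : 0 < m)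
    (hgen : ∀ g ∈ A.decompositionSubgroup ℚ ⊓ K.fixingSubgroup,
      ∃ i : ℕ, (σ ^ i)⁻¹ * g ∈ F.fixingSubgroup)
    (hord : ∀ i : ℕ, σ ^ i ∈ F.fixingSubgroup ↔ m ∣ i)
    (x : Qb) (hx : x ≠ 0) (hxM : ∀ g ∈ A.decompositionSubgroup ℚ ⊓ K.fixingSubgroup, g x = x)
    (k : ℤ) (hk : A.valuation x = A.valuation ((q : Qb) ^ ((m : ℤ) * k))) :
    ∃ y : Qb, y ≠ 0 ∧
      (∀ n ∈ A.decompositionSubgroup ℚ ⊓ K.fixingSubgroup ⊓ F.fixingSubgroup, n y = y) ∧
      ∏ i ∈ Finset.range m, (σ ^ i) y = x := by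
  have hq0 : (q : Qb) ≠ 0 := Nat.cast_ne_zero.2 hq.ne_zero
  refine (exists_prod_pow_eq_iff_of_unramified_rat hq A hA K F hF σ hσ m hm hgen hord x hx hxM).2
    ⟨(q : Qb) ^ k, zpow_ne_zero _ hq0, fun g _ => by rw [map_zpow₀, map_natCast], ?_⟩
  rw [hk, map_zpow₀, map_zpow₀, ← zpow_natCast, ← zpow_mul, mul_comm]

end Rat

end Fermat.Agent.PT.Local
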