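/-
PT / LOCAL layer: **(B2)**, the local `H¹` count (helper33).

For `K/ℚ` finite containing `μ_p`, `A` a valuation subring of `ℚ̄` over the prime `q`,
`V = Gal(ℚ̄/K) ⊓ D_A` and `M = decompField K A` (the henselisation of `K` at `A`):

  `H¹(V; 𝔽_p) ≃ {level characters V → 𝔽_p} ≃ Mˣ / (Mˣ)ᵖ`      (Kummer theory + Hilbert 90),
  `#(Mˣ / (Mˣ)ᵖ) = p · #μ_p(M) · #(R / p R) = p ^ (2 + [q = p]·[D_A : D_A ⊓ G_K])`.
-/
import Mathlib
import Fermat.Agent.PT.Local.UnitPow
import Fermat.Agent.PT.Local.QuotP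
import Fermat.Agent.PT.Base.Interfaces
import Fermat.Agent.PT.G.KumH1
import Fermat.Agent.PT.G.KumH90

set_option autoImplicit false

open Module

namespace Fermat.Agent.PT.Local

local notation "Qb" => AlgebraicClosure ℚ
local notation "GQ" => (AlgebraicClosure ℚ ≃ₐ[ℚ] AlgebraicClosure ℚ)

open Fermat.Agent.PT.Kummer

/-- **(B2-U2)** `#(Mˣ / (Mˣ)ᵖ) = p ^ (2 + [q = p]·[D_A : D_A ⊓ G_K])` for the henselisation
`M = decompField K A` of a number field `K ∋ ζ_p` at a place `A` over `q`. -/
theorem card_units_decompField_quot_pow (K : IntermediateField ℚ Qb) [FiniteDimensional ℚ K]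
    {p q : ℕ} (hp : p.Prime) (hq : q.Prime) (A : ValuationSubring Qb) (hA : A.LiesOverPrime q)
    {ζ : Qb} (hζ : IsPrimitiveRoot ζ p) (hζK : ζ ∈ K) :
    Nat.card ((decompField K A)ˣ ⧸
        (powMonoidHom p : (decompField K A)ˣ →* (decompField K A)ˣ).range) =
      p ^ (2 + if q = p then K.fixingSubgroup.relIndex (A.decompositionSubgroup ℚ) else 0) := by
  have hNF : NumberField K := ⟨⟩
  have h1 := isDiscreteValuationRing_decompField K hq A hA
  have h2 := finite_residueField_decompField K hq A hA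
  have h3 := henselianLocalRing_decompField K A
  have hn : ((p : ℕ) : A.comap (algebraMap (decompField K A) Qb)) ≠ 0 :=
    Nat.cast_ne_zero.2 hp.ne_zero
  have hroots : Nat.card (rootsOfUnity p (decompField K A)) = p := by
    have : NeZero p := ⟨hp.ne_zero⟩
    have hζM : ζ ∈ decompField K A := le_decompField K A hζK
    have hζ' : IsPrimitiveRoot (⟨ζ, hζM⟩ : decompField K A) p :=
      IsPrimitiveRoot.of_map_of_injective (f := algebraMap (decompField K A) Qb) hζ
        (FaithfulSMul.algebraMap_injective _ _)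
    exact hζ'.card_rootsOfUnity
  rw [card_fracUnits_quot_pow (A.comap (algebraMap (decompField K A) Qb)) (decompField K A) p hn,
    card_quot_span_natCast K hp hq A hA, hroots]
  split_ifs <;> ring

/-- A `ZMod p`-module of cardinality `p ^ n` has dimension `n`. -/
theorem finrank_zmod_eq_of_card (p : ℕ) [Fact p.Prime] (V : Type*) [AddCommGroup V]
    [Module (ZMod p) V] (n : ℕ) (h : Nat.card V = p ^ n) : finrank (ZMod p) V = n := by
  have hp : p.Prime := Fact.out
  have hfin : Finite V := Nat.finite_of_card_ne_zero (by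
    rw [h]
    exact pow_ne_zero _ hp.ne_zero)
  have hmf : Module.Finite (ZMod p) V := Module.Finite.of_finite
  have h2 := Module.natCard_eq_pow_finrank (K := ZMod p) (V := V)
  rw [h, Nat.card_zmod] at h2
  exact (Nat.pow_right_injective hp.two_le h2).symm

/-- **(B2)** modulo the Kummer bijection `H¹(V; 𝔽_p) ↔ Mˣ / (Mˣ)ᵖ`. -/
theorem b2_of_kummer (p : ℕ) [Fact p.Prime] (S : Finset Nat.Primes)
    (hkum : ∀ (K : IntermediateField ℚ Qb), FiniteDimensional ℚ K → ∀ (A : ValuationSubring Qb)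
      (ζ : Qb), IsPrimitiveRoot ζ p → ζ ∈ K →
      Nat.card ((Base.CV p (K.fixingSubgroup ⊓ Base.decomp A)).H 1) =
        Nat.card ((decompField K A)ˣ ⧸
          (powMonoidHom p : (decompField K A)ˣ →* (decompField K A)ˣ).range)) :
    Base.B2 p S := by
  intro K hK hcyc q _ A hA
  have hp : p.Prime := Fact.out
  obtain ⟨ζ, hζ⟩ := Levels.exists_primitiveRoot_Qbar p
  have hζK : ζ ∈ K := (Kummer.mem_iff_forall_apply_eq K ζ).mpr fun g hg =>
    (Levels.cycloChar_eq_one_iff p g hζ).mp (hcyc g hg)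
  apply finrank_zmod_eq_of_card
  rw [hkum K hK A ζ hζ hζK, card_units_decompField_quot_pow K hp q.2 A hA hζ hζK]

end Fermat.Agent.PT.Local
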