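import Mathlib

/-!
# The Artin–Tate formula for the Herbrand quotient of a cyclic group of prime order

`A` is an additive commutative group, `s : A →+ A` with `s ^ p = 1` (`p` prime), `D = s - 1`,
`N = 1 + s + … + s ^ (p - 1)`, `K = ker D` (the fixed points).  If `A / pA` and `A[p]` are finite,
then all of `K / NA`, `ker N / DA`, `K / pK`, `K[p]` are finite and

`[K : NA] ^ (p - 1) * |K[p]| ^ p * [A : pA] = [ker N : DA] ^ (p - 1) * [K : pK] ^ p * |A[p]|`,

i.e. `h(A) ^ (p - 1) = q₀(A^G) ^ p / q₀(A)` with `q₀(B) = |B / pB| / |B[p]|`.  No finite generation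
is assumed (the intended application is `A = E'ˣ` for a local field `E'`).

Everything is index calculus for subgroups of `A`; indices are natural numbers with the
convention `0 = infinite`, and the auxiliary identities hold unconditionally.
-/

set_option autoImplicit false
set_option linter.style.haveILetI false

namespace Fermat.Agent.PT.Local

open AddSubgroup Polynomial

section Index

variable {A : Type*} [AddCommGroup A]

/-- `[g Y : g X] = [Y : X + ker g]`. -/
theorem relIndex_map_map_self (g : A →+ A) (X Y : AddSubgroup A) :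
    (X.map g).relIndex (Y.map g) = (X ⊔ g.ker).relIndex Y := by
  rw [← AddSubgroup.relIndex_comap, AddSubgroup.comap_map_eq]

/-- `[g A : g X] = [A : X + ker g]`. -/
theorem relIndex_map_range (g : A →+ A) (X : AddSubgroup A) :
    (X.map g).relIndex g.range = (X ⊔ g.ker).index := by
  rw [AddMonoidHom.range_eq_map, relIndex_map_map_self, AddSubgroup.relIndex_top_right]

/-- `|Y| = |X ∩ Y| * [Y : X ∩ Y]`. -/
theorem card_eq_card_inf_mul_relIndex (X Y : AddSubgroup A) :
    Nat.card Y = Nat.card ↥(X ⊓ Y) * X.relIndex Y := by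
  rw [← AddSubgroup.relIndex_bot_left, ← AddSubgroup.relIndex_bot_left,
    ← AddSubgroup.inf_relIndex_right X Y]
  exact (AddSubgroup.relIndex_mul_relIndex ⊥ (X ⊓ Y) Y bot_le inf_le_right).symm

/-- `|g X| * |ker g ∩ X| = |X|`. -/
theorem card_map_mul_card_ker_inf (g : A →+ A) (X : AddSubgroup A) :
    Nat.card ↥(X.map g) * Nat.card ↥(g.ker ⊓ X) = Nat.card X := by
  rw [card_eq_card_inf_mul_relIndex g.ker X, AddSubgroup.relIndex_ker, mul_comm]

/-- Multiplicativity of `q(f; H) = [H : f H] / |ker f ∩ H|` under composition, for a subgroup `H`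
stable under `f` and `g` (cross-multiplied, unconditional). -/
theorem index_comp (f g : A →+ A) (H : AddSubgroup A) (hf : H.map f ≤ H) (hg : H.map g ≤ H) :
    ((H.map g).map f).relIndex H * Nat.card ↥(f.ker ⊓ H) * Nat.card ↥(g.ker ⊓ H) =
      (H.map f).relIndex H * (H.map g).relIndex H * Nat.card ↥((f.comp g).ker ⊓ H) := by
  have s1 : ((H.map g).map f).relIndex (H.map f) * (H.map f).relIndex H =
      ((H.map g).map f).relIndex H :=
    AddSubgroup.relIndex_mul_relIndex _ _ _ (AddSubgroup.map_mono hg) hf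
  have s2 : ((H.map g).map f).relIndex (H.map f) = (H.map g ⊔ (f.ker ⊓ H)).relIndex H := by
    rw [relIndex_map_map_self, ← AddSubgroup.inf_relIndex_right, sup_inf_assoc_of_le _ hg]
  have s4 : (H.map g).relIndex (H.map g ⊔ (f.ker ⊓ H)) * (H.map g ⊔ (f.ker ⊓ H)).relIndex H =
      (H.map g).relIndex H :=
    AddSubgroup.relIndex_mul_relIndex _ _ _ le_sup_left (sup_le hg inf_le_right)
  have s5 : (H.map g).relIndex (H.map g ⊔ (f.ker ⊓ H)) = (H.map g).relIndex (f.ker ⊓ H) :=
    AddSubgroup.relIndex_sup_left _ _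
  have s6 : Nat.card ↥(f.ker ⊓ H) =
      Nat.card ↥(H.map g ⊓ (f.ker ⊓ H)) * (H.map g).relIndex (f.ker ⊓ H) :=
    card_eq_card_inf_mul_relIndex _ _
  have s7 : Nat.card ↥((f.comp g).ker ⊓ H) =
      Nat.card ↥(H.map g ⊓ (f.ker ⊓ H)) * Nat.card ↥(g.ker ⊓ H) := by
    have h := card_map_mul_card_ker_inf g ((f.comp g).ker ⊓ H)
    have e1 : ((f.comp g).ker ⊓ H).map g = H.map g ⊓ (f.ker ⊓ H) := by
      ext y
      constructor
      · rintro ⟨x, ⟨hx1, hx2⟩, rfl⟩
        exact ⟨⟨x, hx2, rfl⟩, hx1, hg ⟨x, hx2, rfl⟩⟩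
      · rintro ⟨⟨x, hx, rfl⟩, hy, -⟩
        exact ⟨x, ⟨hy, hx⟩, rfl⟩
    have e2 : g.ker ⊓ ((f.comp g).ker ⊓ H) = g.ker ⊓ H := by
      ext x
      constructor
      · rintro ⟨h1, -, h3⟩
        exact ⟨h1, h3⟩
      · rintro ⟨h1, h3⟩
        refine ⟨h1, ?_, h3⟩
        have h1' : g x = 0 := h1
        show f (g x) = 0
        rw [h1', map_zero]
    rw [e1, e2] at h
    exact h.symm
  rw [← s1, s2, s6, s7, ← s4, s5]
  ring

/-- iterates of an endomorphism -/
def iter (f : A →+ A) : ℕ → (A →+ A)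
  | 0 => AddMonoidHom.id A
  | n + 1 => (iter f n).comp f

theorem iter_succ_apply (f : A →+ A) (n : ℕ) (x : A) : iter f (n + 1) x = iter f n (f x) := rfl

theorem iter_zero_apply (f : A →+ A) (x : A) : iter f 0 x = x := rfl

theorem map_iter_le (f : A →+ A) (H : AddSubgroup A) (hf : H.map f ≤ H) (n : ℕ) :
    H.map (iter f n) ≤ H := by
  induction n with
  | zero =>
    rintro _ ⟨x, hx, rfl⟩
    exact hx
  | succ n ih =>
    rintro _ ⟨x, hx, rfl⟩
    exact ih ⟨f x, hf ⟨x, hx, rfl⟩, rfl⟩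

/-- `q(f ^ n; H) = q(f; H) ^ n` (cross-multiplied), for `ker f ∩ H` finite. -/
theorem index_iter (f : A →+ A) (H : AddSubgroup A) (hf : H.map f ≤ H)
    (hK : Nat.card ↥(f.ker ⊓ H) ≠ 0) (n : ℕ) :
    Nat.card ↥((iter f n).ker ⊓ H) ≠ 0 ∧
    (H.map (iter f n)).relIndex H * Nat.card ↥(f.ker ⊓ H) ^ n =
      (H.map f).relIndex H ^ n * Nat.card ↥((iter f n).ker ⊓ H) := by
  induction n with
  | zero =>
    have h0 : (iter f 0).ker ⊓ H = ⊥ := by
      ext x
      constructor
      · rintro ⟨h1, -⟩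
        exact h1
      · intro hx
        have hx' : x = 0 := hx
        subst hx'
        exact zero_mem _
    have h1 : H.map (iter f 0) = H := by
      ext x
      constructor
      · rintro ⟨y, hy, rfl⟩
        exact hy
      · intro hx
        exact ⟨x, hx, rfl⟩
    rw [h0, h1]
    simp
  | succ n ih =>
    obtain ⟨ih0, ih⟩ := ih
    have hc := index_comp (iter f n) f H (map_iter_le f H hf n) hf
    have e1 : (H.map f).map (iter f n) = H.map (iter f (n + 1)) := by
      rw [AddSubgroup.map_map]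
      rfl
    have e2 : ((iter f n).comp f).ker = (iter f (n + 1)).ker := rfl
    rw [e1, e2] at hc
    have hne : Nat.card ↥((iter f (n + 1)).ker ⊓ H) ≠ 0 := by
      have h := card_map_mul_card_ker_inf f ((iter f (n + 1)).ker ⊓ H)
      have hle : ((iter f (n + 1)).ker ⊓ H).map f ≤ (iter f n).ker ⊓ H := by
        rintro _ ⟨x, ⟨hx1, hx2⟩, rfl⟩
        exact ⟨hx1, hf ⟨x, hx2, rfl⟩⟩
      have hle2 : f.ker ⊓ ((iter f (n + 1)).ker ⊓ H) ≤ f.ker ⊓ H :=
        inf_le_inf_left _ inf_le_right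
      haveI : Finite ↥((iter f n).ker ⊓ H) := Nat.finite_of_card_ne_zero ih0
      haveI : Finite ↥(f.ker ⊓ H) := Nat.finite_of_card_ne_zero hK
      haveI : Finite ↥(((iter f (n + 1)).ker ⊓ H).map f) :=
        Finite.of_injective _ (AddSubgroup.inclusion_injective hle)
      haveI : Finite ↥(f.ker ⊓ ((iter f (n + 1)).ker ⊓ H)) :=
        Finite.of_injective _ (AddSubgroup.inclusion_injective hle2)
      rw [← h]
      exact Nat.mul_ne_zero Nat.card_pos.ne' Nat.card_pos.ne'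
    refine ⟨hne, ?_⟩
    have key : ((H.map (iter f (n + 1))).relIndex H * Nat.card ↥(f.ker ⊓ H) ^ (n + 1)) *
        Nat.card ↥((iter f n).ker ⊓ H) =
        ((H.map f).relIndex H ^ (n + 1) * Nat.card ↥((iter f (n + 1)).ker ⊓ H)) *
        Nat.card ↥((iter f n).ker ⊓ H) := by
      calc ((H.map (iter f (n + 1))).relIndex H * Nat.card ↥(f.ker ⊓ H) ^ (n + 1)) *
            Nat.card ↥((iter f n).ker ⊓ H)
          = ((H.map (iter f (n + 1))).relIndex H * Nat.card ↥((iter f n).ker ⊓ H) *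
              Nat.card ↥(f.ker ⊓ H)) * Nat.card ↥(f.ker ⊓ H) ^ n := by ring
        _ = ((H.map (iter f n)).relIndex H * (H.map f).relIndex H *
              Nat.card ↥((iter f (n + 1)).ker ⊓ H)) * Nat.card ↥(f.ker ⊓ H) ^ n := by rw [hc]
        _ = ((H.map (iter f n)).relIndex H * Nat.card ↥(f.ker ⊓ H) ^ n) * (H.map f).relIndex H *
              Nat.card ↥((iter f (n + 1)).ker ⊓ H) := by ring
        _ = ((H.map f).relIndex H ^ n * Nat.card ↥((iter f n).ker ⊓ H)) * (H.map f).relIndex H *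
              Nat.card ↥((iter f (n + 1)).ker ⊓ H) := by rw [ih]
        _ = _ := by ring
    exact Nat.eq_of_mul_eq_mul_right (Nat.pos_of_ne_zero ih0) key

/-- Multiplicativity of `q(f; ·)` in the exact sequence `0 → ker g → A → im g → 0`, for commuting
endomorphisms `f`, `g` (cross-multiplied, unconditional). -/
theorem index_ses (f g : A →+ A) (hfg : ∀ x, f (g x) = g (f x)) :
    f.range.index * Nat.card ↥(f.ker ⊓ g.ker) * Nat.card ↥(f.ker ⊓ g.range) =
      (g.ker.map f).relIndex g.ker * (g.range.map f).relIndex g.range * Nat.card f.ker := by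
  have hKf : g.ker.map f ≤ g.ker := by
    rintro _ ⟨x, hx, rfl⟩
    have hx' : g x = 0 := hx
    show g (f x) = 0
    rw [← hfg, hx', map_zero]
  have a1 : f.range.relIndex (f.range ⊔ g.ker) * (f.range ⊔ g.ker).index = f.range.index :=
    AddSubgroup.relIndex_mul_index le_sup_left
  have a2 : (f.range ⊔ g.ker).index = (g.range.map f).relIndex g.range := by
    have e : g.range.map f = f.range.map g := by
      ext y
      constructor
      · rintro ⟨_, ⟨x, rfl⟩, rfl⟩
        exact ⟨f x, ⟨x, rfl⟩, (hfg x).symm⟩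
      · rintro ⟨_, ⟨x, rfl⟩, rfl⟩
        exact ⟨g x, ⟨x, rfl⟩, hfg x⟩
    rw [e, AddMonoidHom.range_eq_map g, relIndex_map_map_self, AddSubgroup.relIndex_top_right]
  have a3 : f.range.relIndex (f.range ⊔ g.ker) = f.range.relIndex g.ker :=
    AddSubgroup.relIndex_sup_left _ _
  have a4 : (g.ker.map f).relIndex (f.range ⊓ g.ker) * (f.range ⊓ g.ker).relIndex g.ker =
      (g.ker.map f).relIndex g.ker :=
    AddSubgroup.relIndex_mul_relIndex _ _ _
      (le_inf (by rintro _ ⟨x, -, rfl⟩; exact ⟨x, rfl⟩) hKf) inf_le_right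
  have a5 : (f.range ⊓ g.ker).relIndex g.ker = f.range.relIndex g.ker :=
    AddSubgroup.inf_relIndex_right _ _
  have a6 : (g.ker.map f).relIndex (f.range ⊓ g.ker) =
      (f.ker.map g).relIndex (f.ker ⊓ g.range) := by
    have e1 : (g.ker.comap f).map f = f.range ⊓ g.ker := AddSubgroup.map_comap_eq f g.ker
    have e2 : (g.ker.comap f).map g = f.ker ⊓ g.range := by
      ext y
      constructor
      · rintro ⟨x, hx, rfl⟩
        have hx' : g (f x) = 0 := hx
        refine ⟨?_, ⟨x, rfl⟩⟩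
        show f (g x) = 0
        rw [hfg, hx']
      · rintro ⟨hy, ⟨x, rfl⟩⟩
        have hy' : f (g x) = 0 := hy
        refine ⟨x, ?_, rfl⟩
        show g (f x) = 0
        rw [← hfg, hy']
    have e3 : (g.ker ⊔ f.ker).map g = f.ker.map g := by
      rw [AddSubgroup.map_sup]
      have : g.ker.map g = ⊥ := by
        rw [eq_bot_iff]
        rintro _ ⟨x, hx, rfl⟩
        exact hx
      rw [this, bot_sup_eq]
    rw [← e1, relIndex_map_map_self, ← e2, ← e3, relIndex_map_map_self]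
    congr 1
    rw [sup_assoc, sup_comm f.ker g.ker, ← sup_assoc, sup_idem]
  have a7 : Nat.card ↥(f.ker ⊓ g.range) =
      Nat.card ↥(f.ker.map g) * (f.ker.map g).relIndex (f.ker ⊓ g.range) := by
    have hle : f.ker.map g ≤ f.ker ⊓ g.range := by
      rintro _ ⟨x, hx, rfl⟩
      have hx' : f x = 0 := hx
      refine ⟨?_, ⟨x, rfl⟩⟩
      show f (g x) = 0
      rw [hfg, hx', map_zero]
    have h := card_eq_card_inf_mul_relIndex (f.ker.map g) (f.ker ⊓ g.range)
    rwa [inf_of_le_left hle] at h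
  have a8 : Nat.card ↥(f.ker.map g) * Nat.card ↥(g.ker ⊓ f.ker) = Nat.card f.ker :=
    card_map_mul_card_ker_inf g f.ker
  rw [← a1, a2, a3, a7, ← a4, a5, a6, ← a8, inf_comm f.ker g.ker]
  ring

/-- For `I ≤ M`: `[M + K : I + K] * |K ∩ M| = [M : I] * |I ∩ K|` (unconditional). -/
theorem relIndex_sup_mul_card (I M K : AddSubgroup A) (hIM : I ≤ M) :
    (I ⊔ K).relIndex (M ⊔ K) * Nat.card ↥(K ⊓ M) = I.relIndex M * Nat.card ↥(I ⊓ K) := by
  have b1 : (I ⊔ K).relIndex (M ⊔ K) = (I ⊔ (K ⊓ M)).relIndex M := by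
    have e : M ⊔ K = M ⊔ (I ⊔ K) := by
      rw [← sup_assoc, sup_of_le_left hIM]
    rw [e, AddSubgroup.relIndex_sup_right, ← AddSubgroup.inf_relIndex_right,
      sup_inf_assoc_of_le K hIM]
  have b2 : I.relIndex (I ⊔ (K ⊓ M)) * (I ⊔ (K ⊓ M)).relIndex M = I.relIndex M :=
    AddSubgroup.relIndex_mul_relIndex _ _ _ le_sup_left (sup_le hIM inf_le_right)
  have b3 : I.relIndex (I ⊔ (K ⊓ M)) = I.relIndex (K ⊓ M) := AddSubgroup.relIndex_sup_left _ _
  have b4 : Nat.card ↥(K ⊓ M) = Nat.card ↥(I ⊓ K) * I.relIndex (K ⊓ M) := by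
    have h := card_eq_card_inf_mul_relIndex I (K ⊓ M)
    have e : I ⊓ (K ⊓ M) = I ⊓ K := by
      rw [inf_comm K M, ← inf_assoc, inf_of_le_left hIM]
    rwa [e] at h
  rw [b1, ← b2, b3, b4]
  ring

end Index

section Cyclo

variable (p : ℕ) [hp : Fact p.Prime]

/-- Modulo the `p`-th cyclotomic polynomial, `p = (X - 1) ^ (p - 1) * U` with `U` invertible. -/
theorem exists_cyclotomic_unit :
    ∃ U V T₁ T₂ : ℤ[X], C (p : ℤ) = (X - 1) ^ (p - 1) * U + cyclotomic p ℤ * T₁ ∧
      U * V = 1 + cyclotomic p ℤ * T₂ := by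
  have hirr : Irreducible (cyclotomic p ℤ) := cyclotomic.irreducible hp.out.pos
  have hprime : Prime (cyclotomic p ℤ) := hirr.prime
  haveI : IsDomain (AdjoinRoot (cyclotomic p ℤ)) := AdjoinRoot.isDomain_of_prime hprime
  have hζp : (AdjoinRoot.root (cyclotomic p ℤ)) ^ p = 1 := by
    have h1 : AdjoinRoot.mk (cyclotomic p ℤ) (X ^ p - 1) = 0 := by
      rw [AdjoinRoot.mk_eq_zero, ← cyclotomic_prime_mul_X_sub_one ℤ p]
      exact dvd_mul_right _ _
    rw [map_sub, map_pow, AdjoinRoot.mk_X, map_one, sub_eq_zero] at h1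
    exact h1
  have hζ1 : (AdjoinRoot.root (cyclotomic p ℤ)) ≠ 1 := by
    intro h
    have h1 : AdjoinRoot.mk (cyclotomic p ℤ) (X - 1) = 0 := by
      rw [map_sub, AdjoinRoot.mk_X, map_one, h, sub_self]
    rw [AdjoinRoot.mk_eq_zero] at h1
    obtain ⟨Q, hQ⟩ := h1
    have h2 := congrArg (Polynomial.eval 1) hQ
    rw [eval_sub, eval_X, eval_one, sub_self, eval_mul, eval_one_cyclotomic_prime] at h2
    have h3 : (p : ℤ) ∣ 0 := ⟨_, h2⟩
    have hp0 : (p : ℤ) ≠ 0 := by exact_mod_cast hp.out.ne_zero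
    have : (p : ℤ) * eval 1 Q = 0 := h2.symm
    rcases mul_eq_zero.mp this with h4 | h4
    · exact hp0 h4
    · -- then `X - 1 = Φ_p * Q` with `Q(1) = 0`; compare degrees/evaluate differently
      have hdeg := congrArg Polynomial.natDegree hQ
      have hQ0 : Q ≠ 0 := by
        rintro rfl
        rw [mul_zero] at hQ
        exact X_sub_C_ne_zero (1 : ℤ) (by simpa using hQ)
      rw [natDegree_mul (cyclotomic_ne_zero p ℤ) hQ0, natDegree_cyclotomic,
        Nat.totient_prime hp.out] at hdeg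
      have hX : (X - 1 : ℤ[X]).natDegree = 1 := by
        have := natDegree_X_sub_C (1 : ℤ)
        simpa using this
      rw [hX] at hdeg
      -- so `Q` is a nonzero constant, contradicting `Q(1) = 0`
      have hQd : Q.natDegree = 0 := by
        have := hp.out.two_le
        omega
      rw [natDegree_eq_zero] at hQd
      obtain ⟨c, rfl⟩ := hQd
      rw [eval_C] at h4
      subst h4
      exact hQ0 (by simp)
  have hprim : IsPrimitiveRoot (AdjoinRoot.root (cyclotomic p ℤ)) p := by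
    have := IsPrimitiveRoot.orderOf (AdjoinRoot.root (cyclotomic p ℤ))
    rwa [orderOf_eq_prime hζp hζ1] at this
  obtain ⟨n, hn⟩ : ∃ n, p = n + 1 := ⟨p - 1, (Nat.succ_pred_eq_of_pos hp.out.pos).symm⟩
  have hprim' : IsPrimitiveRoot (AdjoinRoot.root (cyclotomic p ℤ)) (n + 1) := hn ▸ hprim
  have hprod := IsPrimitiveRoot.prod_one_sub_pow_eq_order hprim'
  -- each factor is associated to `ζ - 1`
  have hassoc : ∀ k ∈ Finset.range n, ∃ u : (AdjoinRoot (cyclotomic p ℤ))ˣ,
      1 - (AdjoinRoot.root (cyclotomic p ℤ)) ^ (k + 1) =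
        (AdjoinRoot.root (cyclotomic p ℤ) - 1) * u := by
    intro k hk
    have hk' : k + 1 < p := by
      have := Finset.mem_range.mp hk
      omega
    have hcop : (k + 1).Coprime p :=
      (Nat.coprime_of_lt_prime (Nat.succ_ne_zero k) hk' hp.out).symm
    obtain ⟨u, hu⟩ := hprim.associated_sub_one_pow_sub_one_of_coprime hcop
    refine ⟨-u, ?_⟩
    rw [Units.val_neg, mul_neg, hu]
    ring
  choose! u hu using hassoc
  have hp_eq : (AdjoinRoot.root (cyclotomic p ℤ) - 1) ^ n *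
      ((∏ k ∈ Finset.range n, u k : (AdjoinRoot (cyclotomic p ℤ))ˣ) :
        AdjoinRoot (cyclotomic p ℤ)) = ((p : ℤ) : AdjoinRoot (cyclotomic p ℤ)) := by
    rw [Units.coe_prod]
    have h1 : ∏ k ∈ Finset.range n, (1 - (AdjoinRoot.root (cyclotomic p ℤ)) ^ (k + 1)) =
        ∏ k ∈ Finset.range n, ((AdjoinRoot.root (cyclotomic p ℤ) - 1) * (u k : _)) :=
      Finset.prod_congr rfl hu
    rw [Finset.prod_mul_distrib, Finset.prod_const, Finset.card_range] at h1
    rw [← h1, hprod, hn]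
    push_cast
    ring
  obtain ⟨U, hU⟩ := AdjoinRoot.mk_surjective
    (g := cyclotomic p ℤ) ((∏ k ∈ Finset.range n, u k : (AdjoinRoot (cyclotomic p ℤ))ˣ) :
        AdjoinRoot (cyclotomic p ℤ))
  obtain ⟨V, hV⟩ := AdjoinRoot.mk_surjective
    (g := cyclotomic p ℤ) (((∏ k ∈ Finset.range n, u k)⁻¹ : (AdjoinRoot (cyclotomic p ℤ))ˣ) :
        AdjoinRoot (cyclotomic p ℤ))
  have e1 : AdjoinRoot.mk (cyclotomic p ℤ) (C (p : ℤ) - (X - 1) ^ n * U) = 0 := by
    rw [map_sub, map_mul, map_pow, map_sub, AdjoinRoot.mk_X, map_one, hU, hp_eq, AdjoinRoot.mk_C,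
      eq_intCast, sub_self]
  have e2 : AdjoinRoot.mk (cyclotomic p ℤ) (U * V - 1) = 0 := by
    rw [map_sub, map_mul, hU, hV, map_one, Units.mul_inv, sub_self]
  rw [AdjoinRoot.mk_eq_zero] at e1 e2
  obtain ⟨T₁, hT₁⟩ := e1
  obtain ⟨T₂, hT₂⟩ := e2
  have hn' : p - 1 = n := by omega
  refine ⟨U, V, T₁, T₂, ?_, ?_⟩
  · rw [hn', ← hT₁]
    ring
  · rw [← hT₂]
    ring

end Cyclo

section Main

variable {A : Type*} [AddCommGroup A]

theorem iter_eq_pow (D : AddMonoid.End A) (n : ℕ) (x : A) : iter D n x = (D ^ n) x := by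
  induction n generalizing x with
  | zero => rfl
  | succ n ih =>
    show iter D n (D x) = (D ^ (n + 1)) x
    rw [ih, pow_succ]
    rfl

/-- **Artin–Tate formula** for the Herbrand quotient of a cyclic group of prime order `p`:
`h(A) ^ (p - 1) = q₀(A^G) ^ p / q₀(A)`, in cross-multiplied form, for an arbitrary abelian group
`A` with `A / pA` and `A[p]` finite. -/
theorem herbrand_quotient_prime (p : ℕ) [hp : Fact p.Prime] (s : AddMonoid.End A)
    (hs : s ^ p = 1)
    (hA : (AddMonoidHom.range ((p : AddMonoid.End A) : A →+ A)).index ≠ 0)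
    (hT : Nat.card (AddMonoidHom.ker ((p : AddMonoid.End A) : A →+ A)) ≠ 0) :
    (AddMonoidHom.range (∑ i ∈ Finset.range p, s ^ i : AddMonoid.End A)).relIndex
        (AddMonoidHom.ker (s - 1 : AddMonoid.End A)) ≠ 0 ∧
    (AddMonoidHom.range (s - 1 : AddMonoid.End A)).relIndex
        (AddMonoidHom.ker (∑ i ∈ Finset.range p, s ^ i : AddMonoid.End A)) ≠ 0 ∧
    ((AddMonoidHom.ker (s - 1 : AddMonoid.End A)).map ((p : AddMonoid.End A) : A →+ A)).relIndex
        (AddMonoidHom.ker (s - 1 : AddMonoid.End A)) ≠ 0 ∧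
    Nat.card ↥(AddMonoidHom.ker ((p : AddMonoid.End A) : A →+ A) ⊓
        AddMonoidHom.ker (s - 1 : AddMonoid.End A)) ≠ 0 ∧
    (AddMonoidHom.range (∑ i ∈ Finset.range p, s ^ i : AddMonoid.End A)).relIndex
        (AddMonoidHom.ker (s - 1 : AddMonoid.End A)) ^ (p - 1) *
      Nat.card ↥(AddMonoidHom.ker ((p : AddMonoid.End A) : A →+ A) ⊓
        AddMonoidHom.ker (s - 1 : AddMonoid.End A)) ^ p *
      (AddMonoidHom.range ((p : AddMonoid.End A) : A →+ A)).index =
    (AddMonoidHom.range (s - 1 : AddMonoid.End A)).relIndex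
        (AddMonoidHom.ker (∑ i ∈ Finset.range p, s ^ i : AddMonoid.End A)) ^ (p - 1) *
      ((AddMonoidHom.ker (s - 1 : AddMonoid.End A)).map
        ((p : AddMonoid.End A) : A →+ A)).relIndex
        (AddMonoidHom.ker (s - 1 : AddMonoid.End A)) ^ p *
      Nat.card (AddMonoidHom.ker ((p : AddMonoid.End A) : A →+ A)) := by
  -- the operators as values of polynomials in `s`
  set φ : ℤ[X] →ₐ[ℤ] AddMonoid.End A := Polynomial.aeval s with hφ
  set D : AddMonoid.End A := s - 1 with hD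
  set N : AddMonoid.End A := ∑ i ∈ Finset.range p, s ^ i with hN
  set P : AddMonoid.End A := (p : AddMonoid.End A) with hP
  have φD : φ (X - 1) = D := by simp [hφ, hD]
  have φN : φ (cyclotomic p ℤ) = N := by
    rw [cyclotomic_prime ℤ p, map_sum]
    simp [hφ, hN]
  have φP : φ (C (p : ℤ)) = P := by
    rw [hφ, aeval_C, hP]
    simp
  have comm : ∀ (a b : ℤ[X]) (x : A), φ a (φ b x) = φ b (φ a x) := by
    intro a b x
    have h1 : (φ a * φ b) x = (φ b * φ a) x := by
      rw [← map_mul, ← map_mul, mul_comm]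
    exact h1
  have hDN0 : D * N = 0 := by
    rw [← φD, ← φN, ← map_mul, mul_comm, cyclotomic_prime_mul_X_sub_one, map_sub, map_pow,
      map_one, hφ, aeval_X, hs, sub_self]
  have fDN : ∀ x, D (N x) = 0 := by
    intro x
    have : (D * N) x = 0 := by rw [hDN0]; rfl
    exact this
  have fND : ∀ x, N (D x) = 0 := by
    intro x
    rw [← φD, ← φN, comm, φD, φN]
    exact fDN x
  have hPx : ∀ x, P x = p • x := by
    intro x
    rw [hP]
    simp
  have fK : ∀ x, D x = 0 → N x = P x := by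
    intro x hx
    have hsx : s x = x := by
      have : s x - x = 0 := hx
      exact sub_eq_zero.mp this
    have hpow : ∀ i : ℕ, (s ^ i) x = x := by
      intro i
      induction i with
      | zero => rfl
      | succ i ih =>
        rw [pow_succ]
        show (s ^ i) (s x) = x
        rw [hsx, ih]
    rw [hPx, hN]
    have : (∑ i ∈ Finset.range p, s ^ i : AddMonoid.End A) x = ∑ i ∈ Finset.range p, (s ^ i) x :=
      AddMonoidHom.finsetSum_apply _ _ _
    rw [this, Finset.sum_congr rfl (fun i _ => hpow i), Finset.sum_const, Finset.card_range]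
  set K : AddSubgroup A := AddMonoidHom.ker D with hK
  set M : AddSubgroup A := AddMonoidHom.ker N with hM
  set I : AddSubgroup A := AddMonoidHom.range D with hI
  set NA : AddSubgroup A := AddMonoidHom.range N with hNA
  set Pk : AddSubgroup A := AddMonoidHom.ker P with hPk
  have hIM : I ≤ M := by
    rintro _ ⟨x, rfl⟩
    exact fND x
  have hNK : NA ≤ K := by
    rintro _ ⟨x, rfl⟩
    exact fDN x
  have hKM : K ⊓ M = Pk ⊓ K := by
    ext x
    constructor
    · rintro ⟨h1, h2⟩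
      refine ⟨?_, h1⟩
      show P x = 0
      rw [← fK x h1]
      exact h2
    · rintro ⟨h1, h2⟩
      refine ⟨h2, ?_⟩
      show N x = 0
      rw [fK x h2]
      exact h1
  have hKI : K ⊓ I ≤ Pk := by
    rintro x ⟨h1, h2⟩
    show P x = 0
    rw [← fK x h1]
    exact hIM h2
  haveI : Finite Pk := Nat.finite_of_card_ne_zero hT
  have fin_of_le : ∀ X : AddSubgroup A, X ≤ Pk → Nat.card X ≠ 0 := by
    intro X hX
    haveI : Finite X := Finite.of_injective _ (AddSubgroup.inclusion_injective hX)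
    exact Nat.card_pos.ne'
  have ht₁ : Nat.card ↥(Pk ⊓ K) ≠ 0 := fin_of_le _ inf_le_left
  have hy : Nat.card ↥(Pk ⊓ I) ≠ 0 := fin_of_le _ inf_le_left
  have hx : Nat.card ↥(K ⊓ I) ≠ 0 := fin_of_le _ hKI
  -- (1) the exact sequence `0 → K → A → I → 0`
  have e1 := index_ses P D (fun x => by rw [← φP, ← φD]; exact comm _ _ x)
  -- stability of `I`
  have stab : ∀ (a : ℤ[X]) (x : A), x ∈ I → φ a x ∈ I := by
    rintro a _ ⟨y, rfl⟩
    refine ⟨φ a y, ?_⟩
    rw [← φD]
    exact comm _ _ y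
  have hDI : I.map D ≤ I := by
    rintro _ ⟨x, hx, rfl⟩
    exact ⟨x, rfl⟩
  -- (2) on `I`, `p` is `D ^ (p - 1)` times a unit
  obtain ⟨U, V, T₁, T₂, hU, hUV⟩ := exists_cyclotomic_unit p
  have hNI : ∀ x ∈ I, N x = 0 := fun x hx => hIM hx
  have hPI : ∀ x ∈ I, P x = (D ^ (p - 1)) (φ U x) := by
    intro x hx
    have h1 : P x = (φ ((X - 1) ^ (p - 1) * U + cyclotomic p ℤ * T₁)) x := by rw [← hU, φP]
    rw [h1, map_add, map_mul, map_mul, map_pow, φD, φN]
    show (D ^ (p - 1)) (φ U x) + N (φ T₁ x) = _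
    rw [← φN, comm, φN, hNI x hx, map_zero, add_zero]
  have hUVx : ∀ x ∈ I, φ U (φ V x) = x := by
    intro x hx
    have h1 : φ U (φ V x) = (φ (1 + cyclotomic p ℤ * T₂)) x := by
      rw [← hUV, map_mul]
      rfl
    rw [h1, map_add, map_mul, map_one, φN]
    show x + N (φ T₂ x) = x
    rw [← φN, comm, φN, hNI x hx, map_zero, add_zero]
  have hDpow : ∀ x, (D ^ (p - 1)) x = φ ((X - 1) ^ (p - 1)) x := by
    intro x
    rw [map_pow, φD]
  have e2a : I.map P = I.map (iter D (p - 1)) := by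
    ext y
    constructor
    · rintro ⟨x, hx, rfl⟩
      refine ⟨φ U x, stab U x hx, ?_⟩
      rw [iter_eq_pow]
      exact (hPI x hx).symm
    · rintro ⟨x, hx, rfl⟩
      refine ⟨φ V x, stab V x hx, ?_⟩
      rw [iter_eq_pow]
      show P (φ V x) = _
      rw [hPI _ (stab V x hx), hUVx x hx]
  have e2b : Pk ⊓ I = AddMonoidHom.ker (iter D (p - 1)) ⊓ I := by
    ext x
    constructor
    · rintro ⟨h1, h2⟩
      refine ⟨?_, h2⟩
      show iter D (p - 1) x = 0
      rw [iter_eq_pow]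
      have h3 : P x = 0 := h1
      rw [hPI x h2, hDpow, comm] at h3
      have h4 : (D ^ (p - 1)) x ∈ I := by
        rw [hDpow]
        exact stab _ x h2
      have h5 := hUVx _ h4
      rw [comm, hDpow, h3, map_zero] at h5
      rw [hDpow]
      exact h5.symm
    · rintro ⟨h1, h2⟩
      refine ⟨?_, h2⟩
      show P x = 0
      have h3 : iter D (p - 1) x = 0 := h1
      rw [iter_eq_pow, hDpow] at h3
      rw [hPI x h2, hDpow, comm, h3, map_zero]
  have hxc : Nat.card ↥(AddMonoidHom.ker D ⊓ I) ≠ 0 := hx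
  obtain ⟨-, e2⟩ := index_iter D I hDI hxc (p - 1)
  rw [← e2a, ← e2b] at e2
  -- (3)
  have e3a : (I.map D).relIndex I = (I ⊔ K).index := relIndex_map_range D I
  have e3b : (I ⊔ K).relIndex (M ⊔ K) * (M ⊔ K).index = (I ⊔ K).index :=
    AddSubgroup.relIndex_mul_index (sup_le_sup_right hIM K)
  have e3c := relIndex_sup_mul_card I M K hIM
  -- (4)
  have e4a : K.map P = K.map N := by
    ext y
    constructor
    · rintro ⟨x, hx, rfl⟩
      exact ⟨x, hx, fK x hx⟩
    · rintro ⟨x, hx, rfl⟩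
      exact ⟨x, hx, (fK x hx).symm⟩
  have e4b : (K.map N).relIndex NA * NA.relIndex K = (K.map N).relIndex K :=
    AddSubgroup.relIndex_mul_relIndex _ _ _ (by rintro _ ⟨x, -, rfl⟩; exact ⟨x, rfl⟩) hNK
  have e4c : (K.map N).relIndex NA = (M ⊔ K).index := by
    have h : (K.map N).relIndex NA = (K ⊔ M).index := relIndex_map_range N K
    rw [h, sup_comm]
  -- names
  set a₀ := (AddMonoidHom.range P).index with ha₀
  set t₀ := Nat.card Pk with ht₀
  set t₁ := Nat.card ↥(Pk ⊓ K) with ht₁'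
  set y := Nat.card ↥(Pk ⊓ I) with hy'
  set x := Nat.card ↥(K ⊓ I) with hx'
  set a₁ := (K.map P).relIndex K with ha₁
  set b := (I.map P).relIndex I with hb
  set d := (I.map D).relIndex I with hd
  set c := (M ⊔ K).index with hc
  set h0 := NA.relIndex K with hh0
  set h1 := I.relIndex M with hh1
  have E1 : a₀ * t₁ * y = a₁ * b * t₀ := e1
  have E2 : b * x ^ (p - 1) = d ^ (p - 1) * y := e2
  have E3 : d * t₁ = c * h1 * x := by
    rw [e3a, ← e3b, hKM] at *
    have : (I ⊔ K).relIndex (M ⊔ K) * Nat.card ↥(Pk ⊓ K) = I.relIndex M * Nat.card ↥(I ⊓ K) := e3c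
    rw [inf_comm I K] at this
    calc (I ⊔ K).relIndex (M ⊔ K) * (M ⊔ K).index * t₁
        = ((I ⊔ K).relIndex (M ⊔ K) * Nat.card ↥(Pk ⊓ K)) * (M ⊔ K).index := by ring
      _ = (I.relIndex M * Nat.card ↥(K ⊓ I)) * (M ⊔ K).index := by rw [this]
      _ = _ := by ring
  have E4 : a₁ = h0 * c := by
    rw [ha₁, e4a, ← e4b, e4c]
    ring
  have hp1 : p - 1 ≠ 0 := by
    have := hp.out.two_le
    omega
  -- nonvanishing
  have n1 : a₁ * b * t₀ ≠ 0 := by
    rw [← E1]
    exact Nat.mul_ne_zero (Nat.mul_ne_zero hA ht₁) hy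
  have na₁ : a₁ ≠ 0 := fun h => n1 (by rw [h]; simp)
  have nb : b ≠ 0 := fun h => n1 (by rw [h]; simp)
  have n2 : d ^ (p - 1) * y ≠ 0 := by
    rw [← E2]
    exact Nat.mul_ne_zero nb (pow_ne_zero _ hx)
  have nd : d ≠ 0 := fun h => n2 (by rw [h, zero_pow hp1]; simp)
  have n3 : c * h1 * x ≠ 0 := by
    rw [← E3]
    exact Nat.mul_ne_zero nd ht₁
  have nc : c ≠ 0 := fun h => n3 (by rw [h]; simp)
  have nh1 : h1 ≠ 0 := fun h => n3 (by rw [h]; simp)
  have nh0 : h0 ≠ 0 := fun h => na₁ (by rw [E4, h]; simp)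
  refine ⟨nh0, nh1, na₁, ht₁, ?_⟩
  obtain ⟨n, hn⟩ : ∃ n, p = n + 1 := ⟨p - 1, (Nat.succ_pred_eq_of_pos hp.out.pos).symm⟩
  have hn' : p - 1 = n := by omega
  rw [hn'] at E2 ⊢
  rw [hn]
  have key : (h0 ^ n * t₁ ^ (n + 1) * a₀) * (y * x ^ n * c ^ n) =
      (h1 ^ n * a₁ ^ (n + 1) * t₀) * (y * x ^ n * c ^ n) := by
    calc (h0 ^ n * t₁ ^ (n + 1) * a₀) * (y * x ^ n * c ^ n)
        = (h0 * c) ^ n * t₁ ^ n * (a₀ * t₁ * y) * x ^ n := by ring
      _ = a₁ ^ n * t₁ ^ n * (a₁ * b * t₀) * x ^ n := by rw [← E4, E1]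
      _ = a₁ ^ (n + 1) * t₀ * t₁ ^ n * (b * x ^ n) := by ring
      _ = a₁ ^ (n + 1) * t₀ * t₁ ^ n * (d ^ n * y) := by rw [E2]
      _ = a₁ ^ (n + 1) * t₀ * (d * t₁) ^ n * y := by ring
      _ = a₁ ^ (n + 1) * t₀ * (c * h1 * x) ^ n * y := by rw [E3]
      _ = _ := by ring
  have hpos : 0 < y * x ^ n * c ^ n :=
    Nat.pos_of_ne_zero (Nat.mul_ne_zero (Nat.mul_ne_zero hy (pow_ne_zero _ hx)) (pow_ne_zero _ nc))
  exact Nat.eq_of_mul_eq_mul_right hpos key

end Main

end Fermat.Agent.PT.Local
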