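import Fermat.Agent.PT.Local.HerbrandQ

/-!
# The norm index of a cyclic extension of prime degree, from `q₀`-counts

* `herbrand_quotient_prime_mul`: multiplicative form of the Artin–Tate formula.
* `norm_index_eq_prime`: `E'/E` Galois of prime degree `p`; if
  `|Eˣ / p| = p * |μ_p(E)| * c` and `|E'ˣ / p| = p * |μ_p(E')| * c ^ p` with `c ≠ 0`, then
  `[Eˣ : N E'ˣ] = p`.  (For local fields `c = |𝒪_E / p|`.)
-/

set_option autoImplicit false
set_option linter.style.haveILetI false

namespace Fermat.Agent.PT.Local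

open Polynomial

section Mul

variable {G : Type*} [CommGroup G]

/-- a multiplicative endomorphism as an element of the ring `AddMonoid.End (Additive G)` -/
def addEnd (s : G →* G) : AddMonoid.End (Additive G) := MonoidHom.toAdditive s

theorem addEnd_apply (s : G →* G) (x : Additive G) :
    addEnd s x = Additive.ofMul (s (Additive.toMul x)) := rfl

theorem addEnd_pow_apply (s : G →* G) (n : ℕ) (x : Additive G) :
    (addEnd s ^ n) x = Additive.ofMul (s^[n] (Additive.toMul x)) := by
  induction n generalizing x with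
  | zero => rfl
  | succ n ih =>
    rw [pow_succ]
    show (addEnd s ^ n) (addEnd s x) = _
    rw [ih, Function.iterate_succ_apply]
    rfl

/-- Multiplicative form of `herbrand_quotient_prime`. -/
theorem herbrand_quotient_prime_mul (p : ℕ) [hp : Fact p.Prime] (s D N : G →* G)
    (hs : ∀ x, s^[p] x = x) (hD : ∀ x, D x = s x / x)
    (hN : ∀ x, N x = ∏ i ∈ Finset.range p, s^[i] x)
    (hA : (powMonoidHom p : G →* G).range.index ≠ 0)
    (hT : Nat.card (powMonoidHom p : G →* G).ker ≠ 0) :
    N.range.relIndex D.ker ≠ 0 ∧ D.range.relIndex N.ker ≠ 0 ∧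
    (D.ker.map (powMonoidHom p)).relIndex D.ker ≠ 0 ∧
    Nat.card ↥((powMonoidHom p : G →* G).ker ⊓ D.ker) ≠ 0 ∧
    N.range.relIndex D.ker ^ (p - 1) * Nat.card ↥((powMonoidHom p : G →* G).ker ⊓ D.ker) ^ p *
        (powMonoidHom p : G →* G).range.index =
      D.range.relIndex N.ker ^ (p - 1) * (D.ker.map (powMonoidHom p)).relIndex D.ker ^ p *
        Nat.card (powMonoidHom p : G →* G).ker := by
  have hs1 : addEnd s ^ p = 1 := by
    ext x
    rw [addEnd_pow_apply, hs]
    rfl
  have eP : (p : AddMonoid.End (Additive G)) = addEnd (powMonoidHom p : G →* G) := by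
    ext x
    simp [addEnd_apply]
  have eD : (addEnd s - 1 : AddMonoid.End (Additive G)) = addEnd D := by
    ext x
    show addEnd s x - x = _
    rw [addEnd_apply, addEnd_apply, hD]
    rfl
  have eN : (∑ i ∈ Finset.range p, addEnd s ^ i : AddMonoid.End (Additive G)) = addEnd N := by
    ext x
    have h1 : (∑ i ∈ Finset.range p, addEnd s ^ i : AddMonoid.End (Additive G)) x =
        ∑ i ∈ Finset.range p, (addEnd s ^ i) x := AddMonoidHom.finsetSum_apply _ _ _
    rw [h1]
    simp_rw [addEnd_pow_apply]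
    rw [addEnd_apply, hN, ofMul_prod]
  have h := herbrand_quotient_prime p (addEnd s) hs1 (by rw [eP]; exact hA) (by rw [eP]; exact hT)
  rw [eP, eD, eN] at h
  exact h

end Mul

section Field

variable {E E' : Type} [Field E] [Field E'] [Algebra E E'] [FiniteDimensional E E'] [IsGalois E E']

/-- **Norm index from `q₀`-counts.**  `E'/E` Galois of prime degree `p`; if
`|Eˣ/p| = p * |μ_p(E)| * c` and `|E'ˣ/p| = p * |μ_p(E')| * c ^ p` with `c ≠ 0`, then
`[Eˣ : N E'ˣ] = p`. -/
theorem norm_index_eq_prime (p : ℕ) [hp : Fact p.Prime] (hdeg : Module.finrank E E' = p) (c : ℕ)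
    (hc : c ≠ 0)
    (hE : (powMonoidHom p : Eˣ →* Eˣ).range.index = p * Nat.card (rootsOfUnity p E) * c)
    (hE' : (powMonoidHom p : E'ˣ →* E'ˣ).range.index =
      p * Nat.card (rootsOfUnity p E') * c ^ p) :
    (Units.map (Algebra.norm E : E' →* E)).range.index = p := by
  classical
  have hcard : Nat.card (E' ≃ₐ[E] E') = p := by rw [IsGalois.card_aut_eq_finrank, hdeg]
  obtain ⟨σ, hσ⟩ : ∃ σ : E' ≃ₐ[E] E', σ ≠ 1 := by
    by_contra h
    push Not at h
    haveI : Subsingleton (E' ≃ₐ[E] E') := ⟨fun a b => (h a).trans (h b).symm⟩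
    have h1 : Nat.card (E' ≃ₐ[E] E') ≤ 1 := Finite.card_le_one_iff_subsingleton.mpr inferInstance
    have := hp.out.two_le
    omega
  have hgen : ∀ τ : E' ≃ₐ[E] E', τ ∈ Subgroup.zpowers σ := by
    intro τ
    rw [zpowers_eq_top_of_prime_card hcard hσ]
    trivial
  haveI : IsCyclic (E' ≃ₐ[E] E') := ⟨σ, hgen⟩
  have hσp : σ ^ p = 1 := by
    rw [← hcard]
    exact pow_card_eq_one'
  have hord : orderOf σ = p := orderOf_eq_prime hσp hσ
  set s : E'ˣ →* E'ˣ := Units.map (σ : E' →* E') with hs
  set ι : Eˣ →* E'ˣ := Units.map (algebraMap E E' : E →* E') with hι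
  set nU : E'ˣ →* Eˣ := Units.map (Algebra.norm E : E' →* E) with hnU
  set D : E'ˣ →* E'ˣ := s / MonoidHom.id _ with hD
  set N : E'ˣ →* E'ˣ := ι.comp nU with hN
  set pw : E'ˣ →* E'ˣ := powMonoidHom p with hpw
  set pwE : Eˣ →* Eˣ := powMonoidHom p with hpwE
  have hιinj : Function.Injective ι := Units.map_injective (algebraMap E E').injective
  have hsi : ∀ (i : ℕ) (x : E'ˣ), ((s^[i] x : E'ˣ) : E') = (σ ^ i) (x : E') := by
    intro i
    induction i with
    | zero => intro x; rfl
    | succ i ih =>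
      intro x
      rw [Function.iterate_succ_apply, ih, pow_succ]
      rfl
  have hs_iter : ∀ x, s^[p] x = x := by
    intro x
    apply Units.ext
    rw [hsi, hσp]
    rfl
  have hD' : ∀ x, D x = s x / x := fun x => rfl
  have hN' : ∀ x, N x = ∏ i ∈ Finset.range p, s^[i] x := by
    intro x
    apply Units.ext
    rw [Units.coe_prod]
    simp_rw [hsi]
    show algebraMap E E' (Algebra.norm E (x : E')) = _
    rw [Algebra.norm_eq_prod_automorphisms]
    have himg : (Finset.range p).image (fun i => σ ^ i) = Finset.univ := by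
      apply Finset.eq_univ_of_card
      rw [Finset.card_image_of_injOn, Finset.card_range, ← Nat.card_eq_fintype_card, hcard]
      intro i hi j hj hij
      have hi' : i ∈ Set.Iio (orderOf σ) := by
        rw [hord]
        exact Finset.mem_range.mp hi
      have hj' : j ∈ Set.Iio (orderOf σ) := by
        rw [hord]
        exact Finset.mem_range.mp hj
      exact pow_injOn_Iio_orderOf hi' hj' hij
    rw [← himg, Finset.prod_image]
    intro i hi j hj hij
    have hi' : i ∈ Set.Iio (orderOf σ) := by
      rw [hord]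
      exact Finset.mem_range.mp hi
    have hj' : j ∈ Set.Iio (orderOf σ) := by
      rw [hord]
      exact Finset.mem_range.mp hj
    exact pow_injOn_Iio_orderOf hi' hj' hij
  -- fixed points
  have hKer : D.ker = ι.range := by
    ext x
    constructor
    · intro hx
      have h1 : s x / x = 1 := hx
      have h2 : σ (x : E') = x := by
        have := congrArg (fun u : E'ˣ => (u : E')) (div_eq_one.mp h1)
        exact this
      have h3 : ∀ τ : E' ≃ₐ[E] E', τ (x : E') = x := by
        intro τ
        have hle : Subgroup.zpowers σ ≤ MulAction.stabilizer (E' ≃ₐ[E] E') (x : E') := by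
          rw [Subgroup.zpowers_le]
          exact h2
        exact hle (hgen τ)
      obtain ⟨y, hy⟩ := (IsGalois.mem_range_algebraMap_iff_fixed (x : E')).mpr h3
      have hy0 : y ≠ 0 := by
        rintro rfl
        rw [map_zero] at hy
        exact x.ne_zero hy.symm
      exact ⟨Units.mk0 y hy0, Units.ext hy⟩
    · rintro ⟨y, rfl⟩
      show s (ι y) / ι y = 1
      rw [div_eq_one]
      apply Units.ext
      show σ (algebraMap E E' (y : E)) = algebraMap E E' (y : E)
      exact σ.commutes _
  have hrange : ι.range = (⊤ : Subgroup Eˣ).map ι := MonoidHom.range_eq_map ι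
  have i1 : N.range.relIndex D.ker = nU.range.index := by
    rw [hKer, hrange, hN, MonoidHom.range_comp, Subgroup.relIndex_map_map_of_injective _ _ hιinj,
      Subgroup.relIndex_top_right]
  have i2 : (D.ker.map pw).relIndex D.ker = pwE.range.index := by
    have e : ((⊤ : Subgroup Eˣ).map ι).map pw = pwE.range.map ι := by
      rw [Subgroup.map_map, MonoidHom.range_eq_map pwE, Subgroup.map_map]
      congr 1
      ext y
      simp [hpw, hpwE]
    rw [hKer, hrange, e, Subgroup.relIndex_map_map_of_injective _ _ hιinj,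
      Subgroup.relIndex_top_right]
  have i3 : Nat.card ↥(pw.ker ⊓ D.ker) = Nat.card (rootsOfUnity p E) := by
    have e : pw.ker ⊓ D.ker = (rootsOfUnity p E).map ι := by
      rw [hKer]
      ext x
      constructor
      · rintro ⟨h1, ⟨y, rfl⟩⟩
        refine ⟨y, ?_, rfl⟩
        have h2 : (ι y) ^ p = 1 := h1
        rw [← map_pow] at h2
        show y ∈ rootsOfUnity p E
        rw [mem_rootsOfUnity]
        exact hιinj (h2.trans (map_one ι).symm)
      · rintro ⟨y, hy, rfl⟩
        refine ⟨?_, ⟨y, rfl⟩⟩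
        have hy : y ∈ rootsOfUnity p E := hy
        rw [mem_rootsOfUnity] at hy
        show (ι y) ^ p = 1
        rw [← map_pow, hy, map_one]
    rw [e, Subgroup.card_map_of_injective hιinj]
  have i4 : Nat.card pw.ker = Nat.card (rootsOfUnity p E') := by
    have e : pw.ker = rootsOfUnity p E' := by
      ext x
      rw [mem_rootsOfUnity]
      rfl
    rw [e]
  have i5 : D.range.relIndex N.ker = 1 := by
    rw [Subgroup.relIndex_eq_one]
    intro x hx
    have h1 : ι (nU x) = 1 := hx
    have h2 : nU x = 1 := hιinj (h1.trans (map_one ι).symm)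
    have h3 : Algebra.norm E (x : E') = 1 := congrArg (fun u : Eˣ => (u : E)) h2
    obtain ⟨y, hy⟩ := groupCohomology.exists_div_of_norm_eq_one hgen h3
    refine ⟨y⁻¹, ?_⟩
    apply Units.ext
    show ((s y⁻¹ / y⁻¹ : E'ˣ) : E') = x
    rw [← hy, Units.val_div_eq_div_val, map_inv, Units.val_inv_eq_inv_val,
      Units.val_inv_eq_inv_val, inv_div_inv]
    rfl
  have hm : Nat.card (rootsOfUnity p E) ≠ 0 := Nat.card_pos.ne'
  have hm' : Nat.card (rootsOfUnity p E') ≠ 0 := Nat.card_pos.ne'
  have hp0 : p ≠ 0 := hp.out.ne_zero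
  have hA : pw.range.index ≠ 0 := by
    rw [hE']
    exact Nat.mul_ne_zero (Nat.mul_ne_zero hp0 hm') (pow_ne_zero _ hc)
  have hT : Nat.card pw.ker ≠ 0 := by
    rw [i4]
    exact hm'
  obtain ⟨-, -, -, -, key⟩ := herbrand_quotient_prime_mul p s D N hs_iter hD' hN' hA hT
  rw [i1, i2, i3, i4, i5, hE, hE', one_pow, one_mul] at key
  obtain ⟨n, hn⟩ : ∃ n, p = n + 1 := ⟨p - 1, (Nat.succ_pred_eq_of_pos hp.out.pos).symm⟩
  have hn' : p - 1 = n := by omega
  rw [hn'] at key
  set m := Nat.card (rootsOfUnity p E) with hm_def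
  set m' := Nat.card (rootsOfUnity p E') with hm'_def
  set h := nU.range.index with hh
  have key2 : h ^ n * (m ^ p * (p * m' * c ^ p)) = p ^ n * (m ^ p * (p * m' * c ^ p)) := by
    calc h ^ n * (m ^ p * (p * m' * c ^ p)) = h ^ n * m ^ p * (p * m' * c ^ p) := by ring
      _ = (p * m * c) ^ p * m' := key
      _ = (p * m * c) ^ (n + 1) * m' := by rw [← hn]
      _ = p ^ n * (m ^ (n + 1) * (p * m' * c ^ (n + 1))) := by ring
      _ = p ^ n * (m ^ p * (p * m' * c ^ p)) := by rw [← hn]
  have hpos : 0 < m ^ p * (p * m' * c ^ p) :=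
    Nat.pos_of_ne_zero (Nat.mul_ne_zero (pow_ne_zero _ hm)
      (Nat.mul_ne_zero (Nat.mul_ne_zero hp0 hm') (pow_ne_zero _ hc)))
  have key3 : h ^ n = p ^ n := Nat.eq_of_mul_eq_mul_right hpos key2
  have hn0 : n ≠ 0 := by
    have := hp.out.two_le
    omega
  exact Nat.pow_left_injective hn0 key3

end Field

end Fermat.Agent.PT.Local
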