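/-
PT / LOCAL layer, piece B2-R/p (helper33): for a number field `K ⊂ Q̄`, a place `A` of `Q̄` over
`q`, `M = decompField K A` (the henselisation) and `R = A ∩ M`:

  `#(R / p R) = p ^ [D_A : D_A ⊓ G_K]` if `q = p`,   `#(R / p R) = 1` if `q ≠ p`.

No `𝓞 K / 𝔭^e` and no `e · f`: `R` is the integral closure of `R₀ = A ∩ Q̄^{D_A}` in `M`,
`R₀ / p = 𝔽_p`, and `[M : Q̄^{D_A}] = [D_A : D_A ⊓ G_K]` by Galois theory.
-/
import Mathlib
import Fermat.Agent.PT.G.KumLocal

set_option autoImplicit false

open IsLocalRing Module IntermediateField Polynomial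

namespace Fermat.Agent.PT.Local

open Fermat.Agent.Lib.FrobeniusExists Fermat.Agent.PT.Kummer

local notation "Qb" => AlgebraicClosure ℚ
local notation "GQ" => (AlgebraicClosure ℚ ≃ₐ[ℚ] AlgebraicClosure ℚ)

attribute [local instance] isGalois_rat

section Abstract

/-- Abstract count: `R₀` a DVR with finite residue field, `M/M₀` a finite separable extension of
its fraction field, `R` the integral closure of `R₀` in `M`.  Then
`#(R / 𝔪₀ R) = #(R₀ / 𝔪₀) ^ [M : M₀]`. -/
theorem card_quotient_map_maximalIdeal (R₀ M₀ M R : Type*) [CommRing R₀] [IsDomain R₀]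
    [IsDiscreteValuationRing R₀] [Finite (ResidueField R₀)] [Field M₀] [Algebra R₀ M₀]
    [IsFractionRing R₀ M₀] [Field M] [Algebra M₀ M] [Algebra R₀ M] [IsScalarTower R₀ M₀ M]
    [FiniteDimensional M₀ M] [Algebra.IsSeparable M₀ M] [CommRing R] [Algebra R M]
    [IsIntegralClosure R R₀ M] [Algebra R₀ R] [IsScalarTower R₀ R M] :
    Nat.card (R ⧸ Ideal.map (algebraMap R₀ R) (maximalIdeal R₀)) =
      Nat.card (ResidueField R₀) ^ finrank M₀ M := by
  have hinj : Function.Injective (algebraMap R₀ M) := by
    rw [IsScalarTower.algebraMap_eq R₀ M₀ M]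
    exact (algebraMap M₀ M).injective.comp (IsFractionRing.injective R₀ M₀)
  have htf : IsTorsionFree R₀ M := isTorsionFree_iff_algebraMap_injective.mpr hinj
  have hfin : Module.Finite R₀ R := IsIntegralClosure.finite R₀ M₀ M R
  have hfree : Module.Free R₀ R := IsIntegralClosure.module_free R₀ M₀ M R
  have hrank : finrank R₀ R = finrank M₀ M := IsIntegralClosure.rank R₀ M₀ M R
  let _ := Ideal.Quotient.field (maximalIdeal R₀)
  have h1 := IsLocalRing.finrank_quotient_map (R := R₀) (S := R)
  have hfin2 : Module.Finite (R₀ ⧸ maximalIdeal R₀)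
      (R ⧸ Ideal.map (algebraMap R₀ R) (maximalIdeal R₀)) :=
    Module.Finite.of_restrictScalars_finite R₀ _ _
  have hfink : Finite (R₀ ⧸ maximalIdeal R₀) := ‹Finite (ResidueField R₀)›
  have h2 := Module.natCard_eq_pow_finrank (K := R₀ ⧸ maximalIdeal R₀)
    (V := R ⧸ Ideal.map (algebraMap R₀ R) (maximalIdeal R₀))
  rw [h2, h1, hrank]
  rfl

end Abstract

section RatPlace

theorem valuation_intCast_le_one (A : ValuationSubring Qb) (n : ℤ) : A.valuation (n : Qb) ≤ 1 :=
  val_le_one_of_isIntegral A.valuation
    (by simpa using (@isIntegral_algebraMap ℤ Qb _ _ (Ring.toIntAlgebra Qb) n))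

theorem valuation_intCast_le_of_dvd (A : ValuationSubring Qb) {p : ℕ} {n : ℤ}
    (h : (p : ℤ) ∣ n) : A.valuation (n : Qb) ≤ A.valuation (p : Qb) := by
  obtain ⟨m, rfl⟩ := h
  have := valuation_intCast_le_one A m
  rw [Int.cast_mul, map_mul, Int.cast_natCast]
  exact mul_le_of_le_one_right' this

variable {p : ℕ} (hp : p.Prime) {A : ValuationSubring Qb} (hA : A.LiesOverPrime p)
include hp hA

theorem valuation_intCast_lt_one_iff (n : ℤ) : A.valuation (n : Qb) < 1 ↔ (p : ℤ) ∣ n := by
  have hvp : A.valuation (p : Qb) < 1 := A.mem_nonunits_iff.mp hA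
  constructor
  · intro h
    by_contra hn
    rw [val_intCast_eq_one A.valuation hp hvp hn] at h
    exact lt_irrefl _ h
  · intro h
    exact lt_of_le_of_lt (valuation_intCast_le_of_dvd A h) hvp

theorem not_dvd_den_of_valuation_le_one (r : ℚ) (hr : A.valuation (r : Qb) ≤ 1) :
    ¬ (p : ℤ) ∣ (r.den : ℤ) := by
  have hvp : A.valuation (p : Qb) < 1 := A.mem_nonunits_iff.mp hA
  intro hden
  have hnum : ¬ (p : ℤ) ∣ r.num := by
    intro hnum
    have hcop := r.reduced
    have h1 : p ∣ r.num.natAbs := Int.natCast_dvd.1 hnum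
    have h2 : p ∣ r.den := Int.natCast_dvd_natCast.1 hden
    exact hp.one_lt.ne' (Nat.eq_one_of_dvd_coprimes hcop h1 h2)
  have hvnum : A.valuation ((r.num : ℤ) : Qb) = 1 := val_intCast_eq_one A.valuation hp hvp hnum
  have hvden : A.valuation (((r.den : ℤ) : ℤ) : Qb) < 1 :=
    (valuation_intCast_lt_one_iff hp hA _).2 hden
  have hden0 : A.valuation (((r.den : ℤ) : ℤ) : Qb) ≠ 0 := by
    rw [Valuation.ne_zero_iff]
    exact_mod_cast r.den_ne_zero
  rw [Rat.cast_def, map_div₀, hvnum] at hr
  have hr' : A.valuation (((r.den : ℤ) : ℤ) : Qb) < 1 := hvden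
  rw [Int.cast_natCast] at hr' hden0
  rw [one_div, inv_le_one₀ (zero_lt_iff.2 hden0)] at hr
  exact absurd hr' (not_lt.2 hr)

theorem valuation_den_eq_one (r : ℚ) (hr : A.valuation (r : Qb) ≤ 1) :
    A.valuation ((r.den : ℕ) : Qb) = 1 := by
  have hvp : A.valuation (p : Qb) < 1 := A.mem_nonunits_iff.mp hA
  have := val_intCast_eq_one A.valuation hp hvp (not_dvd_den_of_valuation_le_one hp hA r hr)
  rwa [Int.cast_natCast] at this

/-- A rational number which is integral at `A` is congruent to an integer. -/
theorem exists_int_valuation_sub_lt_one (r : ℚ) (hr : A.valuation (r : Qb) ≤ 1) :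
    ∃ n : ℤ, A.valuation ((r : Qb) - n) < 1 := by
  have hvp : A.valuation (p : Qb) < 1 := A.mem_nonunits_iff.mp hA
  have : Fact p.Prime := ⟨hp⟩
  have hden := not_dvd_den_of_valuation_le_one hp hA r hr
  have hvden := valuation_den_eq_one hp hA r hr
  have hden' : ((r.den : ℤ) : ZMod p) ≠ 0 := by
    rwa [Ne, ZMod.intCast_zmod_eq_zero_iff_dvd]
  obtain ⟨c, hc⟩ := ZMod.intCast_surjective ((r.num : ZMod p) * ((r.den : ℤ) : ZMod p)⁻¹)
  have hdvd : (p : ℤ) ∣ r.num - c * r.den := by
    rw [← ZMod.intCast_zmod_eq_zero_iff_dvd, Int.cast_sub, Int.cast_mul, hc, mul_assoc,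
      inv_mul_cancel₀ hden', mul_one, sub_self]
  refine ⟨c, ?_⟩
  have hden0 : ((r.den : ℕ) : Qb) ≠ 0 := by exact_mod_cast r.den_ne_zero
  have e : (r : Qb) - c = ((r.num - c * r.den : ℤ) : Qb) / ((r.den : ℕ) : Qb) := by
    rw [Rat.cast_def]
    push_cast
    field_simp
  rw [e, map_div₀, hvden, div_one]
  exact (valuation_intCast_lt_one_iff hp hA _).2 hdvd

/-- A rational number in the maximal ideal of `A` is divisible by `p`. -/
theorem valuation_ratCast_le_of_lt_one (r : ℚ) (hr : A.valuation (r : Qb) < 1) :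
    A.valuation (r : Qb) ≤ A.valuation (p : Qb) := by
  have hvden := valuation_den_eq_one hp hA r hr.le
  rw [Rat.cast_def, map_div₀, hvden, div_one] at hr ⊢
  exact valuation_intCast_le_of_dvd A ((valuation_intCast_lt_one_iff hp hA _).1 hr)

end RatPlace

section Base

variable {p : ℕ} (hp : p.Prime) (A : ValuationSubring Qb) (hA : A.LiesOverPrime p)
include hp hA

/-- The maximal ideal of `A ∩ Q̄^{D_A}` is generated by `p`. -/
theorem maximalIdeal_decompField_bot :
    maximalIdeal (A.comap (algebraMap (decompField ⊥ A) Qb)) =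
      Ideal.span {(p : A.comap (algebraMap (decompField ⊥ A) Qb))} := by
  have hvp : A.valuation (p : Qb) < 1 := A.mem_nonunits_iff.mp hA
  have hp0 : (p : A.comap (algebraMap (decompField ⊥ A) Qb)) ≠ 0 := by
    intro h
    have h1 := congrArg (fun x : A.comap (algebraMap (decompField ⊥ A) Qb) =>
      algebraMap (decompField ⊥ A) Qb (x : decompField ⊥ A)) h
    simp only [map_zero, ZeroMemClass.coe_zero] at h1
    have h2 : ((p : ℕ) : Qb) = 0 := by
      rw [← h1]
      simp
    exact hp.ne_zero (Nat.cast_eq_zero.1 h2)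
  have hpval : algebraMap (decompField ⊥ A) Qb
      ((p : A.comap (algebraMap (decompField ⊥ A) Qb)) : decompField ⊥ A) = (p : Qb) := by
    simp
  apply le_antisymm
  · intro x hx
    rw [mem_maximalIdeal_comap_iff] at hx
    rw [Ideal.mem_span_singleton]
    refine dvd_comap_of_valuation_le A _ x hp0 ?_
    rw [hpval]
    -- density of `ℚ`
    obtain ⟨y, hy, hxy⟩ := exists_mem_valuation_sub_le ⊥ hp A hA
      (algebraMap (decompField ⊥ A) Qb (x : decompField ⊥ A))
      ((mem_decompField_iff ⊥ A _).1 (x : decompField ⊥ A).2) 1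
    rw [pow_one] at hxy
    obtain ⟨r, rfl⟩ := IntermediateField.mem_bot.1 hy
    rw [eq_ratCast] at hxy
    have hr : A.valuation (r : Qb) < 1 := by
      have e : (r : Qb) = algebraMap (decompField ⊥ A) Qb (x : decompField ⊥ A) -
          (algebraMap (decompField ⊥ A) Qb (x : decompField ⊥ A) - r) := by ring
      rw [e]
      exact lt_of_le_of_lt (A.valuation.map_sub _ _) (max_lt hx (lt_of_le_of_lt hxy hvp))
    have hr' := valuation_ratCast_le_of_lt_one hp hA r hr
    have e : algebraMap (decompField ⊥ A) Qb (x : decompField ⊥ A) =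
        (algebraMap (decompField ⊥ A) Qb (x : decompField ⊥ A) - r) + r := by ring
    rw [e]
    exact le_trans (A.valuation.map_add _ _) (max_le hxy hr')
  · rw [Ideal.span_singleton_le_iff_mem, mem_maximalIdeal_comap_iff, hpval]
    exact hvp

/-- The residue field of `A ∩ Q̄^{D_A}` is `𝔽_p`. -/
theorem card_residueField_decompField_bot :
    Nat.card (ResidueField (A.comap (algebraMap (decompField ⊥ A) Qb))) = p := by
  have hvp : A.valuation (p : Qb) < 1 := A.mem_nonunits_iff.mp hA
  have hsurj : Function.Surjective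
      (Int.castRingHom (ResidueField (A.comap (algebraMap (decompField ⊥ A) Qb)))) := by
    intro z
    obtain ⟨x, rfl⟩ := residue_surjective z
    obtain ⟨y, hy, hxy⟩ := exists_mem_valuation_sub_le ⊥ hp A hA
      (algebraMap (decompField ⊥ A) Qb (x : decompField ⊥ A))
      ((mem_decompField_iff ⊥ A _).1 (x : decompField ⊥ A).2) 1
    rw [pow_one] at hxy
    obtain ⟨r, rfl⟩ := IntermediateField.mem_bot.1 hy
    rw [eq_ratCast] at hxy
    have hx1 : A.valuation (algebraMap (decompField ⊥ A) Qb (x : decompField ⊥ A)) ≤ 1 :=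
      (A.valuation_le_one_iff _).2 x.2
    have hr : A.valuation (r : Qb) ≤ 1 := by
      have e : (r : Qb) = algebraMap (decompField ⊥ A) Qb (x : decompField ⊥ A) -
          (algebraMap (decompField ⊥ A) Qb (x : decompField ⊥ A) - r) := by ring
      rw [e]
      exact le_trans (A.valuation.map_sub _ _) (max_le hx1 (hxy.trans hvp.le))
    obtain ⟨n, hn⟩ := exists_int_valuation_sub_lt_one hp hA r hr
    refine ⟨n, ?_⟩
    rw [eq_intCast, ← map_intCast (residue (A.comap (algebraMap (decompField ⊥ A) Qb))),
      ← sub_eq_zero, ← map_sub, residue_eq_zero_iff, mem_maximalIdeal_comap_iff]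
    have e : algebraMap (decompField ⊥ A) Qb
        (((n : A.comap (algebraMap (decompField ⊥ A) Qb)) - x :
          A.comap (algebraMap (decompField ⊥ A) Qb)) : decompField ⊥ A) =
        -((algebraMap (decompField ⊥ A) Qb (x : decompField ⊥ A) - r) + ((r : Qb) - n)) := by
      simp
    rw [e, Valuation.map_neg]
    exact lt_of_le_of_lt (A.valuation.map_add _ _) (max_lt (lt_of_le_of_lt hxy hvp) hn)
  have hker : RingHom.ker
      (Int.castRingHom (ResidueField (A.comap (algebraMap (decompField ⊥ A) Qb)))) =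
        Ideal.span {(p : ℤ)} := by
    ext n
    rw [RingHom.mem_ker, eq_intCast, Ideal.mem_span_singleton,
      ← map_intCast (residue (A.comap (algebraMap (decompField ⊥ A) Qb))),
      residue_eq_zero_iff, mem_maximalIdeal_comap_iff,
      ← valuation_intCast_lt_one_iff hp hA n]
    simp
  have e := RingHom.quotientKerEquivOfSurjective hsurj
  rw [← Nat.card_congr e.toEquiv, hker, Nat.card_congr (Int.quotientSpanNatEquivZMod p).toEquiv,
    Nat.card_zmod]

end Base

section Orbit

variable {Ω : Type*} [Field Ω] {Γ : Type*} [Group Γ] [MulSemiringAction Γ Ω]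

/-- **Orbit polynomial.** If `x` lies in a `D`-stable subring `S` and has finite `D`-orbit, it is
a root of a monic polynomial whose coefficients lie in `S` and are fixed by `D`. -/
theorem exists_monic_orbit_polynomial (D : Subgroup Γ) (S : Subring Ω)
    (hS : ∀ g ∈ D, ∀ z ∈ S, g • z ∈ S) (x : Ω) (hx : x ∈ S)
    (hfin : {z : Ω | ∃ g ∈ D, g • x = z}.Finite) :
    ∃ P : Polynomial Ω, P.Monic ∧ P.eval x = 0 ∧ ∀ n, P.coeff n ∈ S ∧ ∀ g ∈ D, g • P.coeff n = P.coeff n := by
  classical
  set s : Finset Ω := hfin.toFinset with hs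
  have hmem : ∀ z, z ∈ s ↔ ∃ g ∈ D, g • x = z := fun z => by
    rw [hs, Set.Finite.mem_toFinset]; rfl
  have hxs : x ∈ s := (hmem x).2 ⟨1, D.one_mem, one_smul _ _⟩
  have hsS : ∀ z ∈ s, z ∈ S := by
    intro z hz
    obtain ⟨g, hg, rfl⟩ := (hmem z).1 hz
    exact hS g hg x hx
  refine ⟨∏ z ∈ s, (X - C z), monic_prod_of_monic _ _ (fun z _ => monic_X_sub_C z), ?_, ?_⟩
  · rw [eval_prod]
    exact Finset.prod_eq_zero hxs (by simp)
  · intro n
    constructor
    · have h1 : (∏ z ∈ s, (X - C z)) ∈ Polynomial.liftsRing S.subtype := by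
        refine Subring.prod_mem _ (fun z hz => ?_)
        refine Subring.sub_mem _ ?_ ?_
        · exact ⟨X, by simp⟩
        · exact ⟨C ⟨z, hsS z hz⟩, by simp⟩
      obtain ⟨Q, hQ⟩ := h1
      rw [← hQ]
      simp
    · intro g hg
      have h2 : g • (∏ z ∈ s, (X - C z)) = ∏ z ∈ s, (X - C z) := by
        rw [Finset.smul_prod']
        have h3 : ∀ z ∈ s, g • (X - C z : Polynomial Ω) = X - C (g • z) := by
          intro z _
          rw [smul_sub, smul_X, smul_C]
        rw [Finset.prod_congr rfl h3]
        refine Finset.prod_bij' (fun z _ => g • z) (fun z _ => g⁻¹ • z) ?_ ?_ ?_ ?_ ?_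
        · intro z hz
          obtain ⟨k, hk, rfl⟩ := (hmem z).1 hz
          exact (hmem _).2 ⟨g * k, D.mul_mem hg hk, mul_smul _ _ _⟩
        · intro z hz
          obtain ⟨k, hk, rfl⟩ := (hmem z).1 hz
          exact (hmem _).2 ⟨g⁻¹ * k, D.mul_mem (D.inv_mem hg) hk, mul_smul _ _ _⟩
        · intro z _; simp
        · intro z _; simp
        · intro z _; rfl
      rw [← Polynomial.coeff_smul, h2]

end Orbit

section Galois

theorem decompField_bot_le (K : IntermediateField ℚ Qb) (A : ValuationSubring Qb) :
    decompField ⊥ A ≤ decompField K A := by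
  intro x hx
  rw [mem_decompField_iff] at hx ⊢
  intro g hg
  exact hx g ⟨hg.1, by rw [IntermediateField.fixingSubgroup_bot]; exact Subgroup.mem_top g⟩

/-- `[K_v^h : ℚ_q^h] = [D_A : D_A ⊓ G_K]`. -/
theorem finrank_decompField (K : IntermediateField ℚ Qb) (A : ValuationSubring Qb) :
    finrank (decompField ⊥ A) (extendScalars (decompField_bot_le K A)) =
      K.fixingSubgroup.relIndex (A.decompositionSubgroup ℚ) := by
  rw [IntermediateField.finrank_eq_fixingSubgroup_index]
  have h0 : (decompField ⊥ A).fixingSubgroup = A.decompositionSubgroup ℚ := by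
    rw [fixingSubgroup_decompField, IntermediateField.fixingSubgroup_bot, inf_top_eq]
  let e : (A.decompositionSubgroup ℚ) ≃* (Qb ≃ₐ[decompField ⊥ A] Qb) :=
    (MulEquiv.subgroupCongr h0.symm).trans (fixingSubgroupEquiv (decompField ⊥ A))
  have he : ∀ (σ : A.decompositionSubgroup ℚ) (x : Qb), e σ x = (σ : GQ) x := fun σ x => rfl
  have hcomap : (extendScalars (decompField_bot_le K A)).fixingSubgroup.comap e.toMonoidHom =
      K.fixingSubgroup.subgroupOf (A.decompositionSubgroup ℚ) := by
    ext σ
    rw [Subgroup.mem_comap, Subgroup.mem_subgroupOf, IntermediateField.mem_fixingSubgroup_iff]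
    constructor
    · intro h
      have h1 : (σ : GQ) ∈ (decompField K A).fixingSubgroup := by
        rw [IntermediateField.mem_fixingSubgroup_iff]
        intro x hx
        exact h x hx
      rw [fixingSubgroup_decompField] at h1
      exact h1.2
    · intro h x hx
      have h1 : (σ : GQ) ∈ (decompField K A).fixingSubgroup := by
        rw [fixingSubgroup_decompField]
        exact ⟨σ.2, h⟩
      exact (IntermediateField.mem_fixingSubgroup_iff _ _).1 h1 x hx
  rw [Subgroup.relIndex, ← hcomap, Subgroup.index_comap_of_surjective _ e.surjective]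

end Galois

section Main

variable (K : IntermediateField ℚ Qb) [FiniteDimensional ℚ K]

/-- **`#(R / p R) = p ^ [D_A : D_A ⊓ G_K]`** for `R = A ∩ decompField K A`, `A` over `p`. -/
theorem card_quot_span_natCast_of_liesOver {p : ℕ} (hp : p.Prime) (A : ValuationSubring Qb)
    (hA : A.LiesOverPrime p) :
    Nat.card ((A.comap (algebraMap (decompField K A) Qb)) ⧸
        Ideal.span {(p : A.comap (algebraMap (decompField K A) Qb))}) =
      p ^ K.fixingSubgroup.relIndex (A.decompositionSubgroup ℚ) := by
  classical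
  have h := decompField_bot_le K A
  have hnf : NumberField (⊥ : IntermediateField ℚ Qb) := PlaceDict.numberField ⊥
  have hdvr : IsDiscreteValuationRing (A.comap (algebraMap (decompField ⊥ A) Qb)) :=
    isDiscreteValuationRing_decompField ⊥ hp A hA
  have hfinres : Finite (ResidueField (A.comap (algebraMap (decompField ⊥ A) Qb))) :=
    finite_residueField_decompField ⊥ hp A hA
  let φ : A.comap (algebraMap (decompField ⊥ A) Qb) →+*
      A.comap (algebraMap (extendScalars h) Qb) :=
    { toFun := fun x => ⟨algebraMap (decompField ⊥ A) (extendScalars h) (x : decompField ⊥ A), x.2⟩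
      map_one' := rfl
      map_mul' := fun _ _ => rfl
      map_zero' := rfl
      map_add' := fun _ _ => rfl }
  let _ : Algebra (A.comap (algebraMap (decompField ⊥ A) Qb))
      (A.comap (algebraMap (extendScalars h) Qb)) := φ.toAlgebra
  let _ : Algebra (A.comap (algebraMap (decompField ⊥ A) Qb)) (extendScalars h) :=
    ((algebraMap (decompField ⊥ A) (extendScalars h)).comp
      (algebraMap (A.comap (algebraMap (decompField ⊥ A) Qb)) (decompField ⊥ A))).toAlgebra
  have hst1 : IsScalarTower (A.comap (algebraMap (decompField ⊥ A) Qb)) (decompField ⊥ A)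
      (extendScalars h) := IsScalarTower.of_algebraMap_eq (fun x => rfl)
  have hst2 : IsScalarTower (A.comap (algebraMap (decompField ⊥ A) Qb))
      (A.comap (algebraMap (extendScalars h) Qb)) (extendScalars h) :=
    IsScalarTower.of_algebraMap_eq (fun x => rfl)
  have hfrank := finrank_decompField K A
  have hKfi : K.fixingSubgroup.FiniteIndex := ⟨by
    rw [← IntermediateField.finrank_eq_fixingSubgroup_index]
    exact Module.finrank_pos.ne'⟩
  have hrel : K.fixingSubgroup.relIndex (A.decompositionSubgroup ℚ) ≠ 0 := by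
    have : (K.fixingSubgroup.subgroupOf (A.decompositionSubgroup ℚ)).FiniteIndex := inferInstance
    exact Subgroup.FiniteIndex.index_ne_zero
  have hfd : FiniteDimensional (decompField ⊥ A) (extendScalars h) :=
    Module.finite_of_finrank_pos (by rw [hfrank]; exact Nat.pos_of_ne_zero hrel)
  have hsep : Algebra.IsSeparable (decompField ⊥ A) (extendScalars h) :=
    Algebra.isSeparable_tower_bot_of_isSeparable (decompField ⊥ A) (extendScalars h) Qb
  have hic : IsIntegralClosure (A.comap (algebraMap (extendScalars h) Qb))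
      (A.comap (algebraMap (decompField ⊥ A) Qb)) (extendScalars h) := by
    refine ⟨Subtype.val_injective, ?_⟩
    intro x
    constructor
    · intro hx
      let ψ : A.comap (algebraMap (decompField ⊥ A) Qb) →+* A :=
        { toFun := fun y => ⟨algebraMap (decompField ⊥ A) Qb (y : decompField ⊥ A), y.2⟩
          map_one' := rfl
          map_mul' := fun _ _ => rfl
          map_zero' := rfl
          map_add' := fun _ _ => rfl }
      have h1 : IsIntegral A (algebraMap (extendScalars h) Qb x) :=
        hx.map_of_comp_eq ψ (algebraMap (extendScalars h) Qb) (by ext y; rfl)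
      obtain ⟨y, hy⟩ := IsIntegrallyClosed.isIntegral_iff.1 h1
      exact ⟨⟨x, by rw [ValuationSubring.mem_comap, ← hy]; exact y.2⟩, rfl⟩
    · rintro ⟨y, rfl⟩
      have hfin : {z : Qb | ∃ g ∈ A.decompositionSubgroup ℚ,
          g • (algebraMap (extendScalars h) Qb (y : extendScalars h)) = z}.Finite := by
        have hint : IsIntegral ℚ (algebraMap (extendScalars h) Qb (y : extendScalars h)) :=
          Algebra.IsIntegral.isIntegral _
        refine Set.Finite.subset (Polynomial.rootSet_finite
          (minpoly ℚ (algebraMap (extendScalars h) Qb (y : extendScalars h))) Qb) ?_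
        rintro z ⟨g, -, rfl⟩
        rw [Polynomial.mem_rootSet]
        refine ⟨minpoly.ne_zero hint, ?_⟩
        show Polynomial.aeval (g (algebraMap (extendScalars h) Qb (y : extendScalars h))) _ = 0
        rw [Polynomial.aeval_algHom_apply, minpoly.aeval, map_zero]
      obtain ⟨P, hPm, hPx, hPc⟩ := exists_monic_orbit_polynomial (Γ := GQ)
        (A.decompositionSubgroup ℚ) A.toSubring
        (fun g hg z hz => (apply_mem_iff_of_mem_decompositionSubgroup A hg z).2 hz)
        (algebraMap (extendScalars h) Qb (y : extendScalars h)) y.2 hfin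
      have hlift : P ∈ Polynomial.lifts ((algebraMap (extendScalars h) Qb).comp
          (algebraMap (A.comap (algebraMap (decompField ⊥ A) Qb)) (extendScalars h))) := by
        rw [Polynomial.lifts_iff_coeff_lifts]
        intro n
        obtain ⟨hS, hfix⟩ := hPc n
        have hmem : P.coeff n ∈ decompField ⊥ A :=
          (mem_decompField_iff ⊥ A _).2 (fun g hg => hfix g hg.1)
        exact ⟨⟨⟨P.coeff n, hmem⟩, hS⟩, rfl⟩
      obtain ⟨Q, hQ, -, hQm⟩ := Polynomial.lifts_and_degree_eq_and_monic hlift hPm
      refine ⟨Q, hQm, ?_⟩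
      apply (algebraMap (extendScalars h) Qb).injective
      rw [map_zero, Polynomial.hom_eval₂, Polynomial.eval₂_eq_eval_map, hQ]
      exact hPx
  have hcard := card_quotient_map_maximalIdeal (A.comap (algebraMap (decompField ⊥ A) Qb))
    (decompField ⊥ A) (extendScalars h) (A.comap (algebraMap (extendScalars h) Qb))
  rw [card_residueField_decompField_bot hp A hA, hfrank, maximalIdeal_decompField_bot hp A hA,
    Ideal.map_span, Set.image_singleton, map_natCast] at hcard
  exact hcard

omit [FiniteDimensional ℚ ↥K] in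
/-- `#(R / p R) = 1` for `R = A ∩ decompField K A`, `A` over `q ≠ p`. -/
theorem card_quot_span_natCast_of_ne {p q : ℕ} (hq : q.Prime) (hpq : ¬ q ∣ p)
    (A : ValuationSubring Qb) (hA : A.LiesOverPrime q) :
    Nat.card ((A.comap (algebraMap (decompField K A) Qb)) ⧸
        Ideal.span {(p : A.comap (algebraMap (decompField K A) Qb))}) = 1 := by
  have hvq : A.valuation (q : Qb) < 1 := A.mem_nonunits_iff.mp hA
  have hv : A.valuation ((p : ℤ) : Qb) = 1 :=
    val_intCast_eq_one A.valuation hq hvq (fun h => hpq (Int.natCast_dvd_natCast.1 h))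
  have hunit : IsUnit (p : A.comap (algebraMap (decompField K A) Qb)) := by
    rw [isUnit_comap_iff]
    simpa using hv
  rw [Ideal.span_singleton_eq_top.2 hunit]
  have : Subsingleton ((A.comap (algebraMap (decompField K A) Qb)) ⧸
      (⊤ : Ideal (A.comap (algebraMap (decompField K A) Qb)))) :=
    Ideal.Quotient.subsingleton_iff.2 rfl
  exact Nat.card_unique

/-- **(B2-R/p)** `#(R / p R) = p ^ [D_A : D_A ⊓ G_K]` if `q = p`, and `1` otherwise. -/
theorem card_quot_span_natCast {p q : ℕ} (hp : p.Prime) (hq : q.Prime)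
    (A : ValuationSubring Qb) (hA : A.LiesOverPrime q) :
    Nat.card ((A.comap (algebraMap (decompField K A) Qb)) ⧸
        Ideal.span {(p : A.comap (algebraMap (decompField K A) Qb))}) =
      if q = p then p ^ K.fixingSubgroup.relIndex (A.decompositionSubgroup ℚ) else 1 := by
  split_ifs with hqp
  · subst hqp
    exact card_quot_span_natCast_of_liesOver K hp A hA
  · exact card_quot_span_natCast_of_ne K hq
      (fun h => hqp ((Nat.prime_dvd_prime_iff_eq hq hp).1 h)) A hA

end Main

end Fermat.Agent.PT.Local
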